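import Fermat.Agent.LT.Theta.Modulated
import Fermat.Agent.LT.Boundary.Defs
import Mathlib.MeasureTheory.Measure.Lebesgue.VolumeOfBalls
import Mathlib.MeasureTheory.Integral.Pi

/-!
Series of products of Bessel functions with nonzero frequencies: continuity, the spherical
eigen-property and vanishing means over horizontal boxes.
-/

set_option autoImplicit false

noncomputable section

namespace Fermat.Agent.LT.Theta

open MeasureTheory Complex Adelic Filter
open Poisson (eC eC_add)
open scoped Real Topology

variable {ι : Type*} [Fintype ι]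

/-- `∏ 2 r K₀(4π r |α|) e(2 Re (z α))`. -/
def whitProd (α : ι → ℂ) (τ : ι → HSpace) : ℂ :=
  ∏ i, ((2 * (τ i).r * besselK0 (4 * π * (τ i).r * ‖α i‖) : ℝ) : ℂ) *
    eC (2 * ((τ i).z * α i).re)

theorem qWhit_eq_whitProd (u : ι → ℂ) (τ : ι → HSpace) (x : ι → ℂ × ℂ) :
    qWhit u τ x = whitProd (fun i => u i * (x i).1 * (x i).2) τ := by
  refine Finset.prod_congr rfl fun i _ => ?_
  rw [show (τ i).z * u i * (x i).1 * (x i).2 = (τ i).z * (u i * (x i).1 * (x i).2) by ring]

/-- The absolute value of `whitProd`, a function of the heights. -/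
def whitAbs (α : ι → ℂ) (r : ι → ℝ) : ℝ :=
  ∏ i, 2 * r i * besselK0 (4 * π * r i * ‖α i‖)

theorem norm_whitProd (α : ι → ℂ) (τ : ι → HSpace) :
    ‖whitProd α τ‖ = whitAbs α fun i => (τ i).r := by
  rw [whitProd, norm_prod]
  refine Finset.prod_congr rfl fun i _ => ?_
  rw [norm_mul, Poisson.norm_eC, mul_one, norm_real, Real.norm_eq_abs, abs_of_nonneg]
  exact mul_nonneg (mul_nonneg zero_le_two (τ i).r_pos.le) (besselK0_nonneg _)

theorem whitAbs_le {α : ι → ℂ} (hα : ∀ i, α i ≠ 0) {a b r : ι → ℝ} (ha : ∀ i, 0 < a i)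
    (har : ∀ i, a i ≤ r i) (hrb : ∀ i, r i ≤ b i) :
    whitAbs α r ≤ (∏ i, b i / a i) * whitAbs α a := by
  rw [whitAbs, whitAbs, ← Finset.prod_mul_distrib]
  refine Finset.prod_le_prod (fun i _ => ?_) fun i _ => ?_
  · exact mul_nonneg (mul_nonneg zero_le_two ((ha i).le.trans (har i))) (besselK0_nonneg _)
  · have h0 := norm_pos_iff.mpr (hα i)
    have hai := ha i
    have h1 : besselK0 (4 * π * r i * ‖α i‖) ≤ besselK0 (4 * π * a i * ‖α i‖) :=
      antitoneOn_besselK0 (Set.mem_Ioi.mpr (by positivity))
        (Set.mem_Ioi.mpr (by have := hai.trans_le (har i); positivity))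
        (by gcongr; exact har i)
    calc 2 * r i * besselK0 (4 * π * r i * ‖α i‖) ≤ 2 * b i * besselK0 (4 * π * a i * ‖α i‖) :=
          mul_le_mul (by linarith [hrb i]) h1 (besselK0_nonneg _)
            (by linarith [hai, har i, hrb i])
      _ = _ := by field_simp

theorem continuousOn_besselK0 : ContinuousOn besselK0 (Set.Ioi 0) := by
  intro x hx
  have hx : 0 < x := hx
  refine ContinuousAt.continuousWithinAt ?_
  unfold besselK0
  refine continuousAt_of_dominated (bound := fun t => Real.exp (-(x / 2) * Real.cosh t))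
    (Eventually.of_forall fun y => (by fun_prop : Continuous fun t : ℝ =>
      Real.exp (-y * Real.cosh t)).aestronglyMeasurable) ?_
    (integrable_exp_neg_mul_cosh (half_pos hx)).integrableOn
    (Eventually.of_forall fun t => by fun_prop)
  filter_upwards [Ioi_mem_nhds (half_lt_self hx)] with y hy
  refine Eventually.of_forall fun t => ?_
  rw [Real.norm_eq_abs, Real.abs_exp]
  gcongr
  exact hy.le

theorem continuous_whitProd {α : ι → ℂ} (hα : ∀ i, α i ≠ 0) : Continuous (whitProd α) := by
  refine continuous_finsetProd _ fun i _ => ?_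
  have hr : Continuous fun τ : ι → HSpace => (τ i).r :=
    HSpace.continuous_r.comp (continuous_apply i)
  have hz : Continuous fun τ : ι → HSpace => (τ i).z :=
    HSpace.continuous_z.comp (continuous_apply i)
  refine (continuous_ofReal.comp ((continuous_const.mul hr).mul
    (continuousOn_besselK0.comp_continuous ((continuous_const.mul hr).mul continuous_const)
      fun τ => ?_))).mul (by unfold eC; fun_prop)
  have := norm_pos_iff.mpr (hα i)
  have := (τ i).r_pos
  show (0 : ℝ) < 4 * π * (τ i).r * ‖α i‖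
  positivity

variable {Q : Type*}

/-- Coefficients of an absolutely convergent series of `whitProd`s without constant term. -/
structure IsWhitSeries (w : Q → ℂ) (α : Q → ι → ℂ) : Prop where
  ne_zero : ∀ q i, α q i ≠ 0
  summable : ∀ r : ι → ℝ, (∀ i, 0 < r i) → Summable fun q => ‖w q‖ * whitAbs (α q) r

namespace IsWhitSeries

variable {w : Q → ℂ} {α : Q → ι → ℂ}

/-- A uniform bound on the terms over a window of heights. -/
theorem norm_term_le (h : IsWhitSeries w α) {a b : ι → ℝ} (ha : ∀ i, 0 < a i) (q : Q)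
    {τ : ι → HSpace} (har : ∀ i, a i ≤ (τ i).r) (hrb : ∀ i, (τ i).r ≤ b i) :
    ‖w q * whitProd (α q) τ‖ ≤ (∏ i, b i / a i) * (‖w q‖ * whitAbs (α q) a) := by
  rw [norm_mul, norm_whitProd, mul_left_comm]
  exact mul_le_mul_of_nonneg_left (whitAbs_le (h.ne_zero q) ha har hrb) (norm_nonneg _)

theorem summable_norm (h : IsWhitSeries w α) (τ : ι → HSpace) :
    Summable fun q => ‖w q * whitProd (α q) τ‖ := by
  simp only [norm_mul, norm_whitProd]
  exact h.summable _ fun i => (τ i).r_pos

theorem summable_term (h : IsWhitSeries w α) (τ : ι → HSpace) :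
    Summable fun q => w q * whitProd (α q) τ :=
  (h.summable_norm τ).of_norm

theorem continuous_tsum (h : IsWhitSeries w α) :
    Continuous fun τ => ∑' q, w q * whitProd (α q) τ := by
  refine continuous_iff_continuousAt.mpr fun τ₀ => ?_
  set a : ι → ℝ := fun i => (τ₀ i).r / 2 with ha
  set b : ι → ℝ := fun i => 2 * (τ₀ i).r with hb
  set O : Set (ι → HSpace) := {τ | ∀ i, a i < (τ i).r ∧ (τ i).r < b i} with hO
  have hopen : IsOpen O := by
    simp only [hO, Set.ofPred_forall]
    refine isOpen_iInter_of_finite fun i => ?_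
    have hr : Continuous fun τ : ι → HSpace => (τ i).r :=
      HSpace.continuous_r.comp (continuous_apply i)
    exact (isOpen_lt continuous_const hr).inter (isOpen_lt hr continuous_const)
  have hmem : τ₀ ∈ O := fun i => by
    have := (τ₀ i).r_pos
    simp only [ha, hb]
    constructor <;> linarith
  refine (continuousOn_tsum (fun q => (continuous_const.mul
    (continuous_whitProd (h.ne_zero q))).continuousOn)
    ((h.summable a fun i => by simp only [ha]; exact half_pos (τ₀ i).r_pos).mul_left
      (∏ i, b i / a i)) fun q τ hτ => ?_).continuousAt (hopen.mem_nhds hmem)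
  exact h.norm_term_le (fun i => half_pos (τ₀ i).r_pos) q (fun i => (hτ i).1.le)
    fun i => (hτ i).2.le

theorem integral_pointPair [DecidableEq ι] (h : IsWhitSeries w α) [Countable Q] {k : ℝ → ℂ}
    (hk : Continuous k) (hc : HasCompactSupport k) (τ : ι → HSpace) (i : ι) :
    ∫ σ, k (HSpace.coshDist (τ i) σ) * ∑' q, w q * whitProd (α q) (Function.update τ i σ)
        ∂HSpace.measure =
      sphTransform k 0 * ∑' q, w q * whitProd (α q) τ := by
  obtain ⟨a, b, R, ha, hbox⟩ := exists_kernelBox hc (τ i)
  obtain ⟨M, hM⟩ := hc.exists_bound_of_continuous hk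
  have hM0 : 0 ≤ M := (norm_nonneg _).trans (hM 0)
  set lo : ι → ℝ := Function.update (fun j => (τ j).r) i a with hlo
  set hi : ι → ℝ := Function.update (fun j => (τ j).r) i b with hhi
  have hlo0 : ∀ j, 0 < lo j := fun j => by
    rcases eq_or_ne j i with rfl | hj
    · simpa [hlo] using ha
    · simpa [hlo, Function.update_of_ne hj] using (τ j).r_pos
  set F : Q → HSpace → ℂ := fun q σ =>
    k (HSpace.coshDist (τ i) σ) * (w q * whitProd (α q) (Function.update τ i σ))
  have hbound : ∀ q σ, ‖F q σ‖ ≤ (kernelBox (τ i).z R a b).indicator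
      (fun _ => M * ((∏ j, hi j / lo j) * (‖w q‖ * whitAbs (α q) lo))) σ := by
    intro q σ
    simp only [F]
    by_cases h0 : k (HSpace.coshDist (τ i) σ) = 0
    · rw [h0, zero_mul, norm_zero]
      refine Set.indicator_nonneg (fun x hx => ?_) _
      have hab : a ≤ b := hx.2.1.trans hx.2.2
      refine mul_nonneg hM0 (mul_nonneg (Finset.prod_nonneg fun j _ => div_nonneg ?_ (hlo0 j).le)
        (mul_nonneg (norm_nonneg _) (Finset.prod_nonneg fun j _ => mul_nonneg
          (mul_nonneg zero_le_two (hlo0 j).le) (besselK0_nonneg _))))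
      rcases eq_or_ne j i with rfl | hj
      · simpa [hhi] using ha.le.trans hab
      · simpa [hhi, Function.update_of_ne hj] using (τ j).r_pos.le
    have hσ := hbox σ h0
    rw [Set.indicator_of_mem hσ, norm_mul]
    refine mul_le_mul (hM _) (h.norm_term_le hlo0 q (fun j => ?_) fun j => ?_) (norm_nonneg _) hM0
    · rcases eq_or_ne j i with rfl | hj
      · simpa [hlo] using hσ.2.1
      · simp [hlo, Function.update_of_ne hj]
    · rcases eq_or_ne j i with rfl | hj
      · simpa [hhi] using hσ.2.2
      · simp [hhi, Function.update_of_ne hj]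
  have hupd : Continuous fun σ : HSpace => Function.update τ i σ :=
    continuous_const.update i continuous_id
  have hint : ∀ q, Integrable (F q) HSpace.measure := fun q =>
    integrable_kernel_mul hk hc (τ i)
      (continuous_const.mul ((continuous_whitProd (h.ne_zero q)).comp hupd))
  have hind : ∀ B : ℝ, Integrable ((kernelBox (τ i).z R a b).indicator fun _ => B)
      HSpace.measure := fun B => (integrable_indicator_iff (measurableSet_kernelBox _ _ _)).mpr
      (integrableOn_const (measure_kernelBox_lt_top _ _ _ ha).ne)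
  have hsum : Summable fun q => ∫ σ, ‖F q σ‖ ∂HSpace.measure := by
    refine Summable.of_nonneg_of_le (fun q => integral_nonneg fun σ => norm_nonneg _)
      (fun q => (integral_mono (hint q).norm (hind _) (hbound q)).trans (le_of_eq ?_))
      ((((h.summable lo hlo0).mul_left (∏ j, hi j / lo j)).mul_left M).mul_left
        (HSpace.measure.real (kernelBox (τ i).z R a b)))
    rw [integral_indicator (measurableSet_kernelBox _ _ _), setIntegral_const, smul_eq_mul]
  have heach : ∀ q, ∫ σ, F q σ ∂HSpace.measure =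
      sphTransform k 0 * (w q * whitProd (α q) τ) := by
    intro q
    have key := integral_pointPair_qWhit hk hc (α q) τ (fun _ => ((1 : ℂ), (1 : ℂ))) i
      (by simpa using h.ne_zero q i)
    simp only [qWhit_eq_whitProd, mul_one] at key
    simp only [F, mul_left_comm _ (w q)]
    rw [integral_const_mul, key]
  calc _ = ∫ σ, ∑' q, F q σ ∂HSpace.measure := by
        refine integral_congr_ae (Eventually.of_forall fun σ => ?_)
        simp only [F, tsum_mul_left]
    _ = ∑' q, ∫ σ, F q σ ∂HSpace.measure :=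
        (integral_tsum_of_summable_integral_norm hint hsum).symm
    _ = _ := by simp only [heach, tsum_mul_left]

end IsWhitSeries

/-! ### Means over boxes -/

theorem norm_setIntegral_eC_ball_le {α : ℂ} (hα : α ≠ 0) {R : ℝ}
    (hR : ‖(4 * α)⁻¹‖ ≤ R) :
    ‖∫ z in Metric.closedBall (0 : ℂ) R, eC (2 * (z * α).re)‖ ≤
      2 * π * R * ‖(4 * α)⁻¹‖ := by
  set h := (4 * α)⁻¹ with hh
  set f : ℂ → ℂ := fun z => eC (2 * (z * α).re) with hf
  have hfc : Continuous f := by simp only [hf, eC]; fun_prop
  have hnorm : ∀ z, ‖f z‖ = 1 := fun z => Poisson.norm_eC _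
  have hshift : ∀ z, f (z + h) = -f z := by
    intro z
    have h2 : h * α = 1 / 4 := by rw [hh]; field_simp
    simp only [hf, add_mul, h2, add_re, mul_add, eC_add]
    rw [show 2 * (1 / 4 : ℂ).re = 1 / 2 by norm_num]
    rw [show eC (1 / 2) = -1 by
      rw [Poisson.eC, show 2 * (π : ℂ) * I * ((1 / 2 : ℝ) : ℂ) = π * I by push_cast; ring,
        exp_pi_mul_I]]
    ring
  set B := Metric.closedBall (0 : ℂ) R
  set B' := Metric.closedBall h R
  set C := Metric.closedBall (0 : ℂ) (R - ‖h‖)
  have hint : ∀ c : ℂ, ∀ r : ℝ, IntegrableOn f (Metric.closedBall c r) := fun c r =>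
    hfc.continuousOn.integrableOn_compact (isCompact_closedBall c r)
  have hB' : ∫ z in B', f z = -∫ z in B, f z := by
    rw [← integral_neg, ← (measurePreserving_add_right volume h).setIntegral_preimage_emb
      (MeasurableEquiv.addRight h).measurableEmbedding f B']
    have hpre : (fun x => x + h) ⁻¹' B' = B := by
      ext x
      simp [B', B, dist_eq_norm]
    rw [hpre]
    exact setIntegral_congr_fun measurableSet_closedBall fun z _ => hshift z
  have hCB : C ⊆ B := Metric.closedBall_subset_closedBall (by linarith [norm_nonneg h])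
  have hCB' : C ⊆ B' := Metric.closedBall_subset_closedBall' (by
    rw [dist_zero_left]; linarith)
  have hvol : ∀ c : ℂ, ∀ r : ℝ, 0 ≤ r → volume.real (Metric.closedBall c r) = π * r ^ 2 := by
    intro c r hr
    rw [measureReal_def, Complex.volume_closedBall]
    simp [ENNReal.toReal_mul, hr, mul_comm]
  have hdiff : ∀ c : ℂ, C ⊆ Metric.closedBall c R →
      ‖(∫ z in Metric.closedBall c R, f z) - ∫ z in C, f z‖ ≤
        π * R ^ 2 - π * (R - ‖h‖) ^ 2 := by
    intro c hsub
    rw [← setIntegral_sdiff measurableSet_closedBall (hint c R) hsub]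
    refine (norm_setIntegral_le_of_norm_le_const
      ((measure_mono Set.sdiff_subset).trans_lt measure_closedBall_lt_top)
      fun z _ => (hnorm z).le).trans (le_of_eq ?_)
    rw [one_mul, measureReal_sdiff hsub measurableSet_closedBall
      measure_closedBall_lt_top.ne, hvol c R ((norm_nonneg h).trans hR),
      hvol 0 (R - ‖h‖) (by linarith)]
  have key : ‖∫ z in B, f z‖ ≤ π * R ^ 2 - π * (R - ‖h‖) ^ 2 := by
    have h1 := hdiff 0 hCB
    have h2 := hdiff h hCB'
    rw [hB'] at h2
    have h3 := norm_sub_le ((∫ z in B, f z) - ∫ z in C, f z)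
      ((-∫ z in B, f z) - ∫ z in C, f z)
    rw [show ((∫ z in B, f z) - ∫ z in C, f z) - ((-∫ z in B, f z) - ∫ z in C, f z) =
      2 * ∫ z in B, f z by ring, norm_mul, Complex.norm_two] at h3
    linarith
  refine key.trans ?_
  nlinarith [Real.pi_pos, mul_nonneg Real.pi_pos.le (sq_nonneg ‖h‖)]

theorem tendsto_average_eC {α : ℂ} (hα : α ≠ 0) :
    Tendsto (fun R : ℝ => ⨍ z in Metric.closedBall (0 : ℂ) R, eC (2 * (z * α).re))
      atTop (𝓝 0) := by
  refine squeeze_zero_norm' (a := fun R => 2 * ‖(4 * α)⁻¹‖ / R) ?_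
    (tendsto_const_nhds.div_atTop tendsto_id)
  filter_upwards [eventually_ge_atTop ‖(4 * α)⁻¹‖, eventually_gt_atTop 0] with R hR hR0
  rw [setAverage_eq, norm_smul, measureReal_def, Complex.volume_closedBall]
  simp only [ENNReal.toReal_mul, ENNReal.toReal_pow, ENNReal.toReal_ofReal hR0.le,
    ENNReal.coe_toReal, norm_inv, norm_mul, norm_pow, Real.norm_eq_abs, NNReal.coe_real_pi,
    abs_of_pos hR0, abs_of_pos Real.pi_pos]
  calc (R ^ 2 * π)⁻¹ * ‖∫ z in Metric.closedBall (0 : ℂ) R, eC (2 * (z * α).re)‖
      ≤ (R ^ 2 * π)⁻¹ * (2 * π * R * ‖(4 * α)⁻¹‖) :=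
        mul_le_mul_of_nonneg_left (norm_setIntegral_eC_ball_le hα hR) (by positivity)
    _ = _ := by simp only [norm_inv, norm_mul]; field_simp

theorem average_pi_prod (f : ι → ℂ → ℂ) (R : ℝ) :
    ⨍ z in Set.univ.pi (fun _ : ι => Metric.closedBall (0 : ℂ) R), ∏ i, f i (z i)
        ∂(volume : Measure (ι → ℂ)) =
      ∏ i, ⨍ z in Metric.closedBall (0 : ℂ) R, f i z := by
  simp only [setAverage_eq, Complex.real_smul, Finset.prod_mul_distrib]
  rw [volume_pi, measureReal_def, Measure.pi_pi, ENNReal.toReal_prod, Measure.restrict_pi_pi,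
    integral_fintype_prod_eq_prod]
  simp only [measureReal_def, ← Finset.prod_inv_distrib, ofReal_prod]

namespace IsWhitSeries

variable {w : Q → ℂ} {α : Q → ι → ℂ}

/-- The means over boxes at fixed heights tend to zero. -/
theorem tendsto_average (h : IsWhitSeries w α) [Countable Q] [Nonempty ι] (r : ι → ℝ)
    (hr : ∀ i, 0 < r i) :
    Tendsto (fun R : ℝ => ⨍ z in Set.univ.pi (fun _ : ι => Metric.closedBall (0 : ℂ) R),
      (∑' q, w q * whitProd (α q) fun i => ⟨z i, r i, hr i⟩) ∂(volume : Measure (ι → ℂ)))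
      atTop (𝓝 0) := by
  classical
  set c : Q → ℂ := fun q => w q * (whitAbs (α q) r : ℂ) with hcdef
  have hterm : ∀ q (z : ι → ℂ), w q * whitProd (α q) (fun i => ⟨z i, r i, hr i⟩) =
      c q * ∏ i, eC (2 * (z i * α q i).re) := by
    intro q z
    simp only [hcdef, whitAbs, whitProd, ofReal_prod, mul_assoc (w q), ← Finset.prod_mul_distrib]
  have hc : Summable fun q => ‖c q‖ := by
    refine (h.summable r hr).congr fun q => ?_
    rw [hcdef, norm_mul, norm_real, Real.norm_eq_abs, abs_of_nonneg]
    exact Finset.prod_nonneg fun i _ =>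
      mul_nonneg (mul_nonneg zero_le_two (hr i).le) (besselK0_nonneg _)
  simp only [hterm]
  set A : ℝ → Q → ℂ := fun R q => c q *
    ∏ i, ⨍ z in Metric.closedBall (0 : ℂ) R, eC (2 * (z * α q i).re) with hA
  have havg1 : ∀ R q i, ‖⨍ z in Metric.closedBall (0 : ℂ) R, eC (2 * (z * α q i).re)‖ ≤ 1 := by
    intro R q i
    rw [setAverage_eq, norm_smul, norm_inv, Real.norm_eq_abs, abs_of_nonneg measureReal_nonneg]
    refine (mul_le_mul_of_nonneg_left (norm_setIntegral_le_of_norm_le_const
      measure_closedBall_lt_top fun z _ => (Poisson.norm_eC _).le)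
      (inv_nonneg.mpr measureReal_nonneg)).trans ?_
    rw [one_mul]
    exact inv_mul_le_one_of_le₀ le_rfl measureReal_nonneg
  have hlim : Tendsto (fun R => ∑' q, A R q) atTop (𝓝 0) := by
    rw [← tsum_zero (α := ℂ) (β := Q)]
    refine tendsto_tsum_of_dominated_convergence hc (fun q => ?_)
      (Eventually.of_forall fun R q => ?_)
    · obtain ⟨i₀⟩ := ‹Nonempty ι›
      have := (tendsto_finsetProd Finset.univ fun i _ =>
        tendsto_average_eC (h.ne_zero q i)).const_mul (c q)
      rwa [Finset.prod_eq_zero (Finset.mem_univ i₀) rfl, mul_zero] at this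
    · rw [hA, norm_mul, norm_prod]
      exact mul_le_of_le_one_right (norm_nonneg _)
        (Finset.prod_le_one (fun i _ => norm_nonneg _) fun i _ => havg1 R q i)
  refine hlim.congr fun R => ?_
  set B := Set.univ.pi (fun _ : ι => Metric.closedBall (0 : ℂ) R)
  have hB : volume B < ⊤ := (isCompact_univ_pi fun _ => isCompact_closedBall _ _).measure_lt_top
  have hgc : ∀ q, Continuous fun z : ι → ℂ => c q * ∏ i, eC (2 * (z i * α q i).re) := fun q => by
    unfold eC; fun_prop
  have hgn : ∀ q (z : ι → ℂ), ‖c q * ∏ i, eC (2 * (z i * α q i).re)‖ = ‖c q‖ := fun q z => by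
    simp [Poisson.norm_eC]
  have hint : ∀ q, IntegrableOn (fun z : ι → ℂ => c q * ∏ i, eC (2 * (z i * α q i).re)) B :=
    fun q => IntegrableOn.of_bound hB (hgc q).aestronglyMeasurable ‖c q‖
      (Eventually.of_forall fun z => (hgn q z).le)
  rw [setAverage_eq, ← integral_tsum_of_summable_integral_norm hint (by
    simp only [hgn, setIntegral_const, smul_eq_mul]; exact hc.mul_left _)]
  rw [← tsum_const_smul'']
  refine tsum_congr fun q => ?_
  rw [← setAverage_eq, hA]
  simp only [← average_pi_prod]
  rw [setAverage_eq, setAverage_eq, integral_const_mul, mul_smul_comm]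

end IsWhitSeries

variable {K : Type*} [Field K] [NumberField K] {Φ : Frame K ι} {U : Subgroup (GfK K)}
  {φ : Space Φ U → ℂ} {Qy : Yf U → Type*} {w : ∀ y, Qy y → ℂ} {α : ∀ y, Qy y → ι → ℂ}

/-- A function given by series of Bessel products at every finite coordinate. -/
structure IsWhitExpansion (φ : Space Φ U → ℂ) (w : ∀ y, Qy y → ℂ) (α : ∀ y, Qy y → ι → ℂ) :
    Prop where
  countable : ∀ y, Countable (Qy y)
  series : ∀ y, IsWhitSeries (w y) (α y)
  eq : ∀ y τ, φ (Space.mk τ y) = ∑' q, w y q * whitProd (α y q) τ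

theorem IsWhitExpansion.continuous (h : IsWhitExpansion φ w α) (y : Yf U) :
    Continuous fun τ : ι → HSpace => φ (Space.mk τ y) := by
  simp only [h.eq]
  exact (h.series y).continuous_tsum

theorem IsWhitExpansion.hasZeroMean [DecidableEq ι] [Nonempty ι] (h : IsWhitExpansion φ w α) :
    HasZeroMean φ := by
  intro y r hr
  have := h.countable y
  simp only [h.eq]
  exact (h.series y).tendsto_average r hr

theorem IsWhitExpansion.isSphericalEigen [DecidableEq ι] (h : IsWhitExpansion φ w α) :
    IsSphericalEigen φ 0 := by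
  intro k hk hc i x
  have := h.countable x.fin
  have hx : φ x = φ (Space.mk x.pt x.fin) := rfl
  rw [hx, h.eq, ← (h.series x.fin).integral_pointPair hk hc x.pt i]
  refine integral_congr_ae (Eventually.of_forall fun σ => ?_)
  show k _ * φ (Space.mk (Function.update x.pt i σ) x.fin) = _
  rw [h.eq]

end Fermat.Agent.LT.Theta
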