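import Fermat.Agent.LT.Theta.Spherical

/-!
Poisson summation for modulated lattice cosets, the term at the origin in unfolding, and the
spherical behaviour of the constant term.
-/

set_option autoImplicit false

noncomputable section

namespace Fermat.Agent.LT.Theta

open MeasureTheory Complex Adelic
open Poisson (eC eC_add VDecay pairFourier latVec)
open scoped Real

variable {ι : Type*} [Fintype ι]

theorem qConst_mul (u c : ι → ℂ) :
    qConst (fun i => c i * u i) = qConst u / ∏ i, ‖c i‖ ^ 2 := by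
  rw [qConst, qConst, ← Finset.prod_div_distrib]
  refine Finset.prod_congr rfl fun i _ => ?_
  rw [norm_mul, mul_pow]
  ring

theorem qConst_pos (u : ι → ℂ) (hu : ∀ i, u i ≠ 0) : 0 < qConst u :=
  Finset.prod_pos fun i _ => by have := norm_pos_iff.mpr (hu i); positivity

theorem qGauss_neg (u : ι → ℂ) (s : ι → ℝ) (τ : ι → HSpace) (x : ι → ℂ × ℂ) :
    qGauss u s τ (-x) = qGauss u s τ x := by
  simp [qGauss]

theorem qGauss_zero (u : ι → ℂ) (s : ι → ℝ) (τ : ι → HSpace) :
    qGauss u s τ 0 = ((∏ i, (τ i).r : ℝ) : ℂ) := by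
  simp [qGauss]

theorem weyl_smul_weyl (p : HSpace) :
    (weyl : GL (Fin 2) ℂ) • ((weyl : GL (Fin 2) ℂ) • p) = p := by
  rw [← mul_smul, show (weyl * weyl : GL (Fin 2) ℂ) = diag2 (-1) (-1) from Units.ext (by
    ext i j; fin_cases i <;> fin_cases j <;> simp)]
  refine HSpace.ext ?_ ?_ <;>
    simp [HSpace.smul_z, HSpace.smul_r, HSpace.denSq, HSpace.absDet, Matrix.det_fin_two]

variable {d : Type*} [Fintype d] [DecidableEq d]

/-- **Poisson summation for a modulated coset.** -/
theorem tsum_qGauss_modulated (b b' : Module.Basis d ℝ (ι → ℂ × ℂ)) (u : ι → ℂ)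
    (hu : ∀ i, u i ≠ 0) (hdual : ∀ j i, qBil u (b' j) (b i) = if j = i then 1 else 0)
    (s : ι → ℝ) (τ : ι → HSpace) (h k : ι → ℂ × ℂ) :
    ∑' n : d → ℤ, qGauss u s (fun i => (weyl : GL (Fin 2) ℂ) • τ i) (h + latVec b n) *
        eC (qBil u (h + latVec b n) k) =
      ((volume (b.parallelepiped : Set (ι → ℂ × ℂ))).toReal⁻¹ * qConst u : ℝ) *
        ∑' m : d → ℤ, eC (-qBil u h (latVec b' m)) * qGauss u s τ (k + latVec b' m) := by
  set τ' : ι → HSpace := fun i => (weyl : GL (Fin 2) ℂ) • τ i
  set f : (ι → ℂ × ℂ) → ℂ := fun v => qGauss u s τ' v * eC (qBil u v k) with hf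
  have hBk : Continuous fun v => qBil u v k :=
    ((qBil u).flip k).continuous_of_finiteDimensional
  have hc : Continuous f := (continuous_qGauss u s τ').mul (by
    unfold eC
    exact Complex.continuous_exp.comp (continuous_const.mul (continuous_ofReal.comp hBk)))
  have hdec : VDecay f ((Fintype.card d : ℝ) + 1) := by
    obtain ⟨C, hC⟩ := vdecay_qGauss u s hu τ' (e := (Fintype.card d : ℝ) + 1) (by positivity)
    exact ⟨C, fun v => by rw [hf, norm_mul, Poisson.norm_eC, mul_one]; exact hC v⟩
  have hFT : ∀ y, pairFourier volume (qBil u) f y = (qConst u : ℂ) * qGauss u s τ (y - k) := by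
    intro y
    have e : pairFourier volume (qBil u) f y =
        pairFourier volume (qBil u) (qGauss u s τ') (y - k) := by
      unfold Poisson.pairFourier
      refine integral_congr_ae (Filter.Eventually.of_forall fun v => ?_)
      simp only [hf]
      rw [mul_comm (qGauss u s τ' v), ← mul_assoc, ← eC_add]
      congr 2
      rw [map_sub, LinearMap.sub_apply, qBil_comm u v k]
      ring
    rw [e, pairFourier_qGauss u hu]
    simp only [τ', weyl_smul_weyl]
  have hsum : Summable fun m : d → ℤ => pairFourier volume (qBil u) f (latVec b' m) := by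
    simp only [hFT]
    exact ((summable_qGauss_lattice b' u hu s τ (-k)).congr fun m => by
      rw [neg_add_eq_sub]).mul_left _
  have key := Poisson.tsum_latVec volume b (qBil u) (fun j => b' j) hdual hc (lt_add_one _) hdec
    hsum h
  rw [hf] at key
  simp only [← hf, hFT] at key
  rw [key, Complex.real_smul, ofReal_mul, mul_assoc]
  congr 1
  rw [← tsum_mul_left, ← (Equiv.neg (d → ℤ)).tsum_eq]
  refine tsum_congr fun m => ?_
  have hneg : latVec (fun j => b' j) (-m) = -latVec b' m := by
    simp [latVec]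
  rw [Equiv.neg_apply, hneg, map_neg, LinearMap.neg_apply, qBil_comm u (latVec b' m) h,
    show -latVec (b' : d → ι → ℂ × ℂ) m - k = -(k + latVec b' m) by abel, qGauss_neg]
  ring

namespace IsUnfoldData

variable {S E : Type*} [CommGroup E] [MulAction E S] {b : Module.Basis ι ℝ (ι → ℝ)}
  {ℓ : E → ι → ℝ} {u : ι → ℂ} {j : S → ι → ℂ × ℂ} {w : S → ℂ}

theorem integrableOn_tsum (h : IsUnfoldData b ℓ u j w) [Countable S] (τ : ι → HSpace) :
    IntegrableOn (fun s => ∑' x : S, w x * qGauss u s τ (j x)) (ZSpan.fundamentalDomain b) := by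
  have hm : AEStronglyMeasurable (fun s => ∑' x : S, w x * qGauss u s τ (j x))
      (volume.restrict (ZSpan.fundamentalDomain b)) := by
    obtain ⟨R, hR⟩ := (ZSpan.fundamentalDomain_isBounded b).exists_norm_le
    obtain ⟨c, hc, hb⟩ := exists_norm_qGauss_le u h.form_ne_zero τ R
    refine ContinuousOn.aestronglyMeasurable ?_ (ZSpan.fundamentalDomain_measurableSet b)
    refine continuousOn_tsum (fun x => (continuous_const.mul
      (continuous_qGauss_param u τ (j x))).continuousOn)
      ((h.summable c hc).mul_left (∏ i, (τ i).r)) fun x s hs => ?_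
    rw [norm_mul, mul_left_comm]
    exact mul_le_mul_of_nonneg_left (hb s (hR s hs) (j x)) (norm_nonneg _)
  obtain ⟨R, hR⟩ := (ZSpan.fundamentalDomain_isBounded b).exists_norm_le
  obtain ⟨c, hc, hb⟩ := exists_norm_qGauss_le u h.form_ne_zero τ R
  refine IntegrableOn.of_bound (ZSpan.fundamentalDomain_isBounded b).measure_lt_top hm
    (∑' x : S, (∏ i, (τ i).r) * (‖w x‖ * Real.exp (-c * ‖j x‖ ^ 2)))
    ((ae_restrict_iff' (ZSpan.fundamentalDomain_measurableSet b)).mpr
      (Filter.Eventually.of_forall fun s hs => ?_))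
  have hbound : ∀ x, ‖w x * qGauss u s τ (j x)‖ ≤
      (∏ i, (τ i).r) * (‖w x‖ * Real.exp (-c * ‖j x‖ ^ 2)) := fun x => by
    rw [norm_mul, mul_left_comm]
    exact mul_le_mul_of_nonneg_left (hb s (hR s hs) (j x)) (norm_nonneg _)
  exact tsum_of_norm_bounded ((h.summable c hc).mul_left _).hasSum hbound

/-- Unfolding with the term at the origin. -/
theorem integral_add_tsum (h : IsUnfoldData b ℓ u j w) [Countable S] (τ : ι → HSpace) (w₀ : ℂ) :
    ∫ s in ZSpan.fundamentalDomain b,
        (w₀ * qGauss u s τ 0 + ∑' x : S, w x * qGauss u s τ (j x)) =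
      ((volume (ZSpan.fundamentalDomain b)).toReal * ∏ i, (τ i).r : ℝ) * w₀ +
        ∑' q : MulAction.orbitRel.Quotient E S, w q.out * qWhit u τ (j q.out) := by
  simp only [qGauss_zero]
  have hconst : Integrable (fun _ : ι → ℝ => w₀ * ((∏ i, (τ i).r : ℝ) : ℂ))
      (volume.restrict (ZSpan.fundamentalDomain b)) :=
    integrableOn_const (ZSpan.fundamentalDomain_isBounded b).measure_lt_top.ne
  rw [integral_add hconst (h.integrableOn_tsum τ), h.integral_tsum τ, setIntegral_const, Complex.real_smul]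
  congr 1
  rw [measureReal_def]
  push_cast
  ring

end IsUnfoldData

/-- Gaussian summability over points injected into a translate of a lattice. -/
theorem summable_exp_of_mem_lattice {S : Type*} {d : Type*} [Fintype d]
    (b : Module.Basis d ℝ (ι → ℂ × ℂ)) (h₀ : ι → ℂ × ℂ) (j : S → ι → ℂ × ℂ)
    (hj : Function.Injective j) (hmem : ∀ x, ∃ n : d → ℤ, j x = h₀ + latVec b n)
    (w : S → ℂ) (hw : ∃ C, ∀ x, ‖w x‖ ≤ C) {c : ℝ} (hc : 0 < c) :
    Summable fun x => ‖w x‖ * Real.exp (-c * ‖j x‖ ^ 2) := by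
  obtain ⟨C, hC⟩ := hw
  choose n hn using hmem
  have hninj : Function.Injective n := fun x y he => hj (by rw [hn, hn, he])
  obtain ⟨K, hK⟩ := Poisson.exp_neg_mul_le_rpow hc
    (show (0 : ℝ) ≤ (Fintype.card d : ℝ) + 1 by positivity)
  have hdec : VDecay (fun v : ι → ℂ × ℂ => ((Real.exp (-c * ‖v‖ ^ 2) : ℝ) : ℂ))
      ((Fintype.card d : ℝ) + 1) :=
    ⟨K, fun v => by rw [norm_real, Real.norm_eq_abs, Real.abs_exp]; exact hK _ (norm_nonneg v)⟩
  have hs := (Poisson.summable_translate (f := fun v : d → ℝ =>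
    ((Real.exp (-c * ‖h₀ + ∑ i, v i • b i‖ ^ 2) : ℝ) : ℂ)) (lt_add_one _)
    (hdec.comp_basis (by positivity) b h₀) 0).norm
  refine Summable.of_nonneg_of_le (fun x => by positivity) (fun x => ?_)
    ((hs.comp_injective hninj).mul_left (max C 0))
  simp only [Function.comp_apply, norm_real, Real.norm_eq_abs, Real.abs_exp]
  rw [show (0 : d → ℝ) + Poisson.intVec (n x) = fun i => (n x i : ℝ) from zero_add _, hn]
  exact mul_le_mul_of_nonneg_right ((hC x).trans (le_max_left _ _)) (Real.exp_pos _).le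

/-- The height is an eigenfunction. -/
theorem integral_pointPair_height {k : ℝ → ℂ} (p : HSpace) :
    ∫ τ, k (HSpace.coshDist p τ) * (τ.r : ℂ) ∂HSpace.measure = sphTransform k 0 * (p.r : ℂ) := by
  have h := integral_pointPair_rpow k 0 p
  simpa using h

end Fermat.Agent.LT.Theta
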