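import Fermat.Agent.LT.Theta.CuspProps
import Fermat.Agent.LT.Reduction.Siegel

/-!
An invariant function given by Bessel series with frequencies bounded away from zero is bounded.
-/

set_option autoImplicit false

noncomputable section

namespace Fermat.Agent.LT.Theta

open MeasureTheory Complex Adelic Filter
open scoped Real

variable {ι : Type*} [Fintype ι]

theorem besselK0_le_exp_mul {x y : ℝ} (hy : 0 < y) (hxy : 2 * y ≤ x) :
    besselK0 x ≤ Real.exp (-(x / 2)) * besselK0 y := by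
  have hx : 0 < x := by linarith
  unfold besselK0
  rw [← integral_const_mul]
  refine setIntegral_mono_on (integrable_exp_neg_mul_cosh hx).integrableOn
    ((integrable_exp_neg_mul_cosh hy).integrableOn.const_mul _) measurableSet_Ioi fun t _ => ?_
  rw [← Real.exp_add, Real.exp_le_exp]
  have h1 := Real.one_le_cosh t
  nlinarith [mul_le_mul_of_nonneg_left h1 hx.le, mul_le_mul_of_nonneg_right hxy (Real.cosh_pos t).le]

theorem pow_mul_exp_neg_le (n : ℕ) {σ : ℝ} (hσ : 0 < σ) {R : ℝ} (hR : 0 ≤ R) :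
    R ^ n * Real.exp (-(σ * R)) ≤ (n.factorial : ℝ) / σ ^ n := by
  have h := Real.pow_div_factorial_le_exp _ (mul_nonneg hσ.le hR) n
  rw [div_le_iff₀ (Nat.cast_pos.mpr n.factorial_pos), mul_pow] at h
  rw [Real.exp_neg, ← div_eq_mul_inv, div_le_div_iff₀ (Real.exp_pos _) (pow_pos hσ n)]
  linarith

/-- On balanced heights bounded below the Bessel product is uniformly dominated by its value at
one height. -/
theorem exists_whitAbs_le_of_balanced [Nonempty ι] {δ a C : ℝ} (hδ : 0 < δ) (ha : 0 < a)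
    (hC : 0 < C) :
    ∃ B, ∀ (α : ι → ℂ), (∀ i, α i ≠ 0) → δ ≤ ‖α‖ → ∀ r : ι → ℝ, (∀ i, a ≤ r i) →
      (∀ i j, r i ≤ C * r j) → whitAbs α r ≤ B * whitAbs α (fun _ => a / 2) := by
  classical
  set n := Fintype.card ι
  set σ := 2 * π * δ / C with hσdef
  have hσ : 0 < σ := by positivity
  refine ⟨(n.factorial : ℝ) / σ ^ n / (a / 2) ^ n, fun α hα hαδ r har hbal => ?_⟩
  obtain ⟨i₁, -, hi₁⟩ := Finset.exists_max_image Finset.univ (fun i => ‖α i‖) Finset.univ_nonempty
  obtain ⟨j₁, -, hj₁⟩ := Finset.exists_max_image Finset.univ r Finset.univ_nonempty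
  have hmax : δ ≤ ‖α i₁‖ := hαδ.trans
    ((pi_norm_le_iff_of_nonneg (norm_nonneg _)).mpr fun i => hi₁ i (Finset.mem_univ i))
  set R := r j₁ with hRdef
  have hr0 : ∀ i, 0 < r i := fun i => ha.trans_le (har i)
  have hR0 : 0 < R := hr0 j₁
  have hterm : ∀ i, 2 * r i * besselK0 (4 * π * r i * ‖α i‖) ≤
      (R / (a / 2) * Real.exp (-(2 * π * r i * ‖α i‖))) *
        (2 * (a / 2) * besselK0 (4 * π * (a / 2) * ‖α i‖)) := by
    intro i
    have := norm_pos_iff.mpr (hα i)
    have hk := besselK0_le_exp_mul (x := 4 * π * r i * ‖α i‖) (y := 4 * π * (a / 2) * ‖α i‖)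
      (by positivity) (by nlinarith [har i, mul_pos Real.pi_pos this])
    calc 2 * r i * besselK0 (4 * π * r i * ‖α i‖)
        ≤ 2 * R * (Real.exp (-(4 * π * r i * ‖α i‖ / 2)) *
            besselK0 (4 * π * (a / 2) * ‖α i‖)) :=
          mul_le_mul (by linarith [hj₁ i (Finset.mem_univ i)]) hk (besselK0_nonneg _)
            (by positivity)
      _ = _ := by
          rw [show 4 * π * r i * ‖α i‖ / 2 = 2 * π * r i * ‖α i‖ by ring]
          field_simp
  refine (Finset.prod_le_prod (fun i _ => mul_nonneg (mul_nonneg zero_le_two (hr0 i).le)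
    (besselK0_nonneg _)) fun i _ => hterm i).trans ?_
  rw [Finset.prod_mul_distrib]
  refine mul_le_mul_of_nonneg_right ?_ (Finset.prod_nonneg fun i _ =>
    mul_nonneg (by positivity) (besselK0_nonneg _))
  rw [Finset.prod_mul_distrib, Finset.prod_const, Finset.card_univ, ← Real.exp_sum, div_pow,
    div_mul_eq_mul_div]
  refine div_le_div_of_nonneg_right (le_trans ?_ (pow_mul_exp_neg_le n hσ hR0.le)) (by positivity)
  refine mul_le_mul_of_nonneg_left (Real.exp_le_exp.mpr ?_) (by positivity)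
  rw [Finset.sum_neg_distrib, neg_le_neg_iff]
  refine le_trans ?_ (Finset.single_le_sum (fun i _ => by have := hr0 i; positivity)
    (Finset.mem_univ i₁))
  rw [hσdef, div_mul_eq_mul_div, div_le_iff₀ hC]
  calc 2 * π * δ * R ≤ 2 * π * δ * (C * r i₁) :=
        mul_le_mul_of_nonneg_left (hbal j₁ i₁) (by positivity)
    _ ≤ 2 * π * ‖α i₁‖ * (C * r i₁) :=
        mul_le_mul_of_nonneg_right (by gcongr) (mul_pos hC (hr0 i₁)).le
    _ = _ := by ring

variable {K : Type*} [Field K] [NumberField K] {Φ : Frame K ι} {U : Subgroup (GfK K)}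
  {φ : Space Φ U → ℂ} {Qy : Yf U → Type*} {w : ∀ y, Qy y → ℂ} {α : ∀ y, Qy y → ι → ℂ}

theorem IsWhitExpansion.bounded [Nonempty ι] (hU : IsLevel U) (hinv : IsInvariant φ)
    (h : IsWhitExpansion φ w α) (hδ : ∀ y, ∃ δ, 0 < δ ∧ ∀ q, δ ≤ ‖α y q‖) :
    ∃ C : ℝ, ∀ x, ‖φ x‖ ≤ C := by
  classical
  obtain ⟨Y0, c, C, R, hY0, hc, hC, hcov⟩ := Reduction.exists_siegel (Φ := Φ) hU
  have hy : ∀ y, ∃ B, ∀ τ : ι → HSpace, (∀ i, c ≤ (τ i).r) →
      (∀ i j, (τ i).r ≤ C * (τ j).r) → ‖φ (Space.mk τ y)‖ ≤ B := by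
    intro y
    obtain ⟨δ, hδ0, hδq⟩ := hδ y
    obtain ⟨B, hB⟩ := exists_whitAbs_le_of_balanced (ι := ι) hδ0 hc hC
    refine ⟨∑' q, B * (‖w y q‖ * whitAbs (α y q) fun _ => c / 2), fun τ h1 h2 => ?_⟩
    rw [h.eq]
    refine tsum_of_norm_bounded
      (((h.series y).summable _ fun _ => half_pos hc).mul_left B).hasSum fun q => ?_
    rw [norm_mul, norm_whitProd, mul_left_comm]
    exact mul_le_mul_of_nonneg_left
      (hB _ ((h.series y).ne_zero q) (hδq q) _ h1 h2) (norm_nonneg _)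
  choose B hB using hy
  refine ⟨∑ y ∈ hY0.toFinset, |B y|, fun x => ?_⟩
  obtain ⟨γ, hγy, hbox⟩ := hcov x
  rw [← hinv γ x]
  calc ‖φ (γ • x)‖ ≤ B (γ • x).fin := hB _ _ hbox.1 hbox.2.1
    _ ≤ |B (γ • x).fin| := le_abs_self _
    _ ≤ _ := Finset.single_le_sum (fun y _ => abs_nonneg (B y)) (hY0.mem_toFinset.mpr hγy)

end Fermat.Agent.LT.Theta
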