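import Fermat.Agent.LT.Theta.CuspProps

/-!
# A series of Bessel products with distinct frequencies vanishes only termwise
-/

set_option autoImplicit false

noncomputable section

namespace Fermat.Agent.LT.Theta

open MeasureTheory Complex Adelic Filter
open Poisson (eC eC_add)
open scoped Real Topology

variable {ι : Type*} [Fintype ι] {Q : Type*}

theorem norm_average_eC_le_one (α : ℂ) (R : ℝ) :
    ‖⨍ z in Metric.closedBall (0 : ℂ) R, eC (2 * (z * α).re)‖ ≤ 1 := by
  rw [setAverage_eq, norm_smul, norm_inv, Real.norm_eq_abs, abs_of_nonneg measureReal_nonneg]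
  refine (mul_le_mul_of_nonneg_left (norm_setIntegral_le_of_norm_le_const
    measure_closedBall_lt_top fun z _ => (Poisson.norm_eC _).le)
    (inv_nonneg.mpr measureReal_nonneg)).trans ?_
  rw [one_mul]
  exact inv_mul_le_one_of_le₀ le_rfl measureReal_nonneg

theorem whitAbs_pos {α : ι → ℂ} (hα : ∀ i, α i ≠ 0) {r : ι → ℝ} (hr : ∀ i, 0 < r i) :
    0 < whitAbs α r :=
  Finset.prod_pos fun i _ => by
    have := norm_pos_iff.mpr (hα i)
    have := hr i
    exact mul_pos (by positivity) (besselK0_pos (by positivity))

namespace IsWhitSeries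

variable {w : Q → ℂ} {a : Q → ι → ℂ}

/-- A vanishing series with distinct frequencies has vanishing coefficients. -/
theorem eq_zero (h : IsWhitSeries w a) [Countable Q] [Nonempty ι] (ha : Function.Injective a)
    (h0 : ∀ τ, ∑' q, w q * whitProd (a q) τ = 0) : ∀ q, w q = 0 := by
  classical
  intro q₀
  set r : ι → ℝ := fun _ => 1 with hr
  have hr0 : ∀ i, 0 < r i := fun _ => one_pos
  set c : Q → ℂ := fun q => w q * (whitAbs (a q) r : ℂ) with hcdef
  have hc : Summable fun q => ‖c q‖ := by
    refine (h.summable r hr0).congr fun q => ?_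
    rw [hcdef, norm_mul, norm_real, Real.norm_eq_abs,
      abs_of_pos (whitAbs_pos (h.ne_zero q) hr0)]
  have hzero : ∀ z : ι → ℂ, ∑' q, c q * ∏ i, eC (2 * (z i * (a q i - a q₀ i)).re) = 0 := by
    intro z
    have hτ := h0 fun i => ⟨z i, r i, hr0 i⟩
    have e : ∀ q, c q * ∏ i, eC (2 * (z i * (a q i - a q₀ i)).re) =
        (∏ i, eC (-(2 * (z i * a q₀ i).re))) *
          (w q * whitProd (a q) fun i => ⟨z i, r i, hr0 i⟩) := by
      intro q
      have e2 : ∀ i, eC (2 * (z i * (a q i - a q₀ i)).re) =
          eC (-(2 * (z i * a q₀ i).re)) * eC (2 * (z i * a q i).re) := fun i => by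
        rw [← eC_add, mul_sub, sub_re]
        congr 1
        ring
      simp only [e2, Finset.prod_mul_distrib, whitProd, ← ofReal_prod, hcdef]
      simp only [whitAbs, Finset.prod_mul_distrib]
      ring
    simp only [e, tsum_mul_left, hτ, mul_zero]
  set A : ℝ → Q → ℂ := fun R q => c q *
    ∏ i, ⨍ z in Metric.closedBall (0 : ℂ) R, eC (2 * (z * (a q i - a q₀ i)).re) with hA
  have hlim : Tendsto (fun R => ∑' q, A R q) atTop (𝓝 (c q₀)) := by
    rw [← tsum_ite_eq q₀ (fun _ => c q₀)]
    refine tendsto_tsum_of_dominated_convergence hc (fun q => ?_)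
      (Eventually.of_forall fun R q => ?_)
    · by_cases hq : q = q₀
      · subst hq
        rw [if_pos rfl]
        refine tendsto_const_nhds.congr' ?_
        filter_upwards [eventually_gt_atTop 0] with R hR
        simp only [hA, sub_self, mul_zero, zero_re, Poisson.eC_zero]
        rw [setAverage_const (Metric.measure_closedBall_pos _ _ hR).ne'
          measure_closedBall_lt_top.ne]
        simp
      · rw [if_neg hq]
        obtain ⟨i₀, hi₀⟩ := Function.ne_iff.mp (ha.ne hq)
        have h1 : Tendsto (fun R => ∏ i, ⨍ z in Metric.closedBall (0 : ℂ) R,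
            eC (2 * (z * (a q i - a q₀ i)).re)) atTop (𝓝 0) := by
          refine squeeze_zero_norm (fun R => ?_)
            (tendsto_zero_iff_norm_tendsto_zero.mp (tendsto_average_eC (sub_ne_zero.mpr hi₀)))
          rw [norm_prod, ← Finset.mul_prod_erase _ _ (Finset.mem_univ i₀)]
          exact mul_le_of_le_one_right (norm_nonneg _)
            (Finset.prod_le_one (fun i _ => norm_nonneg _) fun i _ => norm_average_eC_le_one _ _)
        simpa [hA] using h1.const_mul (c q)
    · rw [hA, norm_mul, norm_prod]
      exact mul_le_of_le_one_right (norm_nonneg _)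
        (Finset.prod_le_one (fun i _ => norm_nonneg _) fun i _ => norm_average_eC_le_one _ _)
  have hA0 : ∀ R, ∑' q, A R q = 0 := fun R => by
    set B := Set.univ.pi (fun _ : ι => Metric.closedBall (0 : ℂ) R)
    have hB : volume B < ⊤ :=
      (isCompact_univ_pi fun _ => isCompact_closedBall _ _).measure_lt_top
    have hgc : ∀ q, Continuous fun z : ι → ℂ =>
        c q * ∏ i, eC (2 * (z i * (a q i - a q₀ i)).re) := fun q => by
      unfold eC; fun_prop
    have hgn : ∀ q (z : ι → ℂ),
        ‖c q * ∏ i, eC (2 * (z i * (a q i - a q₀ i)).re)‖ = ‖c q‖ := fun q z => by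
      simp [Poisson.norm_eC]
    have hint : ∀ q, IntegrableOn
        (fun z : ι → ℂ => c q * ∏ i, eC (2 * (z i * (a q i - a q₀ i)).re)) B :=
      fun q => IntegrableOn.of_bound hB (hgc q).aestronglyMeasurable ‖c q‖
        (Eventually.of_forall fun z => (hgn q z).le)
    have h1 : ∫ z in B, ∑' q, c q * ∏ i, eC (2 * (z i * (a q i - a q₀ i)).re) = 0 := by
      simp only [hzero, integral_zero]
    rw [← integral_tsum_of_summable_integral_norm hint (by
      simp only [hgn, setIntegral_const, smul_eq_mul]; exact hc.mul_left _)] at h1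
    have h2 : ∀ q, A R q = (volume.real B)⁻¹ •
        ∫ z in B, c q * ∏ i, eC (2 * (z i * (a q i - a q₀ i)).re) := fun q => by
      rw [hA]
      simp only [← average_pi_prod]
      rw [setAverage_eq, integral_const_mul, mul_smul_comm]
    simp only [h2, Complex.real_smul, tsum_mul_left, h1, mul_zero]
  have hc0 : c q₀ = 0 :=
    tendsto_nhds_unique hlim ((tendsto_const_nhds (x := (0 : ℂ))).congr fun R => (hA0 R).symm)
  simpa [hcdef, (whitAbs_pos (h.ne_zero q₀) hr0).ne'] using hc0

end IsWhitSeries

end Fermat.Agent.LT.Theta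

end
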