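import Mathlib.Analysis.SpecialFunctions.Gaussian.GaussianIntegral
import Mathlib.Analysis.SpecialFunctions.Trigonometric.DerivHyp
import Mathlib.Analysis.Convex.SpecificFunctions.Basic
import Mathlib.MeasureTheory.Measure.Lebesgue.Integral
import Mathlib.MeasureTheory.Integral.DominatedConvergence

/-!
The Bessel function `K₀(x) = ∫₀^∞ exp (-x cosh t) dt`: positivity, decay, the integral over the
line, and the unfolded Gaussian integral giving `2 K₀`.
-/

set_option autoImplicit false

noncomputable section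

namespace Fermat.Agent.LT.Theta

open MeasureTheory Set Real

/-- The Bessel function `K₀`. -/
def besselK0 (x : ℝ) : ℝ := ∫ t in Ioi (0 : ℝ), Real.exp (-x * Real.cosh t)

theorem one_add_sq_div_two_le_cosh (t : ℝ) : 1 + t ^ 2 / 2 ≤ Real.cosh t := by
  have h1 := Real.cosh_two_mul (t / 2)
  have h2 := Real.cosh_sq (t / 2)
  rw [show 2 * (t / 2) = t by ring] at h1
  have h3 : (t / 2) ^ 2 ≤ Real.sinh (t / 2) ^ 2 := by
    rw [← sq_abs (t / 2), ← sq_abs (Real.sinh _), Real.abs_sinh]
    exact pow_le_pow_left₀ (abs_nonneg _) (Real.self_le_sinh_iff.mpr (abs_nonneg _)) 2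
  nlinarith

theorem exp_neg_mul_cosh_le {x : ℝ} (hx : 0 ≤ x) (t : ℝ) :
    Real.exp (-x * Real.cosh t) ≤ Real.exp (-x) * Real.exp (-(x / 2) * t ^ 2) := by
  rw [← Real.exp_add]
  gcongr
  nlinarith [mul_le_mul_of_nonneg_left (one_add_sq_div_two_le_cosh t) hx]

theorem integrable_exp_neg_mul_cosh {x : ℝ} (hx : 0 < x) :
    Integrable fun t : ℝ => Real.exp (-x * Real.cosh t) :=
  ((integrable_exp_neg_mul_sq (half_pos hx)).const_mul (Real.exp (-x))).mono'
    (by fun_prop) (Filter.Eventually.of_forall fun t => by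
      rw [Real.norm_eq_abs, abs_of_pos (exp_pos _)]
      exact exp_neg_mul_cosh_le hx.le t)

theorem integral_exp_neg_mul_cosh (x : ℝ) :
    ∫ t : ℝ, Real.exp (-x * Real.cosh t) = 2 * besselK0 x := by
  have h := integral_comp_abs (f := fun t => Real.exp (-x * Real.cosh t))
  simpa [Real.cosh_abs, besselK0] using h

theorem besselK0_pos {x : ℝ} (hx : 0 < x) : 0 < besselK0 x := by
  rw [besselK0, integral_pos_iff_support_of_nonneg (fun t => (exp_pos _).le)
    (integrable_exp_neg_mul_cosh hx).integrableOn,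
    show Function.support (fun t => Real.exp (-x * Real.cosh t)) = univ from
      eq_univ_of_forall fun t => (exp_pos _).ne']
  simp

theorem besselK0_nonneg (x : ℝ) : 0 ≤ besselK0 x :=
  integral_nonneg fun _ => (exp_pos _).le

theorem besselK0_le {x : ℝ} (hx : 0 < x) :
    besselK0 x ≤ Real.exp (-x) * √(π / (2 * x)) := by
  have hg : Integrable fun t : ℝ => Real.exp (-x) * Real.exp (-(x / 2) * t ^ 2) :=
    (integrable_exp_neg_mul_sq (half_pos hx)).const_mul _
  refine (setIntegral_mono_on (integrable_exp_neg_mul_cosh hx).integrableOn hg.integrableOn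
    measurableSet_Ioi fun t _ => exp_neg_mul_cosh_le hx.le t).trans (le_of_eq ?_)
  rw [integral_const_mul, integral_gaussian_Ioi, show π / (x / 2) = 4 * (π / (2 * x)) by field_simp; ring,
    Real.sqrt_mul (by norm_num), show (4 : ℝ) = 2 ^ 2 by norm_num, Real.sqrt_sq zero_le_two]
  ring

theorem antitoneOn_besselK0 : AntitoneOn besselK0 (Ioi 0) := fun x hx y hy hxy =>
  setIntegral_mono_on (integrable_exp_neg_mul_cosh hy).integrableOn
    (integrable_exp_neg_mul_cosh hx).integrableOn measurableSet_Ioi fun t _ => by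
      gcongr

/-- The unfolded Gaussian: `∫ exp(-(A e^s + B e^{-s})) ds = 2 K₀(2 √(AB))`. -/
theorem integral_exp_neg_add_exp {A B : ℝ} (hA : 0 < A) (hB : 0 < B) :
    ∫ s : ℝ, Real.exp (-(A * Real.exp s + B * Real.exp (-s))) =
      2 * besselK0 (2 * √(A * B)) := by
  rw [← integral_exp_neg_mul_cosh,
    ← integral_add_right_eq_self (fun s => Real.exp (-(A * Real.exp s + B * Real.exp (-s))))
      (Real.log (√(B / A)))]
  refine integral_congr_ae (Filter.Eventually.of_forall fun t => ?_)
  have hq : 0 < √(B / A) := by positivity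
  have h1 : A * √(B / A) = √(A * B) := by
    rw [show A * √(B / A) = √(A ^ 2) * √(B / A) by rw [Real.sqrt_sq hA.le],
      ← Real.sqrt_mul (by positivity)]
    congr 1
    field_simp
  have h2 : B / √(B / A) = √(A * B) := by
    rw [show B / √(B / A) = √(B ^ 2) / √(B / A) by rw [Real.sqrt_sq hB.le],
      ← Real.sqrt_div (by positivity)]
    congr 1
    field_simp
  have e : A * Real.exp (t + Real.log √(B / A)) + B * Real.exp (-(t + Real.log √(B / A))) =
      √(A * B) * (Real.exp t + Real.exp (-t)) := by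
    rw [neg_add, Real.exp_add, Real.exp_add, Real.exp_neg (Real.log _), Real.exp_log hq]
    linear_combination Real.exp t * h1 + Real.exp (-t) * h2
  show Real.exp _ = Real.exp _
  rw [e, Real.cosh_eq]
  congr 1
  ring

theorem integrable_exp_neg_add_exp {A B : ℝ} (hA : 0 < A) (hB : 0 < B) :
    Integrable fun s : ℝ => Real.exp (-(A * Real.exp s + B * Real.exp (-s))) :=
  Integrable.of_integral_ne_zero (by
    rw [integral_exp_neg_add_exp hA hB]
    exact (mul_pos two_pos (besselK0_pos (by positivity))).ne')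

end Fermat.Agent.LT.Theta
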