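import Fermat.Agent.LT.Theta.Act
import Mathlib.Algebra.Field.ZMod
import Mathlib.Data.Fintype.Card

/-!
The counting behind the Hecke identity at a split prime `p = π π̄`: for `p + 1` matrices of
determinant `π` with distinct lines modulo `π`, a dual vector `k` is a translate by exactly
`p + 1`, `1` or `0` of them according as `p ∣ k`, `p ∣ q3 k` only, or `p ∤ q3 k`.
-/

set_option autoImplicit false

noncomputable section

namespace Fermat.Agent.LT.Theta

open Orbit (EisData)
open Matrix

variable {O : Type*} [CommRing O] {E : EisData O} {p : ℕ} [Fact p.Prime]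
  {J : Type*} [Fintype J]

/-- A family of representatives of the `T_v` neighbours, `v = (π)` of norm `p`. -/
structure IsNeighbours (E : EisData O) (p : ℕ) (π : O) (r : O →+* ZMod p)
    (h : J → Matrix (Fin 2) (Fin 2) O) : Prop where
  card_eq : Fintype.card J = p + 1
  det_eq : ∀ j, (h j).det = π
  norm_eq : π * E.conj π = (p : O)
  map_pi : r π = 0
  three_ne : p ≠ 3
  ne_zero : ∀ j, (h j).map r ≠ 0
  unique_line : ∀ v : Fin 2 → ZMod p, v ≠ 0 → ∃! j, ((h j).map r).adjugate *ᵥ v = 0

variable {π : O} {r : O →+* ZMod p} {h : J → Matrix (Fin 2) (Fin 2) O}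

/-- The reduction of `√-3 X`. -/
def skewRed (E : EisData O) (r : O →+* ZMod p) (k : IVec) : Matrix (Fin 2) (Fin 2) (ZMod p) :=
  (skewMat E k).map r

theorem s_red_ne_zero (r : O →+* ZMod p) (hp3 : p ≠ 3) : r E.s ≠ 0 := by
  intro h0
  have h1 := congrArg r E.s_sq
  rw [map_mul, h0, mul_zero, map_neg, eq_comm, neg_eq_zero, map_ofNat] at h1
  have h2 : ((3 : ℕ) : ZMod p) = 0 := by exact_mod_cast h1
  rw [ZMod.natCast_eq_zero_iff] at h2
  exact hp3 ((Nat.prime_dvd_prime_iff_eq Fact.out Nat.prime_three).mp h2)

theorem skewRed_eq_zero_iff (r : O →+* ZMod p) (hp3 : p ≠ 3) (k : IVec) :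
    skewRed E r k = 0 ↔ ∀ i, (p : ℤ) ∣ k i := by
  constructor
  · intro h0
    have h00 := congrFun (congrFun h0 0) 0
    have h01 := congrFun (congrFun h0 0) 1
    have h10 := congrFun (congrFun h0 1) 0
    have h11 := congrFun (congrFun h0 1) 1
    simp [skewRed, skewMat, E.conj_w] at h00 h01 h10 h11
    have hs := s_red_ne_zero (E := E) r hp3
    have h2 : ((k 2 : ℤ) : ZMod p) = 0 := by
      have e : r E.s * ((k 2 : ℤ) : ZMod p) = 0 := by
        simp only [EisData.s, map_add, map_mul, map_one, map_ofNat]
        linear_combination h01 + h10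
      exact (mul_eq_zero.mp e).resolve_left hs
    have h3 : ((k 3 : ℤ) : ZMod p) = 0 := by
      rw [h2] at h01
      simpa using h01
    have h0' : ((k 0 : ℤ) : ZMod p) = 0 := h11.resolve_left hs
    have h1' : ((k 1 : ℤ) : ZMod p) = 0 := h00.resolve_left hs
    intro i
    rw [← ZMod.intCast_zmod_eq_zero_iff_dvd]
    fin_cases i <;> assumption
  · intro hk
    have : ∀ i, ((k i : ℤ) : ZMod p) = 0 := fun i =>
      (ZMod.intCast_zmod_eq_zero_iff_dvd _ _).mpr (hk i)
    ext i j
    fin_cases i <;> fin_cases j <;> simp [skewRed, skewMat, this]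

theorem det_skewRed (k : IVec) : (skewRed E r k).det = ((q3 k : ℤ) : ZMod p) := by
  rw [skewRed, ← RingHom.mapMatrix_apply, ← RingHom.map_det, det_skewMat, map_intCast]

theorem map_adjugate_red (g : Matrix (Fin 2) (Fin 2) O) :
    (g.map r).adjugate = g.adjugate.map r :=
  (RingHom.map_adjugate r g).symm

theorem skewRed_actK (g : Matrix (Fin 2) (Fin 2) O) (k : IVec) :
    skewRed E r (actK E g k) = g.map r * skewRed E r k * (adjT E g).map r := by
  rw [skewRed, skewMat_actK, Matrix.map_mul, Matrix.map_mul]; rfl




namespace IsNeighbours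

variable (hn : IsNeighbours E p π r h)
include hn

theorem actK_injective (j : J) : Function.Injective (actK E (h j)) := by
  intro x y hxy
  have h1 := congrArg (actK E (h j).adjugate) hxy
  rw [← actK_mul, ← actK_mul, Matrix.adjugate_mul, hn.det_eq,
    actK_scalar E π p (by rw [hn.norm_eq]; simp), actK_scalar E π p (by rw [hn.norm_eq]; simp)]
    at h1
  exact smul_right_injective IVec (Int.natCast_ne_zero.mpr (Fact.out : p.Prime).ne_zero) h1

theorem mem_range_iff (j : J) (k : IVec) :
    (∃ y, actK E (h j) y = k) ↔ ((h j).map r).adjugate * skewRed E r k = 0 := by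
  have hp : (p : ℤ) ≠ 0 := Int.natCast_ne_zero.mpr (Fact.out : p.Prime).ne_zero
  constructor
  · rintro ⟨y, rfl⟩
    rw [skewRed_actK, ← Matrix.mul_assoc, ← Matrix.mul_assoc, Matrix.adjugate_mul]
    have : ((h j).map r).det = 0 := by
      rw [← RingHom.mapMatrix_apply, ← RingHom.map_det, hn.det_eq, hn.map_pi]
    simp [this]
  · intro h0
    have h1 : skewRed E r (actK E (h j).adjugate k) = 0 := by
      rw [skewRed_actK, ← map_adjugate_red, h0, Matrix.zero_mul]
    choose y hy using (skewRed_eq_zero_iff r hn.three_ne _).mp h1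
    refine ⟨y, smul_right_injective IVec hp ?_⟩
    show (p : ℤ) • actK E (h j) y = (p : ℤ) • k
    rw [← map_zsmul, show (p : ℤ) • y = actK E (h j).adjugate k from
        funext fun i => by rw [hy i]; simp,
      ← actK_mul, Matrix.mul_adjugate, hn.det_eq,
      actK_scalar E π p (by rw [hn.norm_eq]; simp)]

open scoped Classical in
/-- The number of neighbours reaching `k`. -/
theorem card_range (k : IVec) :
    ((Finset.univ.filter fun j => ∃ y, actK E (h j) y = k).card : ℤ) =
      (if (p : ℤ) ∣ q3 k then 1 else 0) + (if ∀ i, (p : ℤ) ∣ k i then (p : ℤ) else 0) := by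
  classical
  simp only [hn.mem_range_iff]
  set R := skewRed E r k with hR
  by_cases hzero : ∀ i, (p : ℤ) ∣ k i
  · have hR0 : R = 0 := (skewRed_eq_zero_iff r hn.three_ne k).mpr hzero
    have hq : (p : ℤ) ∣ q3 k := by
      rw [← ZMod.intCast_zmod_eq_zero_iff_dvd, ← det_skewRed (E := E) (r := r), ← hR, hR0,
        Matrix.det_zero]
    rw [if_pos hzero, if_pos hq, Finset.filter_true_of_mem (fun j _ => by simp [hR0]),
      Finset.card_univ, hn.card_eq]
    push_cast
    ring
  · rw [if_neg hzero, add_zero]
    have hR0 : R ≠ 0 := fun h0 => hzero ((skewRed_eq_zero_iff r hn.three_ne k).mp h0)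
    by_cases hq : (p : ℤ) ∣ q3 k
    · rw [if_pos hq]
      have hdet : R 0 0 * R 1 1 - R 0 1 * R 1 0 = 0 := by
        rw [← Matrix.det_fin_two, hR, det_skewRed, (ZMod.intCast_zmod_eq_zero_iff_dvd _ _).mpr hq]
      obtain ⟨c, hc⟩ : ∃ c, (fun i => R i c) ≠ 0 := by
        by_contra hcon
        push Not at hcon
        exact hR0 (Matrix.ext fun i c => congrFun (hcon c) i)
      obtain ⟨j₀, hj₀, huniq⟩ := hn.unique_line _ hc
      have key : ∀ j, ((h j).map r).adjugate * R = 0 ↔
          ((h j).map r).adjugate *ᵥ (fun i => R i c) = 0 := by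
        intro j
        set A := ((h j).map r).adjugate
        constructor
        · intro hA
          funext i
          exact congrFun (congrFun hA i) c
        · intro hA
          obtain ⟨i₀, hi₀⟩ : ∃ i₀, R i₀ c ≠ 0 := by
            by_contra hcon
            push Not at hcon
            exact hc (funext hcon)
          ext i c'
          have hcol : ∀ i', R i' c' = R i' c * (R i₀ c' / R i₀ c) := fun i' => by
            rw [← mul_div_assoc, eq_div_iff hi₀]
            fin_cases i' <;> fin_cases i₀ <;> fin_cases c <;> fin_cases c' <;> simp <;>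
              first | linear_combination hdet | linear_combination -hdet | ring
          have h1 := congrFun hA i
          simp only [Matrix.mulVec, dotProduct, Fin.sum_univ_two, Pi.zero_apply] at h1
          rw [Matrix.mul_apply, Fin.sum_univ_two, hcol 0, hcol 1, Matrix.zero_apply]
          linear_combination (R i₀ c' / R i₀ c) * h1
      rw [Finset.card_eq_one.mpr ⟨j₀, ?_⟩, Nat.cast_one]
      ext j
      simp only [Finset.mem_filter, Finset.mem_univ, true_and, Finset.mem_singleton, key]
      exact ⟨fun hj => huniq j hj, fun hj => hj ▸ hj₀⟩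
    · rw [if_neg hq, Finset.filter_false_of_mem (fun j _ => ?_), Finset.card_empty, Nat.cast_zero]
      intro hA
      have hRu : IsUnit R.det := by
        rw [hR, det_skewRed, isUnit_iff_ne_zero, Ne, ZMod.intCast_zmod_eq_zero_iff_dvd]
        exact hq
      have hA0 : ((h j).map r).adjugate = 0 := by
        rw [← Matrix.mul_nonsing_inv_cancel_right R ((h j).map r).adjugate hRu, hA, Matrix.zero_mul]
      refine hn.ne_zero j ?_
      ext i i'
      have e00 := congrFun (congrFun hA0 0) 0
      have e01 := congrFun (congrFun hA0 0) 1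
      have e10 := congrFun (congrFun hA0 1) 0
      have e11 := congrFun (congrFun hA0 1) 1
      simp [Matrix.adjugate_fin_two] at e00 e01 e10 e11
      fin_cases i <;> fin_cases i' <;> simp [*]

end IsNeighbours

end Fermat.Agent.LT.Theta
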