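import Fermat.Agent.LT.Theta.Kernel
import Mathlib.NumberTheory.Modular
import Mathlib.LinearAlgebra.Matrix.FixedDetMatrices
import Mathlib.NumberTheory.ModularForms.SlashActions

/-!
Theta series of signature `(3,1)`: Poisson summation and the action of `S`, `T`.
-/

set_option autoImplicit false

noncomputable section

namespace Fermat.Agent.LT.Theta

open Complex MeasureTheory
open Poisson (eC eC_add eC_zero VDecay pairFourier latVec intVec)
open Adelic (HSpace)
open UpperHalfPlane hiding I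
open scoped Real BigOperators MatrixGroups ModularForm

/-- The inverse Gram matrix. -/
def dvecR : RVec →ₗ[ℝ] RVec where
  toFun u := ![-u 1, -u 0, (2 * u 2 + u 3) / 3, (u 2 + 2 * u 3) / 3]
  map_add' x y := by ext i; fin_cases i <;> simp <;> ring
  map_smul' c x := by ext i; fin_cases i <;> simp <;> ring

/-- The dual lattice vector with index `k`. -/
def dv (k : IVec) : RVec := dvecR (intVec k)

theorem bR_dvecR (u y : RVec) : bR (dvecR u) y = ∑ i, u i * y i := by
  simp [bR_apply, dvecR, Fin.sum_univ_four]; ring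

theorem bR_dv_dv (k j : IVec) : bR (dv k) (dv j) = (w3 k j : ℝ) / 3 := by
  simp [dv, bR_apply, dvecR, w3]; ring

theorem qR_dv (k : IVec) : qR (dv k) = (q3 k : ℝ) / 3 := by
  simp [dv, qR, dvecR, q3]; ring

theorem dv_add (k j : IVec) : dv (k + j) = dv k + dv j := by
  rw [dv, dv, dv, ← map_add, Poisson.intVec_add]

theorem dv_neg (k : IVec) : dv (-k) = -dv k := by
  rw [dv, dv, ← map_neg]
  exact congrArg dvecR (funext fun i => by simp)

theorem dv_smul_gmap (n : ℤ) (z : IVec) : dv (n • gmap z) = (n : ℝ) • intVec z := by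
  funext i
  fin_cases i <;> simp [dv, dvecR, gmap] <;> ring

theorem qR_smul (c : ℝ) (x : RVec) : qR (c • x) = c ^ 2 * qR x := by
  simp [qR]; ring

theorem dvecR_injective : Function.Injective dvecR := by
  intro u v h
  have h0 := congrFun h 0
  have h1 := congrFun h 1
  have h2 := congrFun h 2
  have h3 := congrFun h 3
  simp [dvecR] at h0 h1 h2 h3
  funext i
  fin_cases i <;> simp <;> linarith

/-- The scaled dual basis. -/
def dualBasis {s : ℝ} (hs : s ≠ 0) : Module.Basis (Fin 4) ℝ RVec :=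
  (Pi.basisFun ℝ (Fin 4)).map (LinearEquiv.ofInjectiveEndo (s • dvecR)
    fun _ _ h => dvecR_injective (smul_right_injective RVec hs h))

theorem summable_dual {f : RVec → ℂ} (hf : VDecay f 5) {s : ℝ} (hs : s ≠ 0) :
    Summable fun k : IVec => f (s • dv k) := by
  have h := Poisson.summable_translate (d := Fin 4) (b := 5) (by norm_num)
    (hf.comp_basis (by norm_num) (dualBasis hs) 0) 0
  refine h.congr fun k => ?_
  congr 1
  simp only [zero_add, dualBasis, Module.Basis.map_apply, ← map_smul, ← map_sum]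
  rw [show (∑ i, intVec k i • (Pi.basisFun ℝ (Fin 4)) i) = intVec k from
    (Pi.basisFun ℝ (Fin 4)).sum_repr (intVec k)]
  rfl

/-- The scaled standard basis. -/
def stdBasis {t : ℝ} (ht : t ≠ 0) : Module.Basis (Fin 4) ℝ RVec :=
  (Pi.basisFun ℝ (Fin 4)).map (LinearEquiv.smulOfNeZero ℝ RVec t ht)

theorem stdBasis_apply {t : ℝ} (ht : t ≠ 0) (i : Fin 4) :
    stdBasis ht i = t • (Pi.single i 1 : RVec) := by
  rw [stdBasis, Module.Basis.map_apply, Pi.basisFun_apply]; rfl

theorem latVec_stdBasis {t : ℝ} (ht : t ≠ 0) (z : IVec) :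
    latVec (stdBasis ht) z = t • intVec z := by
  funext i
  simp [latVec, stdBasis_apply, Finset.sum_apply, Pi.single_apply, mul_comm]

theorem volume_stdBasis {t : ℝ} (ht : 0 < t) :
    (volume ((stdBasis ht.ne').parallelepiped : Set RVec)).toReal = t ^ 4 := by
  rw [Module.Basis.coe_parallelepiped, parallelepiped_basis_eq]
  have hrepr : ∀ (x : RVec) (i : Fin 4), (stdBasis ht.ne').repr x i = t⁻¹ * x i := fun x i => by
    simp [stdBasis, LinearEquiv.smulOfNeZero, LinearEquiv.smulOfUnit, Units.smul_def]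
  have : {x : RVec | ∀ i, (stdBasis ht.ne').repr x i ∈ Set.Icc (0 : ℝ) 1} =
      Set.Icc 0 (fun _ => t) := by
    ext x
    simp only [hrepr, Set.mem_ofPred_eq, Set.mem_Icc, Pi.le_def, Pi.zero_apply, forall_and]
    refine and_congr (forall_congr' fun i => ?_) (forall_congr' fun i => ?_)
    · rw [mul_nonneg_iff_of_pos_left (inv_pos.mpr ht)]
    · rw [inv_mul_le_iff₀ ht, mul_one]
  rw [this, Real.volume_Icc_pi_toReal (a := (0 : RVec)) (b := fun _ => t) (fun _ => ht.le)]
  simp

/-- Poisson summation on `t ℤ⁴`. -/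
theorem tsum_translate {f : RVec → ℂ} (hc : Continuous f) (hf : VDecay f 5) {t : ℝ} (ht : 0 < t)
    (hsum : Summable fun j : IVec => pairFourier volume bR f (t⁻¹ • dv j)) (x : RVec) :
    ∑' z : IVec, f (x + t • intVec z) =
      ((t ^ 4)⁻¹ : ℝ) • ∑' j : IVec,
        pairFourier volume bR f (t⁻¹ • dv j) * eC (bR (t⁻¹ • dv j) x) := by
  let b' : Fin 4 → RVec := fun i => t⁻¹ • dvecR (Pi.single i 1)
  have hb' : ∀ j, latVec b' j = t⁻¹ • dv j := fun j => by
    simp only [latVec, b', dv, smul_comm _ t⁻¹, ← Finset.smul_sum, ← map_smul, ← map_sum]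
    congr 3
    funext i
    simp [Finset.sum_apply, Pi.single_apply]
  have h := Poisson.tsum_latVec volume (stdBasis ht.ne') bR b' (fun j i => by
    simp only [b', stdBasis_apply, map_smul, LinearMap.smul_apply, bR_dvecR, smul_eq_mul]
    rw [← mul_assoc, mul_inv_cancel₀ ht.ne', one_mul]
    simp [Pi.single_apply, eq_comm]) hc (r := 5) (by norm_num) hf (by simpa [hb'] using hsum) x
  rw [volume_stdBasis ht] at h
  simpa [hb', latVec_stdBasis] using h

theorem ez_q3_congr {N : ℕ} [NeZero N] (a : ℤ) {k j : IVec} (h : dcls N k = dcls N j) :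
    ez (3 * N) (a * q3 k) = ez (3 * N) (a * q3 j) := by
  obtain ⟨z, rfl⟩ := dcls_eq_iff.mp h
  have : NeZero (3 * N) := ⟨by simpa using NeZero.ne N⟩
  refine (ez_eq_of_dvd ⟨a * (∑ i, k i * z i) + a * N * qL z, ?_⟩).symm
  rw [q3_add, q3_smul, w3_smul_right, w3_gmap, q3_gmap]
  push_cast
  ring

theorem ez_w3_congr {N : ℕ} [NeZero N] (l : IVec) {k j : IVec} (h : dcls N k = dcls N j) :
    ez (3 * N) (w3 l k) = ez (3 * N) (w3 l j) := by
  obtain ⟨z, rfl⟩ := dcls_eq_iff.mp h
  have : NeZero (3 * N) := ⟨by simpa using NeZero.ne N⟩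
  refine (ez_eq_of_dvd ⟨∑ i, l i * z i, ?_⟩).symm
  rw [w3_add_right, w3_smul_right, w3_gmap]
  push_cast
  ring

theorem dcls_out (N : ℕ) (r : Disc N) : dcls N r.out = r := QuotientAddGroup.out_eq' r

/-- Poisson summation for a periodic weight on the scaled dual lattice. -/
theorem tsum_disc {N : ℕ} [NeZero N] (ψ : Disc N → ℂ) {f : RVec → ℂ} (hc : Continuous f)
    (hf : VDecay f 5) {s : ℝ} (hs : 0 < s)
    (hsum : Summable fun j : IVec => pairFourier volume bR f ((s * N)⁻¹ • dv j)) :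
    ∑' k : IVec, ψ (dcls N k) * f (s • dv k) =
      (((s * N) ^ 4)⁻¹ : ℝ) • ∑' j : IVec,
        (∑ r : Disc N, ψ r * ez (3 * N) (w3 j r.out)) *
          pairFourier volume bR f ((s * N)⁻¹ • dv j) := by
  classical
  have hN : (0 : ℝ) < N := Nat.cast_pos.mpr (NeZero.pos N)
  have hsk : Summable fun k : IVec => ψ (dcls N k) * f (s • dv k) := by
    refine Summable.of_norm_bounded
      (((summable_dual hf hs.ne').norm).mul_left (∑ r, ‖ψ r‖)) fun k => ?_
    rw [norm_mul]
    exact mul_le_mul_of_nonneg_right (Finset.single_le_sum (f := fun r => ‖ψ r‖)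
      (fun r _ => norm_nonneg _) (Finset.mem_univ _)) (norm_nonneg _)
  have hsp : Summable fun p : Disc N × IVec =>
      ψ (dcls N (splitEquiv N p)) * f (s • dv (splitEquiv N p)) :=
    hsk.comp_injective (splitEquiv N).injective
  rw [← (splitEquiv N).tsum_eq fun k => ψ (dcls N k) * f (s • dv k), hsp.tsum_prod,
    tsum_fintype]
  have hstep : ∀ r : Disc N, ∑' z : IVec,
      ψ (dcls N (splitEquiv N (r, z))) * f (s • dv (splitEquiv N (r, z))) =
      (((s * N) ^ 4)⁻¹ : ℝ) • ∑' j : IVec,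
        ψ r * ez (3 * N) (w3 j r.out) * pairFourier volume bR f ((s * N)⁻¹ • dv j) := by
    intro r
    have hpt : ∀ z : IVec, ψ (dcls N (splitEquiv N (r, z))) * f (s • dv (splitEquiv N (r, z))) =
        ψ r * f (s • dv r.out + (s * N) • intVec z) := fun z => by
      rw [dcls_splitEquiv]
      congr 2
      show s • dv (r.out + (N : ℤ) • gmap z) = _
      rw [dv_add, dv_smul_gmap, smul_add, smul_smul]
      norm_cast
    rw [tsum_congr hpt, tsum_mul_left, tsum_translate hc hf (mul_pos hs hN) hsum,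
      mul_smul_comm, ← tsum_mul_left]
    congr 1
    refine tsum_congr fun j => ?_
    rw [mul_assoc, mul_comm (ez _ _)]
    congr 2
    simp only [map_smul, LinearMap.smul_apply, bR_dv_dv, smul_eq_mul, ez]
    congr 1
    push_cast
    field_simp
  simp only [hstep, ← Finset.smul_sum]
  congr 1
  rw [← Summable.tsum_finsetSum]
  · exact tsum_congr fun j => by rw [Finset.sum_mul]
  · intro r _
    refine Summable.of_norm_bounded (hsum.norm.mul_left ‖ψ r‖) fun j => ?_
    simp only [norm_mul, ez, Poisson.eC, Complex.norm_exp]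
    simp [← Complex.ofReal_ofNat, ← Complex.ofReal_mul]

variable (M : ℕ) [NeZero M]

/-- The theta series of a weight `φ` on the discriminant group of level `M²`. -/
def theta (φ : Disc (M ^ 2) → ℂ) (τ : ℍ) (w : HSpace) : ℂ :=
  ∑' k : IVec, φ (dcls (M ^ 2) k) * gK τ w ((M : ℝ)⁻¹ • dv k)

theorem inv_natCast_ne_zero : ((M : ℝ)⁻¹) ≠ 0 := inv_ne_zero (Nat.cast_ne_zero.mpr (NeZero.ne M))

theorem summable_theta (φ : Disc (M ^ 2) → ℂ) (τ : ℍ) (w : HSpace) :
    Summable fun k : IVec => φ (dcls (M ^ 2) k) * gK τ w ((M : ℝ)⁻¹ • dv k) := by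
  refine Summable.of_norm_bounded (((summable_dual (vdecay_gK τ w)
    (inv_natCast_ne_zero M)).norm).mul_left (∑ r, ‖φ r‖)) fun k => ?_
  rw [norm_mul]
  exact mul_le_mul_of_nonneg_right (Finset.single_le_sum (f := fun r => ‖φ r‖)
    (fun r _ => norm_nonneg _) (Finset.mem_univ _)) (norm_nonneg _)

theorem theta_add (φ ψ : Disc (M ^ 2) → ℂ) (τ : ℍ) (w : HSpace) :
    theta M (φ + ψ) τ w = theta M φ τ w + theta M ψ τ w := by
  rw [theta, theta, theta, ← (summable_theta M φ τ w).tsum_add (summable_theta M ψ τ w)]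
  exact tsum_congr fun k => by simp [add_mul]

omit [NeZero M] in
theorem theta_smul (c : ℂ) (φ : Disc (M ^ 2) → ℂ) (τ : ℍ) (w : HSpace) :
    theta M (c • φ) τ w = c * theta M φ τ w := by
  rw [theta, theta, ← tsum_mul_left]
  exact tsum_congr fun k => by simp [mul_assoc]

/-- The phase attached to a translation. -/
def translWeight (n : ℤ) (φ : Disc (M ^ 2) → ℂ) : Disc (M ^ 2) → ℂ :=
  fun r => ez (3 * M ^ 2) (n * q3 r.out) * φ r

/-- The finite Fourier transform. -/
def fourierWeight (φ : Disc (M ^ 2) → ℂ) : Disc (M ^ 2) → ℂ :=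
  fun r => -(I / (Real.sqrt 3 : ℂ)) / (M : ℂ) ^ 4 *
    ∑ s : Disc (M ^ 2), φ s * ez (3 * M ^ 2) (w3 r.out s.out)

theorem theta_of_add_int (φ : Disc (M ^ 2) → ℂ) (τ τ' : ℍ) (n : ℤ)
    (h : (τ' : ℂ) = (τ : ℂ) + n) (w : HSpace) :
    theta M φ τ' w = theta M (translWeight M n φ) τ w := by
  refine tsum_congr fun k => ?_
  rw [gK_of_add τ τ' n (by simpa using h), translWeight, ez_q3_congr n (dcls_out (M ^ 2) _),
    qR_smul, qR_dv, ez, show (n : ℝ) * ((M : ℝ)⁻¹ ^ 2 * ((q3 k : ℝ) / 3)) =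
      ((n * q3 k : ℤ) : ℝ) / ((3 * M ^ 2 : ℕ) : ℝ) by
      have := inv_natCast_ne_zero M
      push_cast; field_simp]
  ring

theorem theta_of_neg_inv (φ : Disc (M ^ 2) → ℂ) (τ τ' : ℍ) (h : (τ' : ℂ) = -(τ : ℂ)⁻¹)
    (w : HSpace) : theta M φ τ' w = (τ : ℂ) * theta M (fourierWeight M φ) τ w := by
  have hM : (0 : ℝ) < M := Nat.cast_pos.mpr (NeZero.pos M)
  have hτ : (τ : ℂ) = -(τ' : ℂ)⁻¹ := by rw [h, inv_neg, inv_inv, neg_neg]
  have hMN : ((M : ℝ)⁻¹ * ((M ^ 2 : ℕ) : ℝ))⁻¹ = (M : ℝ)⁻¹ := by push_cast; field_simp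
  have hP : ∀ j : IVec, pairFourier volume bR (gK τ' w)
      (((M : ℝ)⁻¹ * ((M ^ 2 : ℕ) : ℝ))⁻¹ • dv j) =
      -(I / (Real.sqrt 3 : ℂ)) * τ * gK τ w ((M : ℝ)⁻¹ • dv j) := fun j => by
    rw [hMN, pairFourier_gK τ' τ hτ]
    have := τ'.ne_zero
    have : (Real.sqrt 3 : ℂ) ≠ 0 := ofReal_ne_zero.mpr (by simp)
    rw [hτ]
    field_simp
  rw [theta, tsum_disc φ (continuous_gK τ' w) (vdecay_gK τ' w) (inv_pos.mpr hM)
    (by simp only [hP]
        exact (summable_dual (vdecay_gK τ w) (inv_natCast_ne_zero M)).mul_left _)]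
  simp only [hP, theta, Complex.real_smul, ← tsum_mul_left]
  refine tsum_congr fun j => ?_
  have hF : fourierWeight M φ (dcls (M ^ 2) j) = -(I / (Real.sqrt 3 : ℂ)) / (M : ℂ) ^ 4 *
      ∑ s : Disc (M ^ 2), φ s * ez (3 * M ^ 2) (w3 j s.out) := by
    rw [fourierWeight]
    congr 1
    refine Finset.sum_congr rfl fun s _ => ?_
    rw [w3_comm _ s.out, ez_w3_congr _ (dcls_out (M ^ 2) (dcls _ j)), w3_comm]
  rw [hF]
  push_cast
  have : (M : ℂ) ≠ 0 := Nat.cast_ne_zero.mpr (NeZero.ne M)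
  field_simp

/-- `φ ↦` the function of `τ`. -/
def thetaFun (φ : Disc (M ^ 2) → ℂ) (w : HSpace) : ℍ → ℂ := fun τ => theta M φ τ w

theorem thetaFun_slash_T_zpow (φ : Disc (M ^ 2) → ℂ) (n : ℤ) (w : HSpace) :
    thetaFun M φ w ∣[(1 : ℤ)] (ModularGroup.T ^ n) = thetaFun M (translWeight M n φ) w := by
  funext τ
  rw [ModularForm.SL_slash_apply, ModularGroup.denom_apply, ModularGroup.coe_T_zpow]
  simp only [thetaFun]
  rw [theta_of_add_int M φ τ (ModularGroup.T ^ n • τ) n
    (ModularGroup.coe_T_zpow_smul_eq (n := n) τ)]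
  simp

theorem thetaFun_slash_S (φ : Disc (M ^ 2) → ℂ) (w : HSpace) :
    thetaFun M φ w ∣[(1 : ℤ)] ModularGroup.S = thetaFun M (fourierWeight M φ) w := by
  funext τ
  rw [ModularForm.SL_slash_apply]
  simp only [thetaFun, ModularGroup.denom_S]
  rw [theta_of_neg_inv M φ τ (ModularGroup.S • τ) (by rw [UpperHalfPlane.modular_S_smul]; simp [inv_neg])]
  rw [zpow_neg, zpow_one]
  field_simp [τ.ne_zero]

/-- The `SL(2, ℤ)`-translates of a theta series are theta series of the same level. -/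
theorem exists_thetaFun_slash (φ : Disc (M ^ 2) → ℂ) (A : SL(2, ℤ)) :
    ∃ ψ : Disc (M ^ 2) → ℂ, ∀ w, thetaFun M φ w ∣[(1 : ℤ)] A = thetaFun M ψ w := by
  have hS4 : (ModularGroup.S * ModularGroup.S) * (ModularGroup.S * ModularGroup.S) = 1 := by
    apply Subtype.ext
    simp only [Matrix.SpecialLinearGroup.coe_mul, ModularGroup.coe_S,
      Matrix.SpecialLinearGroup.coe_one]
    ext i j; fin_cases i <;> fin_cases j <;> simp [Matrix.mul_apply, Fin.sum_univ_two]
  have hA : A ∈ Subgroup.closure {ModularGroup.S, ModularGroup.T} := by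
    rw [SpecialLinearGroup.SL2Z_generators]; trivial
  induction hA using Subgroup.closure_induction_right with
  | one => exact ⟨φ, fun w => SlashAction.slash_one _ _⟩
  | mul_right x _ y hy ih =>
    obtain ⟨ψ, hψ⟩ := ih
    rcases hy with rfl | rfl
    · exact ⟨fourierWeight M ψ, fun w => by rw [SlashAction.slash_mul, hψ, thetaFun_slash_S]⟩
    · exact ⟨translWeight M 1 ψ, fun w => by
        rw [SlashAction.slash_mul, hψ, ← zpow_one ModularGroup.T, thetaFun_slash_T_zpow]⟩
  | mul_inv_cancel x _ y hy ih =>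
    obtain ⟨ψ, hψ⟩ := ih
    rcases hy with rfl | rfl
    · refine ⟨fourierWeight M (fourierWeight M (fourierWeight M ψ)), fun w => ?_⟩
      rw [show ModularGroup.S⁻¹ = ModularGroup.S * ModularGroup.S * ModularGroup.S from
        inv_eq_of_mul_eq_one_left (by rw [← mul_assoc] at hS4; exact hS4),
        SlashAction.slash_mul, SlashAction.slash_mul, SlashAction.slash_mul, hψ,
        thetaFun_slash_S, thetaFun_slash_S, thetaFun_slash_S]
    · exact ⟨translWeight M (-1) ψ, fun w => by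
        rw [SlashAction.slash_mul, hψ, ← zpow_neg_one, thetaFun_slash_T_zpow]⟩

end Fermat.Agent.LT.Theta
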