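import Fermat.Agent.LT.Theta.Level
import Fermat.Agent.LT.Theta.Count

/-!
The Hecke identity for the theta kernel: summing `θ[φ ∘ h_j](τ, h_j⁻¹ w)` over the `p + 1`
neighbours of determinant `π` gives `√p · T_p θ[φ](τ, w)`.
-/

set_option autoImplicit false

noncomputable section

namespace Fermat.Agent.LT.Theta

open Complex
open Poisson (eC)
open Adelic (HSpace)
open Orbit (EisData)
open UpperHalfPlane hiding I
open scoped Real BigOperators MatrixGroups ModularForm ComplexConjugate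

/-- The Hermitian matrix with coordinates `x`, for `ω = (-1 + i√3)/2`. -/
def hermC (x : RVec) : Matrix (Fin 2) (Fin 2) ℂ :=
  !![(x 0 : ℂ), ((x 2 - x 3 / 2 : ℝ) : ℂ) + ((Real.sqrt 3 / 2 * x 3 : ℝ) : ℂ) * I;
    ((x 2 - x 3 / 2 : ℝ) : ℂ) - ((Real.sqrt 3 / 2 * x 3 : ℝ) : ℂ) * I, (x 1 : ℂ)]

theorem hermC_smul (c : ℝ) (x : RVec) : hermC (c • x) = (c : ℂ) • hermC x := by
  ext i j
  fin_cases i <;> fin_cases j <;> simp [hermC] <;> ring

theorem det_hermC (x : RVec) : (hermC x).det = -(qR x : ℂ) := by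
  have h : ((Real.sqrt 3 : ℂ)) ^ 2 = 3 := by rw [← ofReal_pow, sqrt3_sq]; norm_num
  simp [hermC, Matrix.det_fin_two, qR]
  linear_combination -((Real.sqrt 3 : ℂ) ^ 2 * (x 3 : ℂ) ^ 2 / 4) * I_sq +
    ((x 3 : ℂ) ^ 2 / 4) * h

theorem frame_three_eq_trace (w : HSpace) (x : RVec) :
    (frame w x 3 : ℂ) = (w.herm.adjugate * hermC x).trace / 2 := by
  have hr : (w.r : ℂ) ≠ 0 := ofReal_ne_zero.mpr w.r_pos.ne'
  rw [Matrix.trace_fin_two, HSpace.herm, Matrix.adjugate_fin_two]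
  simp [Matrix.mul_apply, Fin.sum_univ_two, frame_apply, frameFun, hermC]
  rw [show conj w.z = (w.z.re : ℂ) - (w.z.im : ℂ) * I by
    apply Complex.ext <;> simp]
  have hz : w.z = (w.z.re : ℂ) + (w.z.im : ℂ) * I := (re_add_im w.z).symm
  generalize (w.z.re : ℂ) = u at hz ⊢
  generalize (w.z.im : ℂ) = t at hz ⊢
  rw [hz]
  field_simp
  ring_nf
  rw [I_sq]
  ring

/-- The kernel only depends on `Q(x)` and `l_w(x)`. -/
theorem gK_eq (τ : ℍ) (w : HSpace) (x : RVec) :
    gK τ w x = (Real.sqrt τ.im : ℂ) * cexp (2 * π * I * τ * (qR x : ℂ) -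
      4 * π * (τ.im : ℂ) * (frame w x 3 : ℂ) ^ 2) := by
  rw [gK, gStd, qR_frame w x]
  congr 2
  generalize frame w x = u
  have h : conj (τ : ℂ) = (τ : ℂ) - 2 * (τ.im : ℂ) * I := by
    apply Complex.ext <;> simp; ring
  rw [h]
  push_cast
  linear_combination (4 * π * (τ.im : ℂ) * (u 3 : ℂ) ^ 2) * I_sq

/-- The form is invariant under `x ↦ g x g* / |det g|`. -/
theorem qR_equivariant (g : GL (Fin 2) ℂ) {x x' : RVec}
    (h : hermC x' = (HSpace.absDet g : ℂ)⁻¹ •
      ((g : Matrix (Fin 2) (Fin 2) ℂ) * hermC x * (g : Matrix (Fin 2) (Fin 2) ℂ).conjTranspose)) :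
    qR x' = qR x := by
  set G := (g : Matrix (Fin 2) (Fin 2) ℂ) with hG
  have hn : (HSpace.absDet g : ℂ) ≠ 0 := ofReal_ne_zero.mpr (HSpace.absDet_pos g).ne'
  have h2 : (HSpace.absDet g : ℂ) * (HSpace.absDet g : ℂ) = G.det * conj G.det := by
    rw [Complex.mul_conj', HSpace.absDet, sq]
  have h1 := congrArg Matrix.det h
  rw [det_hermC, Matrix.det_smul, Fintype.card_fin, Matrix.det_mul, Matrix.det_mul,
    Matrix.det_conjTranspose, det_hermC, show star G.det = conj G.det from rfl] at h1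
  have h3 : (qR x' : ℂ) = qR x := by
    field_simp at h1
    refine mul_right_cancel₀ (mul_ne_zero hn hn) ?_
    linear_combination -h1 - (qR x : ℂ) * h2
  exact_mod_cast h3

/-- `l_{g w}(g x) = l_w(x)`. -/
theorem frame_three_equivariant (g : GL (Fin 2) ℂ) {x x' : RVec}
    (h : hermC x' = (HSpace.absDet g : ℂ)⁻¹ •
      ((g : Matrix (Fin 2) (Fin 2) ℂ) * hermC x * (g : Matrix (Fin 2) (Fin 2) ℂ).conjTranspose)) (w : HSpace) :
    (frame (g • w) x' 3 : ℂ) = frame w x 3 := by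
  set G := (g : Matrix (Fin 2) (Fin 2) ℂ) with hG
  have hn : (HSpace.absDet g : ℂ) ≠ 0 := ofReal_ne_zero.mpr (HSpace.absDet_pos g).ne'
  have h2 : (HSpace.absDet g : ℂ) * (HSpace.absDet g : ℂ) = G.det * conj G.det := by
    rw [Complex.mul_conj', HSpace.absDet, sq]
  rw [frame_three_eq_trace, frame_three_eq_trace, h, HSpace.herm_smul, Matrix.adjugate_smul,
    Fintype.card_fin, show (2 : ℕ) - 1 = 1 from rfl, pow_one, smul_mul_assoc, mul_smul_comm,
    smul_smul, Matrix.adjugate_mul_distrib, Matrix.adjugate_mul_distrib, ← hG]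
  have e : G.conjTranspose.adjugate * (w.herm.adjugate * G.adjugate) *
      (G * hermC x * G.conjTranspose) =
      G.det • (G.conjTranspose.adjugate * (w.herm.adjugate * hermC x) * G.conjTranspose) := by
    rw [show G.conjTranspose.adjugate * (w.herm.adjugate * G.adjugate) *
        (G * hermC x * G.conjTranspose) = G.conjTranspose.adjugate *
        (w.herm.adjugate * (G.adjugate * G) * hermC x) * G.conjTranspose by
      simp only [Matrix.mul_assoc], Matrix.adjugate_mul]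
    simp only [mul_smul_comm, smul_mul_assoc, mul_one]
  rw [e, Matrix.trace_smul, Matrix.trace_smul, Matrix.trace_mul_comm, ← Matrix.mul_assoc,
    Matrix.mul_adjugate, Matrix.det_conjTranspose, smul_one_mul, Matrix.trace_smul]
  simp only [smul_eq_mul, show star G.det = conj G.det from rfl]
  field_simp
  linear_combination (-(w.herm.adjugate * hermC x).trace) * h2

/-- The kernel is equivariant for `GL₂(ℂ)`, acting on vectors by `x ↦ g x g* / |det g|`. -/
theorem gK_equivariant (τ : ℍ) (g : GL (Fin 2) ℂ) (w : HSpace) (x x' : RVec)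
    (h : hermC x' = (HSpace.absDet g : ℂ)⁻¹ •
      ((g : Matrix (Fin 2) (Fin 2) ℂ) * hermC x * (g : Matrix (Fin 2) (Fin 2) ℂ).conjTranspose)) :
    gK τ (g • w) x' = gK τ w x := by
  rw [gK_eq, gK_eq, qR_equivariant g h, frame_three_equivariant g h w]

variable {O : Type*} [CommRing O] {E : EisData O} (ι : O →+* ℂ)

/-- `ι` is the standard embedding. -/
def IsStdEmb (E : EisData O) (ι : O →+* ℂ) : Prop :=
  ι E.w = -(1 / 2) + (Real.sqrt 3 : ℂ) / 2 * I

variable {ι}

theorem IsStdEmb.map_conj (hι : IsStdEmb E ι) (x : O) : ι (E.conj x) = conj (ι x) := by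
  obtain ⟨a, b, rfl⟩ := E.repr x
  simp only [map_add, map_mul, map_intCast, E.conj_w, map_sub, map_neg, map_one, show ι E.w = _ from hι]
  apply Complex.ext <;> simp [map_ofNat, Complex.div_ofNat_re, Complex.div_ofNat_im] <;> ring

theorem IsStdEmb.map_skewMat (hι : IsStdEmb E ι) (k : IVec) :
    (skewMat E k).map ι = (I * (Real.sqrt 3 : ℂ)) • hermC (dv k) := by
  have hs : ι E.s = I * (Real.sqrt 3 : ℂ) := by
    rw [EisData.s, map_add, map_mul, map_one, map_ofNat, show ι E.w = _ from hι]; ring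
  have h : ((Real.sqrt 3 : ℂ)) ^ 2 = 3 := by rw [← ofReal_pow, sqrt3_sq]; norm_num
  ext i j
  fin_cases i <;> fin_cases j <;>
    simp [skewMat, hermC, dv, dvecR, hs, show ι E.w = _ from hι, hι.map_conj, map_ofNat]
  · linear_combination (-(Real.sqrt 3 : ℂ) ^ 2 * ((k 2 : ℂ) + 2 * (k 3 : ℂ)) / 6) * I_sq +
      (((k 2 : ℂ) + 2 * (k 3 : ℂ)) / 6) * h
  · linear_combination ((Real.sqrt 3 : ℂ) ^ 2 * ((k 2 : ℂ) + 2 * (k 3 : ℂ)) / 6) * I_sq -
      (((k 2 : ℂ) + 2 * (k 3 : ℂ)) / 6) * h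

theorem IsStdEmb.hermC_dv_actK (hι : IsStdEmb E ι) (g : Matrix (Fin 2) (Fin 2) O) (k : IVec) :
    hermC (dv (actK E g k)) = g.map ι * hermC (dv k) * (g.map ι).conjTranspose := by
  have hne : I * (Real.sqrt 3 : ℂ) ≠ 0 :=
    mul_ne_zero I_ne_zero (ofReal_ne_zero.mpr (by simp))
  have h := congrArg (fun Y : Matrix (Fin 2) (Fin 2) O => Y.map ι) (skewMat_actK E g k)
  simp only [Matrix.map_mul, hι.map_skewMat] at h
  have hT : (adjT E g).map ι = (g.map ι).conjTranspose := by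
    ext i j; simp [adjT, hι.map_conj]
  rw [hT, Matrix.mul_smul, Matrix.smul_mul] at h
  exact smul_right_injective (Matrix (Fin 2) (Fin 2) ℂ) hne h

variable (M : ℕ) [NeZero M] {p : ℕ} [Fact p.Prime] {J : Type*} [Fintype J]
  {ϖ : O} {r : O →+* ZMod p} {h : J → Matrix (Fin 2) (Fin 2) O}

theorem IsNeighbours.absDet_eq (hι : IsStdEmb E ι) (hn : IsNeighbours E p ϖ r h)
    (G : J → GL (Fin 2) ℂ) (hG : ∀ j, (G j : Matrix (Fin 2) (Fin 2) ℂ) = (h j).map ι) (j : J) :
    HSpace.absDet (G j) = Real.sqrt p := by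
  have h1 : ((G j : Matrix (Fin 2) (Fin 2) ℂ)).det = ι ϖ := by
    rw [hG, ← RingHom.mapMatrix_apply, ← RingHom.map_det, hn.det_eq]
  have h2 : (‖ι ϖ‖ : ℂ) ^ 2 = (p : ℂ) := by
    rw [← Complex.mul_conj', ← hι.map_conj, ← map_mul, hn.norm_eq, map_natCast]
  rw [HSpace.absDet, h1, ← Real.sqrt_sq (norm_nonneg (ι ϖ))]
  congr 1
  exact_mod_cast h2

omit [NeZero M] in
/-- One neighbour: the translated theta series is a partial sum of the scaled one. -/
theorem theta_comp_actD (hι : IsStdEmb E ι) (hn : IsNeighbours E p ϖ r h)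
    (G : J → GL (Fin 2) ℂ) (hG : ∀ j, (G j : Matrix (Fin 2) (Fin 2) ℂ) = (h j).map ι)
    (φ : Disc (M ^ 2) → ℂ) (τ : ℍ) (w : HSpace) (j : J) :
    theta M (fun x => φ (actD E (M ^ 2) (h j) x)) τ ((G j)⁻¹ • w) =
      ∑' k : IVec, Set.indicator (Set.range (actK E (h j)))
        (fun k => φ (dcls (M ^ 2) k) * gK τ w (((Real.sqrt p)⁻¹ * (M : ℝ)⁻¹) • dv k)) k := by
  set F : IVec → ℂ := fun k =>
    φ (dcls (M ^ 2) k) * gK τ w (((Real.sqrt p)⁻¹ * (M : ℝ)⁻¹) • dv k)
  calc theta M (fun x => φ (actD E (M ^ 2) (h j) x)) τ ((G j)⁻¹ • w)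
      = ∑' y : IVec, F (actK E (h j) y) := by
        refine tsum_congr fun y => ?_
        simp only [F, actD_dcls]
        congr 1
        conv_rhs => rw [← smul_inv_smul (G j) w]
        refine (gK_equivariant τ (G j) ((G j)⁻¹ • w) _ _ ?_).symm
        rw [hn.absDet_eq hι G hG, hG, hermC_smul, hι.hermC_dv_actK, hermC_smul]
        simp only [Matrix.mul_smul, Matrix.smul_mul, smul_smul]
        push_cast
        ring_nf
    _ = ∑' y : IVec, (Set.range (actK E (h j))).indicator F (actK E (h j) y) := by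
        simp
    _ = _ := (hn.actK_injective j).tsum_eq fun k hk => Set.mem_of_indicator_ne_zero hk

theorem summable_theta_scaled (φ : Disc (M ^ 2) → ℂ) (τ : ℍ) (w : HSpace) {c : ℝ} (hc : c ≠ 0) :
    Summable fun k : IVec => φ (dcls (M ^ 2) k) * gK τ w (c • dv k) := by
  refine Summable.of_norm_bounded
    (((summable_dual (vdecay_gK τ w) hc).norm).mul_left (∑ r, ‖φ r‖)) fun k => ?_
  rw [norm_mul]
  exact mul_le_mul_of_nonneg_right (Finset.single_le_sum (f := fun r => ‖φ r‖)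
    (fun r _ => norm_nonneg _) (Finset.mem_univ _)) (norm_nonneg _)

open scoped Classical in
/-- All neighbours together. -/
theorem sum_theta_comp_actD (hι : IsStdEmb E ι) (hn : IsNeighbours E p ϖ r h)
    (G : J → GL (Fin 2) ℂ) (hG : ∀ j, (G j : Matrix (Fin 2) (Fin 2) ℂ) = (h j).map ι)
    (φ : Disc (M ^ 2) → ℂ) (τ : ℍ) (w : HSpace) :
    ∑ j, theta M (fun x => φ (actD E (M ^ 2) (h j) x)) τ ((G j)⁻¹ • w) =
      ∑' k : IVec, ((if (p : ℤ) ∣ q3 k then 1 else 0) +
        (if ∀ i, (p : ℤ) ∣ k i then (p : ℂ) else 0)) *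
          (φ (dcls (M ^ 2) k) * gK τ w (((Real.sqrt p)⁻¹ * (M : ℝ)⁻¹) • dv k)) := by
  have hp : (0 : ℝ) < p := Nat.cast_pos.mpr (Fact.out : p.Prime).pos
  have hs := summable_theta_scaled M φ τ w (c := (Real.sqrt p)⁻¹ * (M : ℝ)⁻¹)
    (mul_ne_zero (inv_ne_zero (Real.sqrt_pos.mpr hp).ne') (inv_natCast_ne_zero M))
  simp only [theta_comp_actD M hι hn G hG φ τ w]
  rw [← Summable.tsum_finsetSum (fun j _ => hs.indicator _)]
  refine tsum_congr fun k => ?_
  have hc := hn.card_range k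
  have hc' : (((Finset.univ.filter fun j => ∃ y, actK E (h j) y = k).card : ℕ) : ℂ) =
      (if (p : ℤ) ∣ q3 k then 1 else 0) + (if ∀ i, (p : ℤ) ∣ k i then (p : ℂ) else 0) := by
    have := congrArg (fun x : ℤ => (x : ℂ)) hc
    push_cast at this
    simpa using this
  rw [← hc', Finset.sum_congr rfl (fun j _ => Set.indicator_apply _ _ k), ← Finset.sum_filter,
    Finset.sum_const, nsmul_eq_mul]
  congr 2

theorem sum_range_ez (n : ℤ) :
    ∑ j ∈ Finset.range p, ez p (j * n) = if (p : ℤ) ∣ n then (p : ℂ) else 0 := by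
  have : NeZero p := ⟨(Fact.out : p.Prime).ne_zero⟩
  simp only [ez_mul_natCast]
  split_ifs with hd
  · simp [ez_eq_one_iff.mpr hd]
  · rw [geom_sum_eq (fun h1 => hd (ez_eq_one_iff.mp h1)), ← ez_mul_natCast,
      ez_eq_one_iff.mpr (dvd_mul_right _ _), sub_self, zero_div]

/-- **Hecke identity.** The translates of the two parts of `T_p` are given by their points. -/
theorem sum_theta_comp_actD_eq_hecke (hι : IsStdEmb E ι) (hn : IsNeighbours E p ϖ r h)
    (G : J → GL (Fin 2) ℂ) (hG : ∀ j, (G j : Matrix (Fin 2) (Fin 2) ℂ) = (h j).map ι)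
    (φ : Disc (M ^ 2) → ℂ) (t : ℤ)
    (ht : ∀ k : IVec, φ (dcls (M ^ 2) k) ≠ 0 →
      ∃ n : ℤ, t * q3 k = 3 * (M : ℤ) ^ 2 * n ∧ ((p : ℤ) ∣ n ↔ (p : ℤ) ∣ q3 k))
    (τ : ℍ) (τj : ℕ → ℍ) (hτj : ∀ j, (τj j : ℂ) = ((τ : ℂ) + (t : ℂ) * j) / p)
    (τp : ℍ) (hτp : (τp : ℂ) = (p : ℂ) * τ) (w : HSpace) :
    ∑ j, theta M (fun x => φ (actD E (M ^ 2) (h j) x)) τ ((G j)⁻¹ • w) =
      (Real.sqrt p : ℂ) * ((p : ℂ)⁻¹ * (∑ j ∈ Finset.range p, theta M φ (τj j) w) +
        theta M (fun x => φ ((p : ℤ) • x)) τp w) := by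
  classical
  have hpN : p ≠ 0 := (Fact.out : p.Prime).ne_zero
  have hp : (0 : ℝ) < p := Nat.cast_pos.mpr (Nat.pos_of_ne_zero hpN)
  have hsp : (0 : ℝ) < Real.sqrt p := Real.sqrt_pos.mpr hp
  have hsq : (Real.sqrt p : ℂ) ^ 2 = p := by
    rw [← ofReal_pow, Real.sq_sqrt hp.le]; simp
  set c : ℝ := (Real.sqrt p)⁻¹ * (M : ℝ)⁻¹ with hc
  set F : IVec → ℂ := fun k => φ (dcls (M ^ 2) k) * gK τ w (c • dv k) with hF
  have hs : Summable F := summable_theta_scaled M φ τ w
    (mul_ne_zero (inv_ne_zero hsp.ne') (inv_natCast_ne_zero M))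
  have him0 : 0 < ((τ : ℂ) / p).im := by
    rw [Complex.div_natCast_im]; exact div_pos τ.im_pos hp
  set τ₀ : ℍ := ⟨_, him0⟩
  have hU : ∑ j ∈ Finset.range p, theta M φ (τj j) w =
      (Real.sqrt p : ℂ) * ∑' k, (if (p : ℤ) ∣ q3 k then 1 else 0) * F k := by
    simp only [theta]
    rw [← Summable.tsum_finsetSum (fun j _ => summable_theta M φ (τj j) w), ← tsum_mul_left]
    refine tsum_congr fun k => ?_
    have hscale : ∀ j : ℕ, gK (τj j) w ((M : ℝ)⁻¹ • dv k) =
        eC ((t : ℝ) * j / p * qR ((M : ℝ)⁻¹ • dv k)) *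
          (((Real.sqrt p)⁻¹ : ℝ) * gK τ w (c • dv k)) := by
      intro j
      rw [gK_of_add τ₀ (τj j) ((t : ℝ) * j / p) (by rw [hτj]; simp [τ₀]; ring),
        gK_of_scale τ τ₀ (Real.sqrt p)⁻¹ (inv_nonneg.mpr hsp.le)
          (by push_cast; rw [inv_pow, hsq]; simp [τ₀]; ring), smul_smul, hc]
    simp only [hscale]
    by_cases hφ : φ (dcls (M ^ 2) k) = 0
    · simp [hF, hφ]
    obtain ⟨n, hn1, hn2⟩ := ht k hφ
    have hphase : ∀ j : ℕ, eC ((t : ℝ) * j / p * qR ((M : ℝ)⁻¹ • dv k)) = ez p (j * n) := by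
      intro j
      rw [qR_smul, qR_dv, ez]
      congr 1
      have hM : (M : ℝ) ≠ 0 := Nat.cast_ne_zero.mpr (NeZero.ne M)
      have hn1' : (t : ℝ) * (q3 k : ℝ) = 3 * (M : ℝ) ^ 2 * n := by exact_mod_cast hn1
      push_cast
      field_simp
      linear_combination (j : ℝ) * hn1'
    simp only [hphase, ← mul_assoc, mul_comm (φ _) (ez _ _), ← Finset.sum_mul, sum_range_ez,
      hn2, hF]
    split_ifs with hd
    · have : (Real.sqrt p : ℂ) ≠ 0 := ofReal_ne_zero.mpr hsp.ne'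
      rw [← hsq]
      push_cast
      field_simp
    · simp
  have hV : theta M (fun x => φ ((p : ℤ) • x)) τp w =
      (Real.sqrt p : ℂ) * ∑' k, (if ∀ i, (p : ℤ) ∣ k i then 1 else 0) * F k := by
    have hpt : ∀ y : IVec, φ ((p : ℤ) • dcls (M ^ 2) y) * gK τp w ((M : ℝ)⁻¹ • dv y) =
        (Real.sqrt p : ℂ) * F ((p : ℤ) • y) := fun y => by
      rw [gK_of_scale τ τp (Real.sqrt p) hsp.le (by rw [hτp, hsq]), hF]
      simp only [map_zsmul]
      rw [show c • dv ((p : ℤ) • y) = Real.sqrt p • (M : ℝ)⁻¹ • dv y by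
        rw [show dv ((p : ℤ) • y) = (p : ℝ) • dv y by
          rw [dv, dv, ← map_smul]; congr 1; funext i; simp, smul_smul, smul_smul]
        congr 1
        have := Real.sq_sqrt hp.le
        rw [hc]
        field_simp
        rw [this]]
      ring
    rw [theta, tsum_congr hpt, tsum_mul_left]
    congr 1
    have hinj : Function.Injective fun y : IVec => (p : ℤ) • y :=
      smul_right_injective IVec (Int.natCast_ne_zero.mpr hpN)
    rw [← hinj.tsum_eq (f := fun k => (if ∀ i, (p : ℤ) ∣ k i then 1 else 0) * F k)]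
    · refine tsum_congr fun y => ?_
      rw [if_pos (fun i => by simp), one_mul]
    · intro k hk
      have hdiv : ∀ i, (p : ℤ) ∣ k i := by
        by_contra hcon
        exact hk (by simp [hcon])
      choose y hy using hdiv
      exact ⟨y, funext fun i => by simp [hy i]⟩
  rw [hU, hV, sum_theta_comp_actD M hι hn G hG φ τ w]
  have hs1 : Summable fun k => (if (p : ℤ) ∣ q3 k then 1 else 0) * F k := by
    refine Summable.of_norm_bounded hs.norm fun k => ?_
    split_ifs <;> simp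
  have hs2 : Summable fun k => (if ∀ i, (p : ℤ) ∣ k i then 1 else 0) * F k := by
    refine Summable.of_norm_bounded hs.norm fun k => ?_
    split_ifs <;> simp
  calc _ = ∑' k, ((if (p : ℤ) ∣ q3 k then 1 else 0) * F k +
        (p : ℂ) * ((if ∀ i, (p : ℤ) ∣ k i then 1 else 0) * F k)) :=
        tsum_congr fun k => by simp only [hF]; split_ifs <;> ring
    _ = _ := by
        rw [hs1.tsum_add (hs2.mul_left _), tsum_mul_left]
        have : (p : ℂ) ≠ 0 := Nat.cast_ne_zero.mpr hpN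
        field_simp
        linear_combination (-(∑' k, (if (p : ℤ) ∣ q3 k then 1 else 0) * F k) -
          (p : ℂ) * ∑' k, (if ∀ i, (p : ℤ) ∣ k i then 1 else 0) * F k) * hsq

end Fermat.Agent.LT.Theta
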