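import Fermat.Agent.LT.Theta.Transform
import Mathlib.NumberTheory.ModularForms.CongruenceSubgroups
import Mathlib.RingTheory.Polynomial.Cyclotomic.Roots
import Mathlib.RingTheory.RootsOfUnity.Complex
import Mathlib.RingTheory.Int.Basic

/-!
Invariance of the theta series under `Γ(3 M²)`. The Gauss sum occurring in the transformation is
never evaluated: a lower unitriangular matrix pins its value at `a = 1`, and a Galois automorphism
of the cyclotomic field gives the value at all `a ≡ ±1 (mod 3)`.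
-/

set_option autoImplicit false

noncomputable section

namespace Fermat.Agent.LT.Theta

open Complex MeasureTheory
open Poisson (eC eC_add eC_zero VDecay pairFourier intVec)
open Adelic (HSpace)
open UpperHalfPlane hiding I
open scoped Real BigOperators MatrixGroups ModularForm

variable (M : ℕ) [NeZero M]

open scoped Classical in
/-- The Gauss sum on the kernel of `Disc (c M²) → Disc M²`. -/
def gaussSum (c : ℕ) [NeZero c] (a : ℤ) : ℂ :=
  ∑ σ : Disc (c * M ^ 2),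
    if discRed c (M ^ 2) σ = 0 then ez (3 * (c * M ^ 2)) (a * q3 σ.out) else 0

theorem ez_smul_w3_congr {N : ℕ} [NeZero N] (a : ℤ) (l : IVec) {k j : IVec}
    (h : dcls N k = dcls N j) : ez (3 * N) (a * w3 k l) = ez (3 * N) (a * w3 j l) := by
  have := ez_w3_congr (a • l) h
  rw [w3_comm _ k, w3_comm _ j, w3_smul_right, w3_smul_right] at this
  exact this

theorem eq_zero_of_forall_dvd_w3 {N : ℕ} [NeZero N] {σ : IVec}
    (h : ∀ i : Fin 4, (3 * (N : ℤ)) ∣ w3 σ (Pi.single i 1)) : dcls N σ = 0 := by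
  choose y hy using h
  have h0 := hy 0
  have h1 := hy 1
  have h2 := hy 2
  have h3 := hy 3
  simp [w3] at h0 h1 h2 h3
  rw [← map_zero (dcls N), eq_comm, dcls_eq_iff]
  refine ⟨y, ?_⟩
  ext i
  fin_cases i <;> simp [gmap] <;> linarith

/-- A sum of phases over `Disc (c M²)` only sees the kernel of the reduction. -/
theorem sum_red_eq (c : ℕ) [NeZero c] (a : ℤ) (hc : (3 * (M ^ 2 : ℕ) : ℤ) ∣ c)
    (ha : IsCoprime a (3 * (M ^ 2 : ℕ) : ℤ)) (φ : Disc (M ^ 2) → ℂ) :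
    ∑ σ : Disc (c * M ^ 2), φ (discRed c (M ^ 2) σ) * ez (3 * (c * M ^ 2)) (a * q3 σ.out) =
      φ 0 * gaussSum M c a := by
  classical
  set E : Disc (c * M ^ 2) → ℂ := fun σ => ez (3 * (c * M ^ 2)) (a * q3 σ.out) with hE
  have hfib : ∀ t : Disc (M ^ 2), t ≠ 0 →
      ∑ σ, (if discRed c (M ^ 2) σ = t then E σ else 0) = 0 := by
    intro t ht
    obtain ⟨i, hi⟩ : ∃ i : Fin 4,
        ez (3 * M ^ 2) (a * w3 t.out (Pi.single i 1)) ≠ 1 := by
      by_contra hcon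
      push Not at hcon
      refine ht ?_
      rw [← dcls_out (M ^ 2) t]
      refine eq_zero_of_forall_dvd_w3 fun i => ?_
      have h1 := ez_eq_one_iff.mp (hcon i)
      push_cast at h1 ⊢ ha
      exact ha.symm.dvd_of_dvd_mul_left h1
    set e : IVec := Pi.single i 1
    obtain ⟨c', hc'⟩ := hc
    have hz : discRed c (M ^ 2) (dcls (c * M ^ 2) ((c : ℤ) • e)) = 0 := by
      rw [discRed_dcls, dcls, QuotientAddGroup.mk'_apply, QuotientAddGroup.eq_zero_iff, hc',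
        mul_smul]
      exact three_mul_smul_mem_perLat _ _
    have hshift : ∀ σ, discRed c (M ^ 2) σ = t →
        E (σ + dcls (c * M ^ 2) ((c : ℤ) • e)) = ez (3 * M ^ 2) (a * w3 t.out e) * E σ := by
      intro σ hσ
      have h1 : E (σ + dcls (c * M ^ 2) ((c : ℤ) • e)) =
          ez (3 * (c * M ^ 2)) (a * q3 (σ.out + (c : ℤ) • e)) :=
        ez_q3_congr a (by rw [dcls_out, map_add, dcls_out])
      rw [h1, q3_add, q3_smul, w3_smul_right, mul_add, mul_add, ez_add, ez_add, hE]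
      have h2 : ez (3 * (c * M ^ 2)) (a * ((c : ℤ) ^ 2 * q3 e)) = 1 := by
        have : NeZero (3 * (c * M ^ 2)) := ⟨by simp [NeZero.ne c, NeZero.ne M]⟩
        rw [ez_eq_one_iff]
        refine ⟨a * c' * q3 e, ?_⟩
        push_cast at hc' ⊢
        linear_combination (a * (c : ℤ) * q3 e) * hc'
      have h3 : ez (3 * (c * M ^ 2)) (a * ((c : ℤ) * w3 σ.out e)) =
          ez (3 * M ^ 2) (a * w3 t.out e) := by
        rw [show 3 * (c * M ^ 2) = c * (3 * M ^ 2) by ring,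
          show a * ((c : ℤ) * w3 σ.out e) = (c : ℤ) * (a * w3 σ.out e) by ring, ez_mul_left]
        refine ez_smul_w3_congr a e ?_
        rw [dcls_out (M ^ 2) t, ← hσ]
        exact (discRed_dcls c (M ^ 2) σ.out).symm.trans (by rw [dcls_out])
      rw [h2, h3]
      ring
    have key : ∑ σ, (if discRed c (M ^ 2) σ = t then E σ else 0) =
        ez (3 * M ^ 2) (a * w3 t.out e) *
          ∑ σ, (if discRed c (M ^ 2) σ = t then E σ else 0) := by
      rw [Finset.mul_sum, ← Equiv.sum_comp (Equiv.addRight (dcls (c * M ^ 2) ((c : ℤ) • e)))]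
      refine Finset.sum_congr rfl fun σ _ => ?_
      simp only [Equiv.coe_addRight, map_add, hz, add_zero]
      split_ifs with h
      · exact hshift σ h
      · rw [mul_zero]
    by_contra hne
    exact hi (mul_right_cancel₀ hne (by rw [one_mul]; exact key.symm))
  calc ∑ σ, φ (discRed c (M ^ 2) σ) * E σ
      = ∑ t, φ t * ∑ σ, (if discRed c (M ^ 2) σ = t then E σ else 0) := by
        simp only [Finset.mul_sum, mul_ite, mul_zero]
        rw [Finset.sum_comm]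
        refine Finset.sum_congr rfl fun σ _ => ?_
        rw [Finset.sum_ite_eq]
        simp
    _ = φ 0 * gaussSum M c a := by
        rw [Finset.sum_eq_single 0 (fun t _ ht => by rw [hfib t ht, mul_zero]) (by simp), gaussSum]

omit [NeZero M] in
theorem theta_neg_weight (φ : Disc (M ^ 2) → ℂ) (τ : ℍ) (w : HSpace) :
    theta M (fun r => φ (-r)) τ w = theta M φ τ w := by
  rw [theta, theta, ← (Equiv.neg IVec).tsum_eq fun k => φ (dcls (M ^ 2) k) *
    gK τ w ((M : ℝ)⁻¹ • dv k)]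
  exact tsum_congr fun j => by simp [dv_neg, gK_neg]

/-- The constant in the transformation law. -/
def gaussConst (c : ℕ) : ℂ := -(I / (Real.sqrt 3 : ℂ)) * (c : ℂ) ^ 2 / ((c : ℂ) * M) ^ 4

/-- The transformation law for `c > 0`, up to a Gauss sum independent of the weight. -/
theorem theta_smul_of_pos (γ : SL(2, ℤ)) (c : ℕ) [NeZero c] (hc : γ 1 0 = (c : ℤ))
    (hcN : (3 * (M ^ 2 : ℕ) : ℤ) ∣ c) (hbN : (3 * (M ^ 2 : ℕ) : ℤ) ∣ γ 0 1)
    (φ : Disc (M ^ 2) → ℂ) (τ : ℍ) (w : HSpace) :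
    theta M φ (γ • τ) w = gaussConst M c * gaussSum M c (γ 0 0) *
      (((c : ℂ)) * τ + (γ 1 1 : ℤ)) * theta M (fun r => φ (γ 1 1 • r)) τ w := by
  classical
  set N := c * M ^ 2 with hNdef
  have hN0 : NeZero N := ⟨by simp [hNdef, NeZero.ne c, NeZero.ne M]⟩
  have hM : (0 : ℝ) < M := Nat.cast_pos.mpr (NeZero.pos M)
  have hc0 : (0 : ℝ) < c := Nat.cast_pos.mpr (NeZero.pos c)
  obtain ⟨a, ha⟩ : ∃ a, γ 0 0 = a := ⟨_, rfl⟩
  obtain ⟨b, hb⟩ : ∃ b, γ 0 1 = b := ⟨_, rfl⟩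
  obtain ⟨d, hd⟩ : ∃ d, γ 1 1 = d := ⟨_, rfl⟩
  rw [hb] at hbN
  rw [ha]
  rw [hd]
  have hdet : a * d - b * c = 1 := by
    have := γ.det_coe
    rw [Matrix.det_fin_two, ha, hb, hc, hd] at this
    exact this
  have hd0 : ((c : ℂ)) * τ + (d : ℤ) ≠ 0 := by
    have := denom_ne_zero (γ : GL (Fin 2) ℝ) τ
    rw [ModularGroup.denom_apply, hc, hd] at this
    exact_mod_cast this
  have him0 : 0 < ((c : ℂ) ^ 2 * τ).im := by
    have := τ.im_pos
    rw [← ofReal_natCast, ← ofReal_pow, im_ofReal_mul]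
    positivity
  have him1 : 0 < ((c : ℂ) ^ 2 * τ + ((c * d : ℤ) : ℂ)).im := by
    rw [add_im, intCast_im, add_zero]; exact him0
  let t0 : ℍ := ⟨_, him0⟩
  let t1 : ℍ := ⟨_, him1⟩
  set τ' : ℍ := ModularGroup.S • t1 with hτ'def
  have hτ' : (τ' : ℂ) = -((c : ℂ) * ((c : ℂ) * τ + (d : ℤ)))⁻¹ := by
    rw [hτ'def, UpperHalfPlane.modular_S_smul]
    simp only [t1]
    rw [← inv_neg]
    congr 1
    push_cast
    ring
  have ht1 : (t1 : ℂ) = -(τ' : ℂ)⁻¹ := by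
    rw [hτ', inv_neg, inv_inv, neg_neg]
    simp [t1]
    ring
  have hγτ : ((γ • τ : ℍ) : ℂ) = (τ' : ℂ) + (((a : ℝ) / c : ℝ) : ℂ) := by
    rw [UpperHalfPlane.coe_specialLinearGroup_apply, hτ']
    simp only [algebraMap_int_eq, Int.coe_castRingHom, ha, hb, hc, hd, ofReal_intCast]
    have hdetC : (a : ℂ) * d - b * c = 1 := by exact_mod_cast congrArg (fun x : ℤ => (x : ℂ)) hdet
    have hcC : (c : ℂ) ≠ 0 := Nat.cast_ne_zero.mpr (NeZero.ne c)
    push_cast at hd0 ⊢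
    rw [div_eq_iff hd0, add_mul, neg_mul, mul_inv, mul_assoc, inv_mul_cancel₀ hd0]
    field_simp
    linear_combination -hdetC
  set ψ : Disc N → ℂ := fun r => φ (discRed c (M ^ 2) r) * ez (3 * N) (a * q3 r.out) with hψ
  have hterm : ∀ k : IVec, φ (dcls (M ^ 2) k) * gK (γ • τ) w ((M : ℝ)⁻¹ • dv k) =
      ψ (dcls N k) * gK τ' w ((M : ℝ)⁻¹ • dv k) := fun k => by
    rw [gK_of_add τ' (γ • τ) _ hγτ, hψ]
    have hr : discRed c (M ^ 2) (dcls N k) = dcls (M ^ 2) k := rfl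
    dsimp only
    rw [hr, ez_q3_congr a (dcls_out N _), ez, ← mul_assoc]
    congr 3
    rw [qR_smul, qR_dv, hNdef]
    push_cast
    field_simp
  have hsN : (((M : ℝ)⁻¹ * (N : ℝ)))⁻¹ = ((c : ℝ) * M)⁻¹ := by
    rw [hNdef]; push_cast; field_simp
  have hP : ∀ j : IVec, pairFourier volume bR (gK τ' w) (((M : ℝ)⁻¹ * (N : ℝ))⁻¹ • dv j) =
      -(I / (Real.sqrt 3 : ℂ)) * (c : ℂ) ^ 2 * ((c : ℂ) * τ + (d : ℤ)) *
        (ez (3 * N) (d * q3 j) * gK τ w ((M : ℝ)⁻¹ • dv j)) := fun j => by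
    rw [hsN, pairFourier_gK τ' t1 ht1, gK_of_add t0 t1 (((c * d : ℤ) : ℝ)) (by simp [t0, t1]),
      gK_of_scale τ t0 c hc0.le (by simp [t0]), smul_smul]
    rw [show (c : ℝ) * ((c : ℝ) * M)⁻¹ = (M : ℝ)⁻¹ by field_simp, qR_smul, qR_dv, ez,
      show (((c * d : ℤ) : ℝ)) * (((c : ℝ) * M)⁻¹ ^ 2 * ((q3 j : ℝ) / 3)) =
        ((d * q3 j : ℤ) : ℝ) / ((3 * N : ℕ) : ℝ) by
          rw [hNdef]; push_cast; field_simp, hτ']
    have : (Real.sqrt 3 : ℂ) ≠ 0 := ofReal_ne_zero.mpr (by simp)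
    have hcC : (c : ℂ) ≠ 0 := Nat.cast_ne_zero.mpr (NeZero.ne c)
    push_cast at hd0 ⊢
    field_simp
  have hsum : Summable fun j : IVec =>
      pairFourier volume bR (gK τ' w) (((M : ℝ)⁻¹ * (N : ℝ))⁻¹ • dv j) := by
    simp only [hP]
    refine Summable.mul_left _ (Summable.of_norm_bounded
      (summable_dual (vdecay_gK τ w) (inv_natCast_ne_zero M)).norm fun j => ?_)
    simp [ez, Poisson.eC, Complex.norm_exp, ← Complex.ofReal_ofNat, ← Complex.ofReal_mul]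
  have hcop : IsCoprime a (3 * (M ^ 2 : ℕ) : ℤ) := by
    obtain ⟨t, ht⟩ := hcN
    refine ⟨d, -(b * t), ?_⟩
    push_cast at ht ⊢
    linear_combination hdet + b * ht
  have hK : ∀ j : IVec, (∑ r : Disc N, ψ r * ez (3 * N) (w3 j r.out)) * ez (3 * N) (d * q3 j) =
      φ (-(d • dcls (M ^ 2) j)) * gaussSum M c a := by
    intro j
    have : NeZero (3 * N) := ⟨by simp [NeZero.ne N]⟩
    set D : Disc N := dcls N (d • j) with hD
    have hstep : ∀ r : Disc N, ψ r * ez (3 * N) (w3 j r.out) * ez (3 * N) (d * q3 j) =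
        (fun σ => φ (discRed c (M ^ 2) σ - discRed c (M ^ 2) D) * ez (3 * N) (a * q3 σ.out))
          ((Equiv.addRight D) r) := fun r => by
      simp only [Equiv.coe_addRight, hψ, map_add, add_sub_cancel_right]
      rw [mul_assoc, mul_assoc, ← ez_add, ← ez_add]
      congr 1
      rw [ez_q3_congr a (k := (r + D).out) (j := r.out + d • j)
        (by rw [dcls_out, map_add, dcls_out, hD])]
      refine ez_eq_of_dvd ?_
      obtain ⟨t, ht⟩ := hbN
      refine ⟨-(t * (w3 j r.out + d * q3 j)), ?_⟩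
      have hN3 : ((3 * N : ℕ) : ℤ) = 3 * ((c : ℤ) * (M : ℤ) ^ 2) := by
        rw [hNdef]; push_cast; ring
      rw [q3_add, q3_smul, w3_smul_right, w3_comm r.out j, hN3]
      push_cast at ht ⊢
      linear_combination -(w3 j r.out + d * q3 j) * hdet - (w3 j r.out + d * q3 j) * (c : ℤ) * ht
    rw [Finset.sum_mul, Finset.sum_congr rfl fun r _ => hstep r,
      Equiv.sum_comp (Equiv.addRight D)
        fun σ => φ (discRed c (M ^ 2) σ - discRed c (M ^ 2) D) * ez (3 * N) (a * q3 σ.out),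
      sum_red_eq M c a hcN hcop fun t => φ (t - discRed c (M ^ 2) D), zero_sub]
    rw [hD, discRed_dcls, map_zsmul]
  have hre : ∑' j : IVec, φ (-(d • dcls (M ^ 2) j)) * gK τ w ((M : ℝ)⁻¹ • dv j) =
      theta M (fun r => φ (d • r)) τ w :=
    (tsum_congr fun j => by rw [← zsmul_neg]).trans (theta_neg_weight M (fun r => φ (d • r)) τ w)
  rw [theta, tsum_congr hterm, tsum_disc ψ (continuous_gK τ' w) (vdecay_gK τ' w)
    (inv_pos.mpr hM) hsum]
  simp only [hP]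
  have hfactor : ∀ j : IVec,
      (∑ r : Disc N, ψ r * ez (3 * N) (w3 j r.out)) *
        (-(I / (Real.sqrt 3 : ℂ)) * (c : ℂ) ^ 2 * ((c : ℂ) * τ + (d : ℤ)) *
          (ez (3 * N) (d * q3 j) * gK τ w ((M : ℝ)⁻¹ • dv j))) =
      -(I / (Real.sqrt 3 : ℂ)) * (c : ℂ) ^ 2 * ((c : ℂ) * τ + (d : ℤ)) * gaussSum M c a *
        (φ (-(d • dcls (M ^ 2) j)) * gK τ w ((M : ℝ)⁻¹ • dv j)) := fun j => by
    linear_combination (-(I / (Real.sqrt 3 : ℂ)) * (c : ℂ) ^ 2 * ((c : ℂ) * τ + (d : ℤ)) *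
      gK τ w ((M : ℝ)⁻¹ • dv j)) * hK j
  rw [tsum_congr hfactor, tsum_mul_left, hre, Complex.real_smul, gaussConst, hNdef]
  push_cast
  have hMC : (M : ℂ) ≠ 0 := Nat.cast_ne_zero.mpr (NeZero.ne M)
  have hcC : (c : ℂ) ≠ 0 := Nat.cast_ne_zero.mpr (NeZero.ne c)
  field_simp


/-- The theta series of the trivial class is nonzero. -/
theorem theta_one_ne_zero (w : HSpace) :
    theta M (fun _ => 1) UpperHalfPlane.I w ≠ 0 := by
  set F : IVec → ℝ := fun k =>
    Real.exp (-(2 * π) * ∑ i, frame w ((M : ℝ)⁻¹ • dv k) i ^ 2) with hF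
  have hg : ∀ k, gK UpperHalfPlane.I w ((M : ℝ)⁻¹ • dv k) = (F k : ℂ) := fun k => by
    rw [gK, gStd, hF]
    dsimp only
    generalize frame w ((M : ℝ)⁻¹ • dv k) = u
    simp [Fin.sum_univ_four]
    congr 1
    linear_combination 2 * π * ((u 0 : ℂ) ^ 2 + (u 1 : ℂ) ^ 2 + (u 2 : ℂ) ^ 2 + (u 3 : ℂ) ^ 2) *
      Complex.I_sq
  have hsum : Summable F := by
    refine (summable_theta M (fun _ => 1) UpperHalfPlane.I w).norm.congr fun k => ?_
    rw [one_mul, hg, Complex.norm_real, Real.norm_of_nonneg (Real.exp_pos _).le]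
  have h : theta M (fun _ => 1) UpperHalfPlane.I w = ((∑' k, F k : ℝ) : ℂ) := by
    rw [theta, Complex.ofReal_tsum]
    exact tsum_congr fun k => by rw [one_mul, hg]
  rw [h, ofReal_ne_zero]
  exact (hsum.tsum_pos (fun k => (Real.exp_pos _).le) 0 (Real.exp_pos _)).ne'

/-- A lower unitriangular matrix pins the Gauss sum at `a = 1`. -/
theorem gaussConst_mul_gaussSum_one (c : ℕ) [NeZero c]
    (hcN : (3 * (M ^ 2 : ℕ) : ℤ) ∣ c) : gaussConst M c * gaussSum M c 1 = 1 := by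
  set φ : Disc (M ^ 2) → ℂ := fun _ => 1
  let w : HSpace := HSpace.base
  let γ : SL(2, ℤ) := ⟨!![1, 0; (c : ℤ), 1], by simp [Matrix.det_fin_two_of]⟩
  set τ : ℍ := UpperHalfPlane.I with hτ
  have h10 : γ 1 0 = (c : ℤ) := rfl
  have h00 : γ 0 0 = 1 := rfl
  have h01 : γ 0 1 = 0 := rfl
  have h11 : γ 1 1 = 1 := rfl
  have h := theta_smul_of_pos M γ c h10 hcN (by rw [h01]; exact dvd_zero _) φ τ w
  rw [h00, h11] at h
  simp only [one_smul] at h
  set t : ℍ := ModularGroup.S • τ with ht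
  have htv : (t : ℂ) = -(τ : ℂ)⁻¹ := by
    rw [ht, UpperHalfPlane.modular_S_smul]; simp [inv_neg]
  have hti : (τ : ℂ) = -(t : ℂ)⁻¹ := by rw [htv, inv_neg, inv_inv, neg_neg]
  set t' : ℍ := ModularGroup.T ^ (-(c : ℤ)) • t with ht'
  have ht'v : (t' : ℂ) = (t : ℂ) + ((-(c : ℤ) : ℤ) : ℂ) := ModularGroup.coe_T_zpow_smul_eq t
  have hd0 : ((c : ℂ)) * τ + 1 ≠ 0 := by
    have := denom_ne_zero (γ : GL (Fin 2) ℝ) τ
    rw [ModularGroup.denom_apply, h10, h11] at this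
    exact_mod_cast this
  have hγτ : ((γ • τ : ℍ) : ℂ) = -(t' : ℂ)⁻¹ := by
    rw [UpperHalfPlane.coe_specialLinearGroup_apply, ht'v, htv]
    simp only [algebraMap_int_eq, Int.coe_castRingHom, h00, h01, h10, h11, ofReal_intCast]
    have := τ.ne_zero
    push_cast
    rw [show -(τ : ℂ)⁻¹ + -(c : ℂ) = -(((c : ℂ) * τ + 1) / τ) by field_simp; ring, inv_neg,
      neg_neg, inv_div]
    simp
  have hT : translWeight M (-(c : ℤ)) (fourierWeight M φ) = fourierWeight M φ := by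
    funext r
    rw [translWeight]
    have : NeZero (3 * M ^ 2) := ⟨by simp [NeZero.ne M]⟩
    rw [ez_eq_one_iff.mpr, one_mul]
    push_cast at hcN ⊢
    exact dvd_mul_of_dvd_left ((dvd_neg).mpr hcN) _
  have hA := theta_of_neg_inv M φ t' (γ • τ) hγτ w
  rw [theta_of_add_int M (fourierWeight M φ) t t' _ ht'v w, hT] at hA
  have hB := theta_of_neg_inv M φ t τ hti w
  have htt : (t' : ℂ) = ((c : ℂ) * τ + 1) * t := by
    have := τ.ne_zero
    rw [ht'v, htv]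
    push_cast
    field_simp
    ring
  rw [htt, mul_assoc, ← hB] at hA
  rw [hA] at h
  refine mul_right_cancel₀ (mul_ne_zero hd0 (theta_one_ne_zero M w)) ?_
  rw [one_mul]
  push_cast at h
  linear_combination -h

theorem ez_three_one : ez 3 1 = -(1 / 2) + (Real.sqrt 3 : ℂ) / 2 * I := by
  rw [ez, eC]
  push_cast
  rw [show 2 * (π : ℂ) * I * (1 / 3) = ((2 * π / 3 : ℝ) : ℂ) * I by push_cast; ring,
    Complex.exp_mul_I, ← ofReal_cos, ← ofReal_sin,
    show 2 * π / 3 = π - π / 3 by ring, Real.cos_pi_sub, Real.sin_pi_sub, Real.cos_pi_div_three,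
    Real.sin_pi_div_three]
  push_cast
  ring

theorem ez_mul_natCast (D : ℕ) (m : ℤ) (n : ℕ) : ez D (n * m) = ez D m ^ n := by
  rw [ez, ez, eC, eC, ← Complex.exp_nat_mul]
  congr 1
  push_cast
  ring

/-- The Gauss sum at `a ≡ ±1`: Galois-conjugate to the one at `a = 1`. -/
theorem gaussConst_mul_gaussSum (c : ℕ) [NeZero c] (hcN : (3 * (M ^ 2 : ℕ) : ℤ) ∣ c) (a s : ℤ)
    (hs : s = 1 ∨ s = -1) (ha3 : (3 : ℤ) ∣ a - s) (hac : IsCoprime a (c : ℤ)) :
    gaussConst M c * gaussSum M c a = s := by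
  classical
  have hc3 : 3 ∣ c := by
    have : ((3 : ℕ) : ℤ) ∣ (c : ℤ) := (dvd_mul_right 3 _).trans hcN
    exact_mod_cast this
  obtain ⟨c₀, hc₀⟩ := hc3
  have : NeZero c₀ := ⟨fun h => NeZero.ne c (by rw [hc₀, h, mul_zero])⟩
  set K : Finset (Disc (c * M ^ 2)) := Finset.univ.filter fun σ => discRed c (M ^ 2) σ = 0
  have hN : ∀ σ ∈ K, ∃ n : ℕ, ∀ x : ℤ,
      ez (3 * (c * M ^ 2)) (x * q3 σ.out) = ez c x ^ n := by
    intro σ hσ
    have hσ0 : dcls (M ^ 2) σ.out = dcls (M ^ 2) 0 := by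
      rw [map_zero, ← (Finset.mem_filter.mp hσ).2, ← discRed_dcls c, dcls_out]
    obtain ⟨z, hz⟩ := dcls_eq_iff.mp hσ0.symm
    rw [zero_add] at hz
    refine ⟨(((M : ℤ) ^ 2 * qL z) % c).toNat, fun x => ?_⟩
    rw [← ez_mul_natCast, Int.toNat_of_nonneg (Int.emod_nonneg _ (Int.natCast_ne_zero.mpr
      (NeZero.ne c))), ← hz, q3_smul, q3_gmap]
    have hM2 : NeZero (3 * M ^ 2) := ⟨by simp [NeZero.ne M]⟩
    rw [show 3 * (c * M ^ 2) = 3 * M ^ 2 * c by ring,
      show x * (((M ^ 2 : ℕ) : ℤ) ^ 2 * (3 * qL z)) =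
        ((3 * M ^ 2 : ℕ) : ℤ) * (x * ((M : ℤ) ^ 2 * qL z)) by push_cast; ring, ez_mul_left]
    refine ez_eq_of_dvd ⟨x * ((M : ℤ) ^ 2 * qL z / c), ?_⟩
    linear_combination (-x) * Int.emod_add_mul_ediv ((M : ℤ) ^ 2 * qL z) c
  choose n hn using hN
  set q : ℕ := c ^ 2 * M ^ 4
  set P : Polynomial ℚ := (∑ σ ∈ K.attach, Polynomial.X ^ n σ.1 σ.2) -
    Polynomial.C (q : ℚ) * (2 * Polynomial.X ^ c₀ + 1) with hP
  have hG : ∀ x : ℤ, gaussSum M c x = Polynomial.aeval (ez c x) P + q * (2 * ez 3 x + 1) := by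
    intro x
    have h1 : gaussSum M c x = ∑ σ ∈ K.attach, ez c x ^ n σ.1 σ.2 := by
      rw [gaussSum, ← Finset.sum_filter, ← Finset.sum_attach]
      exact Finset.sum_congr rfl fun σ _ => hn σ.1 σ.2 x
    have h3 : ez c x ^ c₀ = ez 3 x := by
      rw [← ez_mul_natCast]
      conv_lhs => rw [hc₀, show 3 * c₀ = c₀ * 3 by ring]
      rw [ez_mul_left]
    simp [hP, h1, h3, map_ofNat]
  have hs3 : (Real.sqrt 3 : ℂ) ≠ 0 := ofReal_ne_zero.mpr (by simp)
  have hC : gaussConst M c * ((q : ℂ) * (I * (Real.sqrt 3 : ℂ))) = 1 := by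
    rw [gaussConst]
    have hMC : (M : ℂ) ≠ 0 := Nat.cast_ne_zero.mpr (NeZero.ne M)
    have hcC : (c : ℂ) ≠ 0 := Nat.cast_ne_zero.mpr (NeZero.ne c)
    simp only [q]
    push_cast
    field_simp
    rw [I_sq]
    ring
  have hC0 : gaussConst M c ≠ 0 := left_ne_zero_of_mul_eq_one hC
  have hP1 : Polynomial.aeval (ez c 1) P = 0 := by
    have h2 : gaussSum M c 1 = (q : ℂ) * (I * (Real.sqrt 3 : ℂ)) :=
      mul_left_cancel₀ hC0 ((gaussConst_mul_gaussSum_one M c hcN).trans hC.symm)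
    have h3 := hG 1
    rw [h2, ez_three_one] at h3
    linear_combination -h3
  have hζ : IsPrimitiveRoot (ez c 1) c := by
    convert Complex.isPrimitiveRoot_exp c (NeZero.ne c) using 1
    rw [ez, eC]
    congr 1
    push_cast
    ring
  set a' := (a % c).toNat with ha'
  have ha'a : (a' : ℤ) = a % c :=
    Int.toNat_of_nonneg (Int.emod_nonneg _ (Int.natCast_ne_zero.mpr (NeZero.ne c)))
  have hza : ez c a = ez c 1 ^ a' := by
    rw [← ez_mul_natCast, mul_one, ha'a]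
    exact ez_eq_of_dvd ⟨a / c, by linear_combination (-1) * Int.emod_add_mul_ediv a c⟩
  have ha'c : Nat.Coprime a' c := by
    refine Nat.isCoprime_iff_coprime.mp ?_
    rw [ha'a, Int.emod_def, sub_eq_add_neg, ← mul_neg]
    exact hac.add_mul_left_left _
  have hPa : Polynomial.aeval (ez c a) P = 0 := by
    have hmin : minpoly ℚ (ez c 1) = Polynomial.cyclotomic c ℚ :=
      (Polynomial.cyclotomic_eq_minpoly_rat hζ (NeZero.pos c)).symm
    obtain ⟨R, hR⟩ := hmin ▸ minpoly.dvd ℚ (ez c 1) hP1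
    have hroot : Polynomial.aeval (ez c a) (Polynomial.cyclotomic c ℚ) = 0 := by
      rw [Polynomial.aeval_def, ← Polynomial.eval_map, Polynomial.map_cyclotomic]
      exact (hza ▸ hζ.pow_of_coprime a' ha'c : IsPrimitiveRoot (ez c a) c).isRoot_cyclotomic (NeZero.pos c)
    rw [hR, map_mul, hroot, zero_mul]
  have hω : ez 3 a = ez 3 s := ez_eq_of_dvd (by exact_mod_cast ha3)
  have hωs : 2 * ez 3 s + 1 = (s : ℂ) * (I * (Real.sqrt 3 : ℂ)) := by
    rcases hs with rfl | rfl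
    · rw [ez_three_one]; push_cast; ring
    · have h2 : ez 3 (-1) = ez 3 ((2 : ℕ) * 1) := ez_eq_of_dvd ⟨-1, by norm_num⟩
      rw [h2, ez_mul_natCast, ez_three_one]
      have : (Real.sqrt 3 : ℂ) ^ 2 = 3 := by rw [← ofReal_pow, sqrt3_sq]; norm_num
      push_cast
      linear_combination (I ^ 2 / 2) * this + (3 / 2 : ℂ) * I_sq
  rw [hG, hPa, zero_add, hω, hωs]
  linear_combination (s : ℂ) * hC

/-- The action of the elements with `b ≡ c ≡ 0 (mod 3 M²)`: a sign, and `φ ↦ φ (d ·)`. -/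
theorem thetaFun_slash_of_dvd (φ : Disc (M ^ 2) → ℂ) (γ : SL(2, ℤ))
    (hbN : (3 * (M ^ 2 : ℕ) : ℤ) ∣ γ 0 1) (hcN : (3 * (M ^ 2 : ℕ) : ℤ) ∣ γ 1 0)
    (s : ℤ) (hs : s = 1 ∨ s = -1) (hd3 : (3 : ℤ) ∣ γ 1 1 - s) (w : HSpace) :
    thetaFun M φ w ∣[(1 : ℤ)] γ = (s : ℂ) • thetaFun M (fun r => φ (γ 1 1 • r)) w := by
  obtain ⟨a, ha⟩ : ∃ a, γ 0 0 = a := ⟨_, rfl⟩
  obtain ⟨b, hb⟩ : ∃ b, γ 0 1 = b := ⟨_, rfl⟩
  obtain ⟨c, hc⟩ : ∃ c, γ 1 0 = c := ⟨_, rfl⟩
  obtain ⟨d, hd⟩ : ∃ d, γ 1 1 = d := ⟨_, rfl⟩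
  rw [hb] at hbN
  rw [hc] at hcN
  rw [hd] at hd3 ⊢
  have hdet : a * d - b * c = 1 := by
    have := γ.det_coe
    rwa [Matrix.det_fin_two, ha, hb, hc, hd] at this
  have ha3 : (3 : ℤ) ∣ a - s := by
    obtain ⟨u, hu⟩ := hd3
    obtain ⟨v, hv⟩ := (dvd_mul_right (3 : ℤ) _).trans hcN
    refine ⟨s * (b * v - a * u), ?_⟩
    rcases hs with rfl | rfl
    · linear_combination hdet - a * hu + b * hv
    · linear_combination (-1 : ℤ) * hdet + a * hu - b * hv
  funext τ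
  rw [ModularForm.SL_slash_apply, zpow_neg, zpow_one]
  have hden := denom_ne_zero (γ : GL (Fin 2) ℝ) τ
  rw [ModularGroup.denom_apply, hc, hd] at hden ⊢
  rw [← div_eq_mul_inv, div_eq_iff hden]
  simp only [Pi.smul_apply, thetaFun, smul_eq_mul]
  rcases lt_trichotomy c 0 with hlt | heq | hgt
  · obtain ⟨c', hcc'⟩ : ∃ c' : ℕ, c = -(c' : ℤ) := ⟨c.natAbs, by omega⟩
    have : NeZero c' := ⟨by omega⟩
    subst hcc'
    rw [← ModularGroup.SL_neg_smul, theta_smul_of_pos M (-γ) c' (by simp [hc]) ((dvd_neg).mp hcN)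
      (by simpa [hb] using hbN) φ τ w,
      gaussConst_mul_gaussSum M c' ((dvd_neg).mp hcN) _ (-s) (by omega)
        (by simpa [ha, sub_neg_eq_add, neg_add_eq_sub] using (dvd_neg).mpr ha3)
        ⟨-d, b, by simp [ha]; linarith⟩,
      show (fun r => φ ((-γ) 1 1 • r)) = fun r => (fun r => φ (d • r)) (-r) by
        funext r; simp [hd],
      theta_neg_weight M (fun r => φ (d • r))]
    simp [hd]
    ring
  · subst heq
    have hu : a * d = 1 := by simpa using hdet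
    have hds : d = s := by
      rcases Int.mul_eq_one_iff_eq_one_or_neg_one.mp hu with ⟨rfl, rfl⟩ | ⟨rfl, rfl⟩ <;> omega
    subst hds
    have hT : translWeight M (b * d) φ = φ := by
      funext r
      have : NeZero (3 * M ^ 2) := ⟨by simp [NeZero.ne M]⟩
      rw [translWeight, ez_eq_one_iff.mpr, one_mul]
      push_cast at hbN ⊢
      exact dvd_mul_of_dvd_left (dvd_mul_of_dvd_left hbN _) _
    have had : a = d := by
      rcases Int.mul_eq_one_iff_eq_one_or_neg_one.mp hu with ⟨rfl, rfl⟩ | ⟨rfl, rfl⟩ <;> rfl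
    subst had
    rw [theta_of_add_int M φ τ (γ • τ) (b * a) (by
      rw [UpperHalfPlane.coe_specialLinearGroup_apply]
      rcases hs with rfl | rfl
      · simp [ha, hb, hc, hd]
      · simp [ha, hb, hc, hd]; ring), hT]
    rcases hs with rfl | rfl
    · simp
    · rw [show (fun r : Disc (M ^ 2) => φ ((-1 : ℤ) • r)) = fun r => φ (-r) by funext r; rw [neg_one_zsmul], theta_neg_weight M φ]
      simp
  · obtain ⟨c', hcc'⟩ : ∃ c' : ℕ, c = (c' : ℤ) := ⟨c.natAbs, by omega⟩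
    have : NeZero c' := ⟨by omega⟩
    subst hcc'
    rw [theta_smul_of_pos M γ c' hc hcN (by rwa [hb]) φ τ w,
      gaussConst_mul_gaussSum M c' hcN _ s hs (by rwa [ha]) ⟨d, -b, by rw [ha]; linarith⟩]
    rw [hd]
    push_cast
    ring

omit [NeZero M] in
theorem zsmul_disc_eq_self {d : ℤ} (hd : (3 * (M ^ 2 : ℕ) : ℤ) ∣ d - 1) (r : Disc (M ^ 2)) :
    d • r = r := by
  obtain ⟨k, rfl⟩ := dcls_surjective (M ^ 2) r
  rw [← sub_eq_zero, ← map_zsmul, ← map_sub, dcls, QuotientAddGroup.mk'_apply,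
    QuotientAddGroup.eq_zero_iff]
  obtain ⟨t, ht⟩ := hd
  rw [show d • k - k = (d - 1) • k by rw [sub_smul, one_smul], ht, mul_smul]
  exact three_mul_smul_mem_perLat _ _

/-- The theta series are invariant of weight one under `Γ(3 M²)`. -/
theorem thetaFun_slash_of_mem_Gamma (φ : Disc (M ^ 2) → ℂ) {γ : SL(2, ℤ)}
    (hγ : γ ∈ CongruenceSubgroup.Gamma (3 * M ^ 2)) (w : HSpace) :
    thetaFun M φ w ∣[(1 : ℤ)] γ = thetaFun M φ w := by
  rw [CongruenceSubgroup.Gamma_mem] at hγ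
  obtain ⟨-, h2, h3, h4⟩ := hγ
  have e : ((3 * M ^ 2 : ℕ) : ℤ) = 3 * ((M ^ 2 : ℕ) : ℤ) := by push_cast; ring
  have hd' : (3 * (M ^ 2 : ℕ) : ℤ) ∣ γ 1 1 - 1 :=
    e ▸ (ZMod.intCast_zmod_eq_zero_iff_dvd _ _).mp (by push_cast; rw [h4, sub_self])
  rw [thetaFun_slash_of_dvd M φ γ (e ▸ (ZMod.intCast_zmod_eq_zero_iff_dvd _ _).mp h2)
    (e ▸ (ZMod.intCast_zmod_eq_zero_iff_dvd _ _).mp h3) 1 (Or.inl rfl)
    ((dvd_mul_right (3 : ℤ) _).trans hd') w, Int.cast_one, one_smul]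
  simp only [zsmul_disc_eq_self M hd']

end Fermat.Agent.LT.Theta
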