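import Fermat.Agent.LT.Theta.Lattice
import Fermat.Agent.LT.Orbit.Eisenstein
import Mathlib.LinearAlgebra.Matrix.Adjugate

/-!
The action `X ↦ g X g*` of `2 × 2` matrices over `ℤ[ω]` on the dual lattice, in the index
coordinates: `√-3 X = skewMat k` is integral skew-Hermitian with determinant `q3 k`.
-/

set_option autoImplicit false

noncomputable section

namespace Fermat.Agent.LT.Theta

open Orbit (EisData)
open Matrix

variable {O : Type*} [CommRing O] (E : EisData O)

/-- The conjugate transpose for the conjugation of `O`. -/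
def adjT (g : Matrix (Fin 2) (Fin 2) O) : Matrix (Fin 2) (Fin 2) O := (g.map E.conj)ᵀ

theorem adjT_mul (g g' : Matrix (Fin 2) (Fin 2) O) :
    adjT E (g * g') = adjT E g' * adjT E g := by
  rw [adjT, Matrix.map_mul, Matrix.transpose_mul]; rfl

theorem adjT_adjT (g : Matrix (Fin 2) (Fin 2) O) : adjT E (adjT E g) = g := by
  ext i j
  simp [adjT, E.conj_conj]

@[simp] theorem adjT_one : adjT E 1 = 1 := by
  rw [adjT, Matrix.map_one E.conj (map_zero _) (map_one _), Matrix.transpose_one]

theorem adjT_smul (c : O) (g : Matrix (Fin 2) (Fin 2) O) :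
    adjT E (c • g) = E.conj c • adjT E g := by
  ext i j; simp [adjT]

/-- `√-3 X` for the dual vector with index `k`. -/
def skewMat : IVec →+ Matrix (Fin 2) (Fin 2) O where
  toFun k := !![-(E.s * (k 1 : O)), -(k 3 : O) + (k 2 : O) * E.w;
    -E.conj (-(k 3 : O) + (k 2 : O) * E.w), -(E.s * (k 0 : O))]
  map_zero' := by ext i j; fin_cases i <;> fin_cases j <;> simp
  map_add' k l := by ext i j; fin_cases i <;> fin_cases j <;> simp <;> ring

theorem skewMat_injective : Function.Injective (skewMat E) := by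
  intro k l h
  have h00 := congrFun (congrFun h 0) 0
  have h01 := congrFun (congrFun h 0) 1
  have h11 := congrFun (congrFun h 1) 1
  simp [skewMat] at h00 h01 h11
  have e1 : ∀ a b : ℤ, E.s * (a : O) = E.s * (b : O) → a = b := fun a b hab => by
    have h1 : ((-3 * a : ℤ) : O) = ((-3 * b : ℤ) : O) := by
      push_cast; rw [← E.s_sq, mul_assoc, mul_assoc, hab]
    have := E.intCast_inj h1
    omega
  have e2 := E.ext_coords (a := -k 3) (b := k 2) (a' := -l 3) (b' := l 2) (by
    push_cast; exact h01)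
  funext i
  fin_cases i
  · exact e1 _ _ h11
  · exact e1 _ _ h00
  · exact e2.2
  · show k 3 = l 3
    linarith [e2.1]

/-- Skew-Hermitian matrices. -/
def IsSkewMat (Y : Matrix (Fin 2) (Fin 2) O) : Prop := adjT E Y = -Y

theorem isSkewMat_skewMat (k : IVec) : IsSkewMat E (skewMat E k) := by
  ext i j
  fin_cases i <;> fin_cases j <;> simp [adjT, skewMat, E.conj_s, E.conj_w]

theorem IsSkewMat.exists_eq {Y : Matrix (Fin 2) (Fin 2) O} (hY : IsSkewMat E Y) :
    ∃ k, skewMat E k = Y := by
  have hdiag : ∀ x : O, E.conj x = -x → ∃ p : ℤ, x = -(E.s * (p : O)) := by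
    intro x hx
    obtain ⟨p, q, rfl⟩ := E.repr x
    have h1 := E.ext_coords (a := p - q) (b := -q) (a' := -p) (b' := -q) (by
      simp only [map_add, map_mul, map_intCast, E.conj_w] at hx
      push_cast
      linear_combination hx)
    refine ⟨-p, ?_⟩
    have : q = 2 * p := by omega
    subst this
    simp only [EisData.s]; push_cast; ring
  have h : ∀ i j, E.conj (Y j i) = -Y i j := fun i j => congrFun (congrFun hY i) j
  obtain ⟨p₁, hp₁⟩ := hdiag _ (h 0 0)
  obtain ⟨p₀, hp₀⟩ := hdiag _ (h 1 1)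
  obtain ⟨q₁, q₂, hq⟩ := E.repr (Y 0 1)
  refine ⟨![p₀, p₁, q₂, -q₁], ?_⟩
  ext i j
  fin_cases i <;> fin_cases j
  · simpa [skewMat] using hp₁.symm
  · simpa [skewMat] using hq.symm
  · have h10 : Y 1 0 = -E.conj (Y 0 1) := by rw [h 1 0, neg_neg]
    simp [skewMat, h10, hq]
  · simpa [skewMat] using hp₀.symm

theorem IsSkewMat.translate {Y : Matrix (Fin 2) (Fin 2) O} (hY : IsSkewMat E Y)
    (g : Matrix (Fin 2) (Fin 2) O) : IsSkewMat E (g * Y * adjT E g) := by
  rw [IsSkewMat] at hY ⊢
  rw [adjT_mul, adjT_mul, adjT_adjT, hY]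
  simp [Matrix.mul_assoc]

theorem exists_actK (g : Matrix (Fin 2) (Fin 2) O) (k : IVec) :
    ∃ k', skewMat E k' = g * skewMat E k * adjT E g :=
  ((isSkewMat_skewMat E k).translate E g).exists_eq E

/-- `X ↦ g X g*` in index coordinates. -/
def actK (g : Matrix (Fin 2) (Fin 2) O) : IVec →+ IVec where
  toFun k := (exists_actK E g k).choose
  map_zero' := skewMat_injective E (by rw [(exists_actK E g 0).choose_spec]; simp)
  map_add' k l := skewMat_injective E (by
    rw [(exists_actK E g (k + l)).choose_spec, map_add, map_add, (exists_actK E g k).choose_spec,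
      (exists_actK E g l).choose_spec, Matrix.mul_add, Matrix.add_mul])

theorem skewMat_actK (g : Matrix (Fin 2) (Fin 2) O) (k : IVec) :
    skewMat E (actK E g k) = g * skewMat E k * adjT E g :=
  (exists_actK E g k).choose_spec

theorem actK_mul (g g' : Matrix (Fin 2) (Fin 2) O) (k : IVec) :
    actK E (g * g') k = actK E g (actK E g' k) := by
  refine skewMat_injective E ?_
  simp [skewMat_actK, adjT_mul, Matrix.mul_assoc]

@[simp] theorem actK_one (k : IVec) : actK E 1 k = k := by
  refine skewMat_injective E ?_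
  simp [skewMat_actK]

theorem actK_scalar (c : O) (n : ℤ) (hn : c * E.conj c = (n : O)) (k : IVec) :
    actK E (c • 1) k = n • k := by
  refine skewMat_injective E ?_
  rw [skewMat_actK, map_zsmul, adjT_smul, adjT_one]
  rw [Matrix.smul_mul, Matrix.mul_smul, one_mul, mul_one, smul_smul, mul_comm, hn,
    Int.cast_smul_eq_zsmul]

theorem det_skewMat (k : IVec) : (skewMat E k).det = (q3 k : O) := by
  rw [Matrix.det_fin_two]
  simp [skewMat, q3, E.conj_w]
  linear_combination (k 1 : O) * (k 0 : O) * E.s_sq - (k 2 : O) * (k 2 : O) * E.w_eq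

theorem q3_actK (g : Matrix (Fin 2) (Fin 2) O) (k : IVec) (n : ℤ)
    (hn : g.det * E.conj g.det = (n : O)) : q3 (actK E g k) = n * q3 k := by
  refine E.intCast_inj ?_
  have hT : (adjT E g).det = E.conj g.det := by
    rw [adjT, Matrix.det_transpose, RingHom.map_det]; rfl
  rw [Int.cast_mul, ← det_skewMat E, skewMat_actK, Matrix.det_mul, Matrix.det_mul, det_skewMat E,
    hT, ← hn]
  ring

/-- `[[a, m + nω], [m + n ω̄, d]]`. -/
def hermMat (z : IVec) : Matrix (Fin 2) (Fin 2) O :=
  !![(z 0 : O), (z 2 : O) + (z 3 : O) * E.w; E.conj ((z 2 : O) + (z 3 : O) * E.w), (z 1 : O)]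

theorem skewMat_gmap (z : IVec) : skewMat E (gmap z) = E.s • hermMat E z := by
  ext i j
  fin_cases i <;> fin_cases j <;> simp [skewMat, gmap, hermMat, E.conj_w, EisData.s]
  · linear_combination (-2 * (z 3 : O)) * E.w_eq
  · linear_combination (2 * (z 3 : O)) * E.w_eq

theorem adjT_hermMat (z : IVec) : adjT E (hermMat E z) = hermMat E z := by
  ext i j
  fin_cases i <;> fin_cases j <;> simp [adjT, hermMat, E.conj_w]

theorem exists_hermMat_eq {H : Matrix (Fin 2) (Fin 2) O} (hH : adjT E H = H) :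
    ∃ z, hermMat E z = H := by
  have h : ∀ i j, E.conj (H j i) = H i j := fun i j => congrFun (congrFun hH i) j
  obtain ⟨a, ha⟩ := E.conj_eq_self_iff.mp (h 0 0)
  obtain ⟨d, hd⟩ := E.conj_eq_self_iff.mp (h 1 1)
  obtain ⟨m, n, hmn⟩ := E.repr (H 0 1)
  refine ⟨![a, d, m, n], ?_⟩
  ext i j
  fin_cases i <;> fin_cases j
  · simpa [hermMat] using ha.symm
  · simpa [hermMat] using hmn.symm
  · simpa [hermMat, ← h 1 0] using congrArg E.conj hmn.symm
  · simpa [hermMat] using hd.symm

theorem actK_mem_perLat {N : ℕ} {k : IVec} (g : Matrix (Fin 2) (Fin 2) O) (hk : k ∈ perLat N) :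
    actK E g k ∈ perLat N := by
  obtain ⟨z, rfl⟩ := mem_perLat.mp hk
  obtain ⟨z', hz'⟩ := exists_hermMat_eq E (H := g * hermMat E z * adjT E g) (by
    rw [adjT_mul, adjT_mul, adjT_adjT, adjT_hermMat, Matrix.mul_assoc])
  refine mem_perLat.mpr ⟨z', ?_⟩
  rw [map_zsmul]
  congr 1
  refine skewMat_injective E ?_
  rw [skewMat_actK, skewMat_gmap, skewMat_gmap, hz', Matrix.mul_smul, Matrix.smul_mul]

/-- The induced action on the discriminant group. -/
def actD (N : ℕ) (g : Matrix (Fin 2) (Fin 2) O) : Disc N →+ Disc N :=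
  QuotientAddGroup.map _ _ (actK E g) fun _ hk => actK_mem_perLat E g hk

@[simp] theorem actD_dcls (N : ℕ) (g : Matrix (Fin 2) (Fin 2) O) (k : IVec) :
    actD E N g (dcls N k) = dcls N (actK E g k) := rfl

theorem actD_mul (N : ℕ) (g g' : Matrix (Fin 2) (Fin 2) O) (r : Disc N) :
    actD E N (g * g') r = actD E N g (actD E N g' r) := by
  obtain ⟨k, rfl⟩ := dcls_surjective N r
  simp [actK_mul]

/-- Congruent matrices act in the same way on the discriminant group. -/
theorem actD_congr (N : ℕ) {g g' : Matrix (Fin 2) (Fin 2) O}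
    (h : ∀ i j, ((3 * N : ℤ) : O) ∣ g i j - g' i j) (r : Disc N) :
    actD E N g r = actD E N g' r := by
  obtain ⟨k, rfl⟩ := dcls_surjective N r
  choose δ hδ using h
  set D : Matrix (Fin 2) (Fin 2) O := Matrix.of δ
  have hg : g = g' + ((3 * N : ℤ) : O) • D := by
    ext i j
    rw [Matrix.add_apply, Matrix.smul_apply, smul_eq_mul]
    show g i j = g' i j + _ * δ i j
    rw [← hδ i j]; ring
  set Z := D * skewMat E k * adjT E g + g' * skewMat E k * adjT E D
  have hdiff : skewMat E (actK E g k - actK E g' k) = ((3 * N : ℤ) : O) • Z := by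
    rw [map_sub, skewMat_actK, skewMat_actK]
    simp only [Z, hg, adjT, Matrix.map_add _ (map_add E.conj), Matrix.transpose_add,
      Matrix.mul_add, Matrix.add_mul, smul_add]
    rw [show (((3 * N : ℤ) : O) • D).map E.conj = ((3 * N : ℤ) : O) • D.map E.conj by
      ext i j; simp [map_ofNat], Matrix.transpose_smul]
    simp only [Matrix.mul_smul, Matrix.smul_mul, smul_smul]
    abel
  have hcanc : ∀ x y : O, ((3 * N : ℤ) : O) * x = ((3 * N : ℤ) : O) * y → N = 0 ∨ x = y := by
    intro x y hxy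
    obtain ⟨a, b, rfl⟩ := E.repr x
    obtain ⟨c, e, rfl⟩ := E.repr y
    have := E.ext_coords (a := 3 * N * a) (b := 3 * N * b) (a' := 3 * N * c) (b' := 3 * N * e)
      (by push_cast at hxy ⊢; linear_combination hxy)
    rcases Nat.eq_zero_or_pos N with h0 | h0
    · exact Or.inl h0
    · have hN : (3 * (N : ℤ)) ≠ 0 := by omega
      exact Or.inr (by rw [mul_left_cancel₀ hN this.1, mul_left_cancel₀ hN this.2])
  rcases Nat.eq_zero_or_pos N with h0 | h0
  · subst h0
    have : g = g' := by rw [hg]; simp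
    rw [this]
  have hskew : IsSkewMat E Z := by
    have h1 : adjT E (((3 * N : ℤ) : O) • Z) = -(((3 * N : ℤ) : O) • Z) := by
      rw [← hdiff]; exact isSkewMat_skewMat E _
    rw [adjT_smul, map_intCast, ← smul_neg] at h1
    ext i j
    exact (hcanc _ _ (congrFun (congrFun h1 i) j)).resolve_left (by omega)
  obtain ⟨l, hl⟩ := hskew.exists_eq E
  have hl' : actK E g k - actK E g' k = (3 * N : ℤ) • l := by
    refine skewMat_injective E ?_
    rw [hdiff, map_zsmul, hl, Int.cast_smul_eq_zsmul]
  rw [actD_dcls, actD_dcls, ← sub_eq_zero, ← map_sub, hl', dcls, QuotientAddGroup.mk'_apply,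
    QuotientAddGroup.eq_zero_iff]
  exact three_mul_smul_mem_perLat N l

end Fermat.Agent.LT.Theta
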