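import Fermat.Agent.LT.Poisson.GaussianPi
import Fermat.Agent.LT.Adelic.Space
import Mathlib.MeasureTheory.Group.Integral
import Mathlib.MeasureTheory.Measure.Haar.Unique

/-!
The Gaussian of a split binary quadratic form at each complex place, attached to a point of
hyperbolic three space, and its Poisson summation formula: inversion `τ ↦ weyl • τ`.
-/

set_option autoImplicit false

noncomputable section

namespace Fermat.Agent.LT.Theta

open MeasureTheory Complex Adelic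
open Poisson (eC eC_add VDecay pairFourier pairC gaussV gaussC gaussConst invU invR latVec)
open scoped Real ComplexConjugate

variable {ι : Type*} [Fintype ι]

/-- The Gaussian of the form `u x₁ x₂` with majorant parameter `s` at the point `τ`. -/
def qGauss (u : ι → ℂ) (s : ι → ℝ) (τ : ι → HSpace) (x : ι → ℂ × ℂ) : ℂ :=
  ∏ i, ((τ i).r : ℂ) *
    Real.exp (-2 * π * (τ i).r * ‖u i‖ *
      (Real.exp (s i) * ‖(x i).1‖ ^ 2 + Real.exp (-s i) * ‖(x i).2‖ ^ 2)) *
    eC (2 * ((τ i).z * u i * (x i).1 * (x i).2).re)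

/-- The pairing `∑ 2 Re (u (x₁ y₂ + x₂ y₁))`. -/
def qBil (u : ι → ℂ) : (ι → ℂ × ℂ) →ₗ[ℝ] (ι → ℂ × ℂ) →ₗ[ℝ] ℝ :=
  LinearMap.mk₂ ℝ (fun x y => ∑ i, 2 * (u i * ((x i).1 * (y i).2 + (x i).2 * (y i).1)).re)
    (fun x x' y => by
      rw [← Finset.sum_add_distrib]
      exact Finset.sum_congr rfl fun i _ => by simp; ring)
    (fun c x y => by
      rw [smul_eq_mul, Finset.mul_sum]
      exact Finset.sum_congr rfl fun i _ => by simp; ring)
    (fun x y y' => by
      rw [← Finset.sum_add_distrib]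
      exact Finset.sum_congr rfl fun i _ => by simp; ring)
    (fun c x y => by
      rw [smul_eq_mul, Finset.mul_sum]
      exact Finset.sum_congr rfl fun i _ => by simp; ring)

theorem qBil_apply (u : ι → ℂ) (x y : ι → ℂ × ℂ) :
    qBil u x y = ∑ i, 2 * (u i * ((x i).1 * (y i).2 + (x i).2 * (y i).1)).re := rfl

theorem qBil_comm (u : ι → ℂ) (x y : ι → ℂ × ℂ) : qBil u x y = qBil u y x := by
  simp only [qBil_apply]
  exact Finset.sum_congr rfl fun i _ => by ring_nf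

theorem norm_qGauss (u : ι → ℂ) (s : ι → ℝ) (τ : ι → HSpace) (x : ι → ℂ × ℂ) :
    ‖qGauss u s τ x‖ = ∏ i, (τ i).r * Real.exp (-2 * π * (τ i).r * ‖u i‖ *
      (Real.exp (s i) * ‖(x i).1‖ ^ 2 + Real.exp (-s i) * ‖(x i).2‖ ^ 2)) := by
  rw [qGauss, norm_prod]
  refine Finset.prod_congr rfl fun i _ => ?_
  rw [norm_mul, norm_mul, Poisson.norm_eC, mul_one, norm_real, norm_real, Real.norm_eq_abs,
    abs_of_pos (τ i).r_pos, Real.norm_eq_abs, Real.abs_exp]

theorem continuous_qGauss (u : ι → ℂ) (s : ι → ℝ) (τ : ι → HSpace) :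
    Continuous (qGauss u s τ) := by
  unfold qGauss eC
  fun_prop

section Coord

variable (u : ι → ℂ) (s : ι → ℝ)

/-- The scale of the first coordinate. -/
def qScale (i : ι) : ℂ := ((√‖u i‖ * Real.exp (s i / 2) : ℝ) : ℂ)

omit [Fintype ι] in
theorem qScale_ne_zero (hu : ∀ i, u i ≠ 0) (i : ι) : qScale u s i ≠ 0 :=
  ofReal_ne_zero.mpr (mul_ne_zero (Real.sqrt_ne_zero'.mpr (norm_pos_iff.mpr (hu i)))
    (Real.exp_ne_zero _))

omit [Fintype ι] in
theorem norm_qScale_sq (i : ι) : ‖qScale u s i‖ ^ 2 = ‖u i‖ * Real.exp (s i) := by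
  rw [qScale, norm_real, Real.norm_eq_abs, sq_abs, mul_pow, Real.sq_sqrt (norm_nonneg _),
    sq, ← Real.exp_add, add_halves]

omit [Fintype ι] in
theorem norm_div_qScale_sq (hu : ∀ i, u i ≠ 0) (i : ι) :
    ‖u i / qScale u s i‖ ^ 2 = ‖u i‖ * Real.exp (-s i) := by
  have h := norm_pos_iff.mpr (hu i)
  rw [norm_div, div_pow, norm_qScale_sq, Real.exp_neg]
  field_simp

/-- Coordinates in which the Gaussian is a product of one variable Gaussians. -/
def qCoord (hu : ∀ i, u i ≠ 0) : (ι → ℂ × ℂ) ≃ₗ[ℝ] (ι × Bool → ℂ) where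
  toFun x k := bif k.2 then ((√2 : ℝ) : ℂ)⁻¹ * (qScale u s k.1 * (x k.1).1 +
      u k.1 / qScale u s k.1 * (x k.1).2)
    else -I * ((√2 : ℝ) : ℂ)⁻¹ * (qScale u s k.1 * (x k.1).1 -
      u k.1 / qScale u s k.1 * (x k.1).2)
  invFun v i := (((√2 : ℝ) : ℂ)⁻¹ * (v (i, true) + I * v (i, false)) / qScale u s i,
    ((√2 : ℝ) : ℂ)⁻¹ * (v (i, true) - I * v (i, false)) / (u i / qScale u s i))
  map_add' x y := by
    funext ⟨i, b⟩
    cases b <;> simp <;> ring
  map_smul' c x := by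
    funext ⟨i, b⟩
    cases b <;> simp <;> ring
  left_inv x := by
    funext i
    have h2 : ((√2 : ℝ) : ℂ) * ((√2 : ℝ) : ℂ) = 2 := by
      rw [← ofReal_mul, Real.mul_self_sqrt zero_le_two, ofReal_ofNat]
    have ha := qScale_ne_zero u s hu i
    have := hu i
    ext <;> simp <;> field_simp <;> ring_nf <;> simp [sq, h2, I_mul_I] <;> ring
  right_inv v := by
    have h2 : ((√2 : ℝ) : ℂ) * ((√2 : ℝ) : ℂ) = 2 := by
      rw [← ofReal_mul, Real.mul_self_sqrt zero_le_two, ofReal_ofNat]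
    funext ⟨i, b⟩
    have ha := qScale_ne_zero u s hu i
    have := hu i
    cases b <;> simp <;> field_simp <;> ring_nf <;> simp [sq, h2, I_mul_I] <;> ring

omit [Fintype ι] in
theorem qCoord_true (hu : ∀ i, u i ≠ 0) (x : ι → ℂ × ℂ) (i : ι) :
    qCoord u s hu x (i, true) = ((√2 : ℝ) : ℂ)⁻¹ *
      (qScale u s i * (x i).1 + u i / qScale u s i * (x i).2) := rfl

omit [Fintype ι] in
theorem qCoord_false (hu : ∀ i, u i ≠ 0) (x : ι → ℂ × ℂ) (i : ι) :
    qCoord u s hu x (i, false) = -I * ((√2 : ℝ) : ℂ)⁻¹ *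
      (qScale u s i * (x i).1 - u i / qScale u s i * (x i).2) := rfl

theorem inv_sqrt_two_mul_self : ((√2 : ℝ) : ℂ)⁻¹ * ((√2 : ℝ) : ℂ)⁻¹ = 2⁻¹ := by
  rw [← mul_inv, ← ofReal_mul, Real.mul_self_sqrt zero_le_two, ofReal_ofNat]

theorem pairC_qCoord (hu : ∀ i, u i ≠ 0) (x y : ι → ℂ × ℂ) :
    pairC (qCoord u s hu x) (qCoord u s hu y) = qBil u x y := by
  rw [Poisson.pairC_apply, qBil_apply, Fintype.sum_prod_type]
  refine Finset.sum_congr rfl fun i _ => ?_
  rw [Fintype.sum_bool, ← mul_add, ← add_re, qCoord_true, qCoord_true, qCoord_false, qCoord_false]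
  congr 2
  have ha := qScale_ne_zero u s hu i
  linear_combination
    ((qScale u s i * (x i).1 - u i / qScale u s i * (x i).2) *
      (qScale u s i * (y i).1 - u i / qScale u s i * (y i).2) *
        (((√2 : ℝ) : ℂ)⁻¹ * ((√2 : ℝ) : ℂ)⁻¹)) * I_mul_I +
    (2 * ((qScale u s i * (u i / qScale u s i)) * ((x i).1 * (y i).2 + (x i).2 * (y i).1))) *
      inv_sqrt_two_mul_self +
    ((x i).1 * (y i).2 + (x i).2 * (y i).1) * mul_div_cancel₀ (u i) ha

theorem qGauss_eq_gaussV (hu : ∀ i, u i ≠ 0) (τ : ι → HSpace) (x : ι → ℂ × ℂ) :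
    qGauss u s τ x = (∏ i, ((τ i).r : ℂ)) *
      gaussV (fun k => (τ k.1).z) (fun k => (τ k.1).r) (qCoord u s hu x) := by
  rw [gaussV, Fintype.prod_prod_type, qGauss, ← Finset.prod_mul_distrib]
  refine Finset.prod_congr rfl fun i _ => ?_
  rw [Fintype.prod_bool]
  simp only [gaussC]
  set a := qScale u s i * (x i).1 with ha'
  set b := u i / qScale u s i * (x i).2 with hb'
  rw [qCoord_true, qCoord_false, mul_mul_mul_comm, ← eC_add,
    ← ofReal_mul (Real.exp _) (Real.exp _), ← Real.exp_add, mul_assoc]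
  have hn : ‖((√2 : ℝ) : ℂ)⁻¹ * (a + b)‖ ^ 2 + ‖-I * ((√2 : ℝ) : ℂ)⁻¹ * (a - b)‖ ^ 2 =
      ‖u i‖ * (Real.exp (s i) * ‖(x i).1‖ ^ 2 + Real.exp (-s i) * ‖(x i).2‖ ^ 2) := by
    have hp := parallelogram_law_with_norm ℝ a b
    have e1 : ‖a‖ ^ 2 = ‖u i‖ * Real.exp (s i) * ‖(x i).1‖ ^ 2 := by
      rw [ha', norm_mul, mul_pow, norm_qScale_sq]
    have e2 : ‖b‖ ^ 2 = ‖u i‖ * Real.exp (-s i) * ‖(x i).2‖ ^ 2 := by
      rw [hb', norm_mul, mul_pow, norm_div_qScale_sq u s hu]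
    simp only [norm_mul, norm_neg, norm_I, one_mul, norm_inv, norm_real, Real.norm_eq_abs,
      mul_pow, inv_pow, sq_abs, Real.sq_sqrt zero_le_two]
    linear_combination (1 / 2 : ℝ) * hp + e1 + e2
  have hz : (τ i).z * (((√2 : ℝ) : ℂ)⁻¹ * (a + b)) ^ 2 +
      (τ i).z * (-I * ((√2 : ℝ) : ℂ)⁻¹ * (a - b)) ^ 2 =
      2 * ((τ i).z * u i * (x i).1 * (x i).2) := by
    have hab : a * b = u i * ((x i).1 * (x i).2) := by
      rw [ha', hb']
      field_simp [qScale_ne_zero u s hu i]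
    linear_combination (τ i).z * (((√2 : ℝ) : ℂ)⁻¹) ^ 2 * (a - b) ^ 2 * I_mul_I +
      4 * (τ i).z * a * b * inv_sqrt_two_mul_self + 2 * (τ i).z * hab
  congr 2
  · congr 1
    congr 1
    linear_combination (2 * π * (τ i).r) * hn
  · congr 1
    rw [← add_re, hz, mul_re]
    simp

theorem continuous_qCoord (hu : ∀ i, u i ≠ 0) : Continuous (qCoord u s hu) :=
  (qCoord u s hu).toLinearMap.continuous_of_finiteDimensional

theorem vdecay_qGauss (hu : ∀ i, u i ≠ 0) (τ : ι → HSpace) {e : ℝ} (he : 0 ≤ e) :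
    VDecay (qGauss u s τ) e := by
  obtain ⟨C, hC⟩ := Poisson.vdecay_gaussV (fun k : ι × Bool => (τ k.1).z)
    (r := fun k => (τ k.1).r) (fun k => (τ k.1).r_pos) he
  set L : (ι → ℂ × ℂ) ≃L[ℝ] (ι × Bool → ℂ) := (qCoord u s hu).toContinuousLinearEquiv
  set M := max 1 ‖(L.symm : (ι × Bool → ℂ) →L[ℝ] (ι → ℂ × ℂ))‖
  have hM : 0 < M := lt_of_lt_of_le one_pos (le_max_left _ _)
  have hC0 : 0 ≤ C := by simpa using (norm_nonneg _).trans (hC 0)
  refine ⟨‖∏ i, ((τ i).r : ℂ)‖ * (C * M ^ e), fun x => ?_⟩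
  rw [qGauss_eq_gaussV u s hu, norm_mul, mul_assoc]
  refine mul_le_mul_of_nonneg_left ((hC _).trans ?_) (norm_nonneg _)
  rw [mul_assoc]
  refine mul_le_mul_of_nonneg_left ?_ hC0
  have h0 : ‖x‖ ≤ M * ‖qCoord u s hu x‖ := by
    calc ‖x‖ = ‖(L.symm : (ι × Bool → ℂ) →L[ℝ] (ι → ℂ × ℂ)) (L x)‖ := by simp
      _ ≤ _ := ((L.symm : (ι × Bool → ℂ) →L[ℝ] (ι → ℂ × ℂ)).le_opNorm _).trans
        (mul_le_mul_of_nonneg_right (le_max_right _ _) (norm_nonneg _))
  rw [Real.rpow_neg (by positivity), Real.rpow_neg (by positivity), ← div_eq_mul_inv,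
    le_div_iff₀ (by positivity), inv_mul_le_iff₀ (by positivity), mul_comm _ (M ^ e),
    ← Real.mul_rpow (by positivity) (by positivity)]
  refine Real.rpow_le_rpow (by positivity) ?_ he
  nlinarith [le_max_left 1 ‖(L.symm : (ι × Bool → ℂ) →L[ℝ] (ι → ℂ × ℂ))‖,
    norm_nonneg (qCoord u s hu x)]

end Coord

/-- The constant in the inversion formula. -/
def qConst (u : ι → ℂ) : ℝ := ∏ i, (4 * ‖u i‖ ^ 2)⁻¹

theorem weyl_smul_r (p : HSpace) :
    ((weyl : GL (Fin 2) ℂ) • p).r = invR p.z p.r := by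
  simp [HSpace.smul_r, HSpace.absDet, HSpace.denSq, invR, Matrix.det_fin_two]

theorem weyl_smul_z (p : HSpace) :
    ((weyl : GL (Fin 2) ℂ) • p).z = invU p.z p.r := by
  simp [HSpace.smul_z, HSpace.denSq, invU]

theorem integral_gauss_norm_sq {b : ℝ} (hb : 0 < b) :
    ∫ x : ℂ, ((Real.exp (-2 * π * b * ‖x‖ ^ 2) : ℝ) : ℂ) = ((2 * b : ℝ) : ℂ)⁻¹ := by
  have h := Poisson.integral_gaussC 0 hb 0
  simpa [gaussC, Real.sqrt_sq hb.le] using h

instance isAddHaarMeasure_volume_complex_prod :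
    (volume : Measure (ℂ × ℂ)).IsAddHaarMeasure := by
  rw [Measure.volume_eq_prod]
  infer_instance

instance isAddHaarMeasure_volume_pVec :
    (volume : Measure (ι → ℂ × ℂ)).IsAddHaarMeasure :=
  Measure.pi.isAddHaarMeasure (fun _ : ι => (volume : Measure (ℂ × ℂ)))

theorem integral_comp_qCoord (u : ι → ℂ) (s : ι → ℝ) (hu : ∀ i, u i ≠ 0)
    (f : (ι × Bool → ℂ) → ℂ) :
    ∫ x, f (qCoord u s hu x) = ((∏ i, (‖u i‖ ^ 2)⁻¹ : ℝ) : ℂ) * ∫ v, f v := by
  classical
  let L : (ι → ℂ × ℂ) ≃L[ℝ] (ι × Bool → ℂ) := (qCoord u s hu).toContinuousLinearEquiv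
  have : (Measure.map L volume).IsAddHaarMeasure :=
    AddEquiv.isAddHaarMeasure_map volume L.toLinearEquiv.toAddEquiv L.continuous L.symm.continuous
  set c := Measure.addHaarScalarFactor (Measure.map L volume) volume
  have hmap : Measure.map L volume = c • volume :=
    Measure.isAddLeftInvariant_eq_smul _ _
  have key : ∀ g : (ι × Bool → ℂ) → ℂ, ∫ x, g (qCoord u s hu x) = (c : ℝ) • ∫ v, g v := by
    intro g
    rw [← NNReal.smul_def, ← integral_smul_nnreal_measure, ← hmap]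
    exact (L.toHomeomorph.measurableEmbedding.integral_map g).symm
  have h0 : (c : ℝ) = ∏ i, (‖u i‖ ^ 2)⁻¹ := by
    have hg := key (gaussV (fun _ => 0) fun _ => 1)
    have hrhs : ∫ v, gaussV (κ := ι × Bool) (fun _ => 0) (fun _ => 1) v =
        ((∏ _i : ι, (4 : ℝ)⁻¹ : ℝ) : ℂ) := by
      have := Poisson.pairFourier_gaussV (fun _ : ι × Bool => (0 : ℂ)) (r := fun _ => 1)
        (fun _ => one_pos) 0
      simp [pairFourier, gaussConst, gaussV, gaussC, Poisson.eC_zero] at this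
      simp [gaussV, gaussC, Poisson.eC_zero]
      rw [this, mul_comm, pow_mul]
      norm_num
    have hlhs : ∫ x, gaussV (fun _ => 0) (fun _ => 1) (qCoord u s hu x) =
        ((∏ i, (4 * ‖u i‖ ^ 2)⁻¹ : ℝ) : ℂ) := by
      have e : ∀ x, gaussV (fun _ => 0) (fun _ => 1) (qCoord u s hu x) =
          ∏ i, (fun y : ℂ × ℂ =>
            ((Real.exp (-2 * π * (‖u i‖ * Real.exp (s i)) * ‖y.1‖ ^ 2) : ℝ) : ℂ) *
            ((Real.exp (-2 * π * (‖u i‖ * Real.exp (-s i)) * ‖y.2‖ ^ 2) : ℝ) : ℂ)) (x i) := by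
        intro x
        have := qGauss_eq_gaussV u s hu (fun _ => HSpace.base) x
        simp only [HSpace.base, ofReal_one, Finset.prod_const_one, one_mul] at this
        rw [← this, qGauss]
        refine Finset.prod_congr rfl fun i _ => ?_
        simp [← Complex.exp_add, Poisson.eC_zero]
        ring_nf
      rw [integral_congr_ae (Filter.Eventually.of_forall e),
        integral_fintype_prod_volume_eq_prod (fun (i : ι) (y : ℂ × ℂ) =>
          ((Real.exp (-2 * π * (‖u i‖ * Real.exp (s i)) * ‖y.1‖ ^ 2) : ℝ) : ℂ) *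
          ((Real.exp (-2 * π * (‖u i‖ * Real.exp (-s i)) * ‖y.2‖ ^ 2) : ℝ) : ℂ)), ofReal_prod]
      refine Finset.prod_congr rfl fun i _ => ?_
      have hn := norm_pos_iff.mpr (hu i)
      rw [Measure.volume_eq_prod, integral_prod_mul
        (fun y : ℂ => ((Real.exp (-2 * π * (‖u i‖ * Real.exp (s i)) * ‖y‖ ^ 2) : ℝ) : ℂ))
        (fun y : ℂ => ((Real.exp (-2 * π * (‖u i‖ * Real.exp (-s i)) * ‖y‖ ^ 2) : ℝ) : ℂ)),
        integral_gauss_norm_sq (mul_pos hn (Real.exp_pos _)),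
        integral_gauss_norm_sq (mul_pos hn (Real.exp_pos _)), ← mul_inv, ← ofReal_mul, ← ofReal_inv,
        Real.exp_neg]
      congr 2
      field_simp
      ring
    rw [hlhs, hrhs, Complex.real_smul, ← ofReal_mul] at hg
    have h := ofReal_injective hg
    simp only [mul_inv, Finset.prod_mul_distrib] at h
    exact mul_left_cancel₀ (show (∏ _i : ι, (4 : ℝ)⁻¹) ≠ 0 by simp) (by rw [h]; ring)
  rw [key, Complex.real_smul, h0]

/-- **Fourier transform**: inversion of the point, same `s`. -/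
theorem pairFourier_qGauss (u : ι → ℂ) (hu : ∀ i, u i ≠ 0) (s : ι → ℝ) (τ : ι → HSpace)
    (y : ι → ℂ × ℂ) :
    pairFourier volume (qBil u) (qGauss u s τ) y =
      (qConst u : ℂ) * qGauss u s (fun i => (weyl : GL (Fin 2) ℂ) • τ i) y := by
  have h : ∀ x, eC (-qBil u y x) * qGauss u s τ x = (∏ i, ((τ i).r : ℂ)) *
      (fun v => eC (-pairC (qCoord u s hu y) v) *
        gaussV (fun k => (τ k.1).z) (fun k => (τ k.1).r) v) (qCoord u s hu x) := fun x => by
    simp only [pairC_qCoord, qGauss_eq_gaussV u s hu]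
    ring
  rw [pairFourier]
  simp only [h]
  rw [integral_const_mul, integral_comp_qCoord u s hu
    (fun v => eC (-pairC (qCoord u s hu y) v) *
      gaussV (fun k => (τ k.1).z) (fun k => (τ k.1).r) v),
    show (∫ v, eC (-pairC (qCoord u s hu y) v) *
      gaussV (fun k : ι × Bool => (τ k.1).z) (fun k => (τ k.1).r) v) =
      pairFourier volume pairC (gaussV (fun k => (τ k.1).z) fun k => (τ k.1).r)
        (qCoord u s hu y) from rfl,
    Poisson.pairFourier_gaussV (fun k : ι × Bool => (τ k.1).z) (r := fun k => (τ k.1).r)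
      (fun k => (τ k.1).r_pos), qGauss_eq_gaussV u s hu]
  simp only [weyl_smul_r, weyl_smul_z, ← mul_assoc]
  congr 1
  rw [gaussConst, qConst, Fintype.prod_prod_type]
  simp only [Fintype.prod_bool, ofReal_prod, ← Finset.prod_mul_distrib]
  refine Finset.prod_congr rfl fun i _ => ?_
  have hD : 0 < Complex.normSq (τ i).z + (τ i).r ^ 2 :=
    add_pos_of_nonneg_of_pos (Complex.normSq_nonneg _) (pow_pos (τ i).r_pos 2)
  have := norm_pos_iff.mpr (hu i)
  rw [invR, ← ofReal_mul, ← ofReal_mul, ← ofReal_mul]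
  congr 1
  field_simp
  rw [Real.sq_sqrt hD.le]
  ring

variable {d : Type*} [Fintype d]

theorem summable_qGauss_lattice (b : Module.Basis d ℝ (ι → ℂ × ℂ)) (u : ι → ℂ)
    (hu : ∀ i, u i ≠ 0) (s : ι → ℝ) (τ : ι → HSpace) (x : ι → ℂ × ℂ) :
    Summable fun n : d → ℤ => qGauss u s τ (x + latVec b n) :=
  (Poisson.summable_translate (f := fun w : d → ℝ => qGauss u s τ (x + ∑ i, w i • b i))
    (lt_add_one _) ((vdecay_qGauss u s hu τ (by positivity)).comp_basis (by positivity) b x)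
    0).congr fun n => by simp [latVec]

/-- **Poisson summation** for the Gaussian over a coset of a lattice. -/
theorem tsum_qGauss (b b' : Module.Basis d ℝ (ι → ℂ × ℂ)) [DecidableEq d] (u : ι → ℂ)
    (hu : ∀ i, u i ≠ 0) (hdual : ∀ j i, qBil u (b' j) (b i) = if j = i then 1 else 0)
    (s : ι → ℝ) (τ : ι → HSpace) (x : ι → ℂ × ℂ) :
    ∑' n : d → ℤ, qGauss u s τ (x + latVec b n) =
      ((volume (b.parallelepiped : Set (ι → ℂ × ℂ))).toReal⁻¹ * qConst u : ℝ) *
        ∑' m : d → ℤ, eC (qBil u (latVec b' m) x) *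
          qGauss u s (fun i => (weyl : GL (Fin 2) ℂ) • τ i) (latVec b' m) := by
  have hsum : Summable fun m : d → ℤ =>
      pairFourier volume (qBil u) (qGauss u s τ) (latVec b' m) := by
    simp only [pairFourier_qGauss u hu]
    exact (((summable_qGauss_lattice b' u hu s _ 0).congr fun m => by rw [zero_add]).mul_left _)
  have key := Poisson.tsum_latVec volume b (qBil u) (fun j => b' j) hdual
    (continuous_qGauss u s τ) (lt_add_one _)
    (vdecay_qGauss u s hu τ (by positivity)) hsum x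
  rw [key, Complex.real_smul, ofReal_mul, mul_assoc]
  congr 1
  rw [← tsum_mul_left]
  refine tsum_congr fun m => ?_
  rw [show latVec (fun j => b' j) m = latVec b' m from rfl, pairFourier_qGauss u hu]
  ring

/-- Unipotent translations multiply by a phase. -/
theorem qGauss_unipotent (u : ι → ℂ) (s : ι → ℝ) (τ : ι → HSpace) (w : ι → ℂ)
    (x : ι → ℂ × ℂ) :
    qGauss u s (fun i => unipotent (w i) • τ i) x =
      eC (∑ i, 2 * (w i * u i * (x i).1 * (x i).2).re) * qGauss u s τ x := by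
  rw [Poisson.eC, ofReal_sum, Finset.mul_sum, Complex.exp_sum, qGauss, qGauss,
    ← Finset.prod_mul_distrib]
  refine Finset.prod_congr rfl fun i _ => ?_
  have hr : (unipotent (w i) • τ i).r = (τ i).r := by
    simp [HSpace.smul_r, HSpace.absDet, HSpace.denSq, Matrix.det_fin_two]
  have hz : (unipotent (w i) • τ i).z = (τ i).z + w i := by
    simp [HSpace.smul_z, HSpace.denSq]
  rw [hr, hz, show Complex.exp _ = eC (2 * (w i * u i * (x i).1 * (x i).2).re) from rfl,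
    show 2 * (((τ i).z + w i) * u i * (x i).1 * (x i).2).re =
      2 * (w i * u i * (x i).1 * (x i).2).re + 2 * ((τ i).z * u i * (x i).1 * (x i).2).re by
      rw [← mul_add, ← add_re]; ring_nf, eC_add]
  ring

/-- The torus element `diag(a, a⁻¹)` scales the argument. -/
theorem qGauss_torus (u : ι → ℂ) (s : ι → ℝ) (τ : ι → HSpace) (a : ι → ℂˣ)
    (x : ι → ℂ × ℂ) :
    qGauss u s (fun i => diag2 (a i) (a i)⁻¹ • τ i) x =
      ((∏ i, ‖(a i : ℂ)‖ ^ 2 : ℝ) : ℂ) * qGauss u s τ (fun i => (a i : ℂ) • x i) := by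
  rw [qGauss, qGauss, ofReal_prod, ← Finset.prod_mul_distrib]
  refine Finset.prod_congr rfl fun i _ => ?_
  have ha : (a i : ℂ) ≠ 0 := (a i).ne_zero
  have ha' : ‖(a i : ℂ)‖ ≠ 0 := norm_ne_zero_iff.mpr ha
  have hr : (diag2 (a i) (a i)⁻¹ • τ i).r = ‖(a i : ℂ)‖ ^ 2 * (τ i).r := by
    simp [HSpace.smul_r, HSpace.absDet, HSpace.denSq, Matrix.det_fin_two,
      Complex.normSq_eq_norm_sq]
    field_simp
  have hz : (diag2 (a i) (a i)⁻¹ • τ i).z = (a i : ℂ) ^ 2 * (τ i).z := by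
    simp [HSpace.smul_z, HSpace.denSq, Complex.normSq_eq_conj_mul_self]
    field_simp
  rw [hr, hz]
  simp only [Prod.smul_fst, Prod.smul_snd, smul_eq_mul, norm_mul, mul_pow]
  rw [ofReal_mul]
  ring_nf

/-- `diag(a, 1)` scales the form. -/
theorem qGauss_diag (u : ι → ℂ) (s : ι → ℝ) (τ : ι → HSpace) (a : ι → ℂˣ)
    (x : ι → ℂ × ℂ) :
    qGauss u s (fun i => diag2 (a i) 1 • τ i) x =
      qGauss (fun i => (a i : ℂ) * u i) s τ x * ((∏ i, ‖(a i : ℂ)‖ : ℝ) : ℂ) := by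
  rw [qGauss, qGauss, ofReal_prod, ← Finset.prod_mul_distrib]
  refine Finset.prod_congr rfl fun i _ => ?_
  have hr : (diag2 (a i) 1 • τ i).r = ‖(a i : ℂ)‖ * (τ i).r := by
    simp [HSpace.smul_r, HSpace.absDet, HSpace.denSq, Matrix.det_fin_two]
  have hz : (diag2 (a i) 1 • τ i).z = (a i : ℂ) * (τ i).z := by
    simp [HSpace.smul_z, HSpace.denSq]
  rw [hr, hz, ofReal_mul, norm_mul]
  ring_nf

/-- Scaling the coordinates changes the form and the parameter. -/
theorem qGauss_mul (u : ι → ℂ) (s : ι → ℝ) (τ : ι → HSpace) (w : ι → ℂ × ℂ)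
    (hw₁ : ∀ i, (w i).1 ≠ 0) (hw₂ : ∀ i, (w i).2 ≠ 0) (x : ι → ℂ × ℂ) :
    qGauss u s τ (fun i => ((w i).1 * (x i).1, (w i).2 * (x i).2)) =
      qGauss (fun i => u i * ((w i).1 * (w i).2))
        (fun i => s i + (Real.log ‖(w i).1‖ - Real.log ‖(w i).2‖)) τ x := by
  refine Finset.prod_congr rfl fun i _ => ?_
  have h1 := norm_pos_iff.mpr (hw₁ i)
  have h2 := norm_pos_iff.mpr (hw₂ i)
  simp only [Real.exp_add, Real.exp_sub, neg_add, neg_sub, Real.exp_log h1, Real.exp_log h2,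
    norm_mul]
  congr 2
  · congr 1
    congr 1
    field_simp
  · ring_nf

end Fermat.Agent.LT.Theta
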