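import Fermat.Agent.LT.Theta.Lattice
import Fermat.Agent.LT.Adelic.Hyperbolic
import Mathlib.Analysis.Complex.UpperHalfPlane.Basic
import Mathlib.Analysis.SpecialFunctions.Gaussian.FourierTransform
import Mathlib.Analysis.Real.Sqrt
import Mathlib.MeasureTheory.Measure.Lebesgue.EqHaar

/-!
The weight one Gaussian kernel of signature `(3,1)` attached to a point of hyperbolic three space,
and its Fourier transform.
-/

set_option autoImplicit false

noncomputable section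

namespace Fermat.Agent.LT.Theta

open Complex MeasureTheory
open Poisson (eC eC_add VDecay pairFourier)
open Adelic (HSpace)
open UpperHalfPlane hiding I
open scoped Real BigOperators ComplexConjugate

/-- Real coordinates `(a, d, m, n)`. -/
abbrev RVec : Type := Fin 4 → ℝ

/-- The form `|m + nω|² - a d`. -/
def qR (x : RVec) : ℝ := x 2 ^ 2 - x 2 * x 3 + x 3 ^ 2 - x 0 * x 1

/-- The polar form. -/
def bR : RVec →ₗ[ℝ] RVec →ₗ[ℝ] ℝ :=
  LinearMap.mk₂ ℝ
    (fun x y => 2 * (x 2 * y 2) - x 2 * y 3 - x 3 * y 2 + 2 * (x 3 * y 3) - x 0 * y 1 - x 1 * y 0)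
    (fun x x' y => by simp only [Pi.add_apply]; ring)
    (fun c x y => by simp only [Pi.smul_apply, smul_eq_mul]; ring)
    (fun x y y' => by simp only [Pi.add_apply]; ring)
    (fun c x y => by simp only [Pi.smul_apply, smul_eq_mul]; ring)

theorem bR_apply (x y : RVec) : bR x y =
    2 * (x 2 * y 2) - x 2 * y 3 - x 3 * y 2 + 2 * (x 3 * y 3) - x 0 * y 1 - x 1 * y 0 := rfl

/-- The coordinates adapted to a point `w`: the last one is `tr(w⁻¹ X)/2`. -/
def frameFun (w : HSpace) (x : RVec) : RVec :=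
  ![x 2 - x 3 / 2 - w.z.re * x 1,
    Real.sqrt 3 / 2 * x 3 - w.z.im * x 1,
    ((x 0 - 2 * ((x 2 - x 3 / 2) * w.z.re + Real.sqrt 3 / 2 * x 3 * w.z.im)
        + x 1 * (w.z.re ^ 2 + w.z.im ^ 2)) / w.r - x 1 * w.r) / 2,
    ((x 0 - 2 * ((x 2 - x 3 / 2) * w.z.re + Real.sqrt 3 / 2 * x 3 * w.z.im)
        + x 1 * (w.z.re ^ 2 + w.z.im ^ 2)) / w.r + x 1 * w.r) / 2]

/-- The adapted coordinates as a linear map. -/
def frame (w : HSpace) : RVec →ₗ[ℝ] RVec where
  toFun := frameFun w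
  map_add' x y := by ext i; fin_cases i <;> simp [frameFun] <;> ring
  map_smul' c x := by ext i; fin_cases i <;> simp [frameFun] <;> ring

theorem frame_apply (w : HSpace) (x : RVec) : frame w x = frameFun w x := rfl

/-- The matrix of `frame`. -/
def frameMat (w : HSpace) : Matrix (Fin 4) (Fin 4) ℝ :=
  !![0, -w.z.re, 1, -(1 / 2);
    0, -w.z.im, 0, Real.sqrt 3 / 2;
    1 / (2 * w.r), ((w.z.re ^ 2 + w.z.im ^ 2) / w.r - w.r) / 2, -w.z.re / w.r,
      (w.z.re / 2 - Real.sqrt 3 / 2 * w.z.im) / w.r;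
    1 / (2 * w.r), ((w.z.re ^ 2 + w.z.im ^ 2) / w.r + w.r) / 2, -w.z.re / w.r,
      (w.z.re / 2 - Real.sqrt 3 / 2 * w.z.im) / w.r]

theorem frame_eq_toLin' (w : HSpace) : frame w = Matrix.toLin' (frameMat w) := by
  refine LinearMap.ext fun x => funext fun i => ?_
  have hr := w.r_pos.ne'
  fin_cases i <;>
    simp [frame_apply, frameFun, frameMat, Matrix.toLin'_apply, Matrix.mulVec, dotProduct,
      Fin.sum_univ_four] <;>
    field_simp <;> ring

theorem abs_det_frame (w : HSpace) : |LinearMap.det (frame w)| = Real.sqrt 3 / 4 := by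
  have hr := w.r_pos.ne'
  have h : (frameMat w).det = Real.sqrt 3 / 4 ∨ (frameMat w).det = -(Real.sqrt 3 / 4) := by
    simp [frameMat, Matrix.det_succ_row_zero, Fin.sum_univ_succ, Fin.succAbove]
    field_simp
    ring_nf
    tauto
  rw [frame_eq_toLin', LinearMap.det_toLin']
  rcases h with h | h <;> rw [h] <;>
    simp [abs_of_nonneg, Real.sqrt_nonneg, div_nonneg]

theorem sqrt3_sq : Real.sqrt 3 ^ 2 = 3 := Real.sq_sqrt (by norm_num)

theorem qR_frame (w : HSpace) (x : RVec) :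
    qR x = frame w x 0 ^ 2 + frame w x 1 ^ 2 + frame w x 2 ^ 2 - frame w x 3 ^ 2 := by
  have hr := w.r_pos.ne'
  simp [frame_apply, frameFun, qR]
  field_simp
  linear_combination (-(x 3 ^ 2 * w.r ^ 2)) * sqrt3_sq

theorem bR_frame (w : HSpace) (x y : RVec) :
    bR x y = 2 * (frame w x 0 * frame w y 0 + frame w x 1 * frame w y 1
      + frame w x 2 * frame w y 2 - frame w x 3 * frame w y 3) := by
  have h := qR_frame w (x + y)
  have h1 := qR_frame w x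
  have h2 := qR_frame w y
  simp only [map_add, Pi.add_apply] at h
  rw [bR_apply]
  simp only [qR, Pi.add_apply] at h h1 h2
  linear_combination h - h1 - h2

/-- The kernel, in adapted coordinates. -/
def gStd (τ : ℍ) (u : RVec) : ℂ :=
  (Real.sqrt τ.im : ℂ) *
    cexp (2 * π * I * τ * ((u 0 : ℂ) ^ 2 + (u 1 : ℂ) ^ 2 + (u 2 : ℂ) ^ 2)
      - 2 * π * I * conj (τ : ℂ) * (u 3 : ℂ) ^ 2)

/-- The weight one kernel `√v e(Q u) exp(-2π v (Q + 2 l_w²))`. -/
def gK (τ : ℍ) (w : HSpace) (x : RVec) : ℂ := gStd τ (frame w x)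

theorem gK_neg (τ : ℍ) (w : HSpace) (x : RVec) : gK τ w (-x) = gK τ w x := by
  simp [gK, gStd]

theorem norm_gStd (τ : ℍ) (u : RVec) :
    ‖gStd τ u‖ = Real.sqrt τ.im * Real.exp (-(2 * π * τ.im) * ∑ i, u i ^ 2) := by
  rw [gStd, norm_mul, norm_real, Real.norm_of_nonneg (Real.sqrt_nonneg _), Complex.norm_exp]
  congr 2
  simp [Fin.sum_univ_four, sq]
  ring

theorem continuous_gK (τ : ℍ) (w : HSpace) : Continuous (gK τ w) := by
  have : Continuous (frame w) := (frame w).continuous_of_finiteDimensional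
  unfold gK gStd
  fun_prop

/-- The form in adapted coordinates. -/
def qStd (u : RVec) : ℝ := u 0 ^ 2 + u 1 ^ 2 + u 2 ^ 2 - u 3 ^ 2

/-- Translating `τ` multiplies the kernel by a phase. -/
theorem gK_of_add (τ τ' : ℍ) (t : ℝ) (h : (τ' : ℂ) = (τ : ℂ) + t) (w : HSpace) (x : RVec) :
    gK τ' w x = eC (t * qR x) * gK τ w x := by
  have him : τ'.im = τ.im := by
    have := congrArg Complex.im h
    simpa using this
  rw [qR_frame w, gK, gK, gStd, gStd, him, eC, mul_left_comm, ← Complex.exp_add]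
  congr 2
  rw [h, map_add, conj_ofReal]
  push_cast
  ring

/-- Homogeneity. -/
theorem gK_of_scale (τ τ' : ℍ) (c : ℝ) (hc : 0 ≤ c) (h : (τ' : ℂ) = (c : ℂ) ^ 2 * τ)
    (w : HSpace) (x : RVec) : gK τ' w x = (c : ℂ) * gK τ w (c • x) := by
  have him : τ'.im = c ^ 2 * τ.im := by
    have := congrArg Complex.im h
    simpa [← ofReal_pow] using this
  rw [gK, gK, map_smul, gStd, gStd, him, Real.sqrt_mul (sq_nonneg c), Real.sqrt_sq hc, h,
    map_mul, map_pow, conj_ofReal]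
  push_cast [Pi.smul_apply, smul_eq_mul]
  ring_nf

theorem vdecay_gK (τ : ℍ) (w : HSpace) : VDecay (gK τ w) 5 := by
  have hdet : LinearMap.det (frame w) ≠ 0 := fun h => by
    have h1 := abs_det_frame w
    rw [h, abs_zero] at h1
    have : (0 : ℝ) < Real.sqrt 3 := Real.sqrt_pos.mpr (by norm_num)
    linarith
  obtain ⟨e, he⟩ : ∃ e : RVec ≃L[ℝ] RVec, ∀ x, e x = frame w x :=
    ⟨((frame w).equivOfDetNeZero hdet).toContinuousLinearEquiv, fun x => rfl⟩
  set κ := ‖(e.symm : RVec →L[ℝ] RVec)‖ + 1 with hκ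
  have hκ0 : 0 < κ := add_pos_of_nonneg_of_pos (norm_nonneg _) one_pos
  set a := 2 * π * τ.im / κ ^ 2 with ha
  have ha0 : 0 < a := by have := τ.im_pos; positivity
  refine ⟨Real.sqrt τ.im * (32 * (1 + 6 / a ^ 3)), fun x => ?_⟩
  rw [gK, norm_gStd, mul_assoc (Real.sqrt τ.im)]
  refine mul_le_mul_of_nonneg_left ?_ (Real.sqrt_nonneg _)
  have hx : ‖x‖ ≤ κ * ‖frame w x‖ := by
    calc ‖x‖ = ‖(e.symm : RVec →L[ℝ] RVec) (e x)‖ := by simp
      _ ≤ ‖(e.symm : RVec →L[ℝ] RVec)‖ * ‖e x‖ := ContinuousLinearMap.le_opNorm _ _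
      _ ≤ _ := by
        rw [he]
        exact mul_le_mul_of_nonneg_right (le_add_of_nonneg_right zero_le_one) (norm_nonneg _)
  have hsum : ‖frame w x‖ ^ 2 ≤ ∑ i, frame w x i ^ 2 := by
    have h : ‖frame w x‖ ≤ Real.sqrt (∑ i, frame w x i ^ 2) :=
      (pi_norm_le_iff_of_nonneg (Real.sqrt_nonneg _)).mpr fun i => by
        rw [Real.norm_eq_abs]
        exact Real.abs_le_sqrt (Finset.single_le_sum (f := fun j => frame w x j ^ 2)
          (fun j _ => sq_nonneg _) (Finset.mem_univ i))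
    calc ‖frame w x‖ ^ 2 ≤ Real.sqrt (∑ i, frame w x i ^ 2) ^ 2 :=
          pow_le_pow_left₀ (norm_nonneg _) h 2
      _ = _ := Real.sq_sqrt (Finset.sum_nonneg fun j _ => sq_nonneg _)
  have h2 : a * ‖x‖ ^ 2 ≤ 2 * π * τ.im * ∑ i, frame w x i ^ 2 := by
    have h3 : ‖x‖ ^ 2 ≤ κ ^ 2 * ∑ i, frame w x i ^ 2 :=
      (pow_le_pow_left₀ (norm_nonneg _) hx 2).trans
        (by rw [mul_pow]; exact mul_le_mul_of_nonneg_left hsum (sq_nonneg _))
    calc a * ‖x‖ ^ 2 ≤ a * (κ ^ 2 * ∑ i, frame w x i ^ 2) :=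
          mul_le_mul_of_nonneg_left h3 ha0.le
      _ = _ := by rw [ha]; field_simp
  set t := ‖x‖ with ht
  have ht0 : 0 ≤ t := norm_nonneg _
  have hexp : (a * t ^ 2) ^ 3 / 6 ≤ Real.exp (a * t ^ 2) := by
    simpa [Nat.factorial] using Real.pow_div_factorial_le_exp _ (by positivity : 0 ≤ a * t ^ 2) 3
  have hone : (1 : ℝ) ≤ Real.exp (a * t ^ 2) := Real.one_le_exp (by positivity)
  have ht6 : t ^ 6 ≤ 6 / a ^ 3 * Real.exp (a * t ^ 2) := by
    rw [div_mul_eq_mul_div, le_div_iff₀ (by positivity)]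
    have : (a * t ^ 2) ^ 3 = t ^ 6 * a ^ 3 := by ring
    linarith
  have h5 : (1 + t) ^ 5 ≤ 32 * (1 + t ^ 6) := by
    rcases le_or_gt t 1 with h | h
    · calc (1 + t) ^ 5 ≤ (2 : ℝ) ^ 5 := pow_le_pow_left₀ (by linarith) (by linarith) 5
        _ ≤ _ := by nlinarith [pow_nonneg ht0 6]
    · calc (1 + t) ^ 5 ≤ (2 * t) ^ 5 := pow_le_pow_left₀ (by linarith) (by linarith) 5
        _ = 32 * t ^ 5 := by ring
        _ ≤ _ := by nlinarith [pow_le_pow_right₀ h.le (show 5 ≤ 6 by norm_num)]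
  rw [Real.rpow_neg (by positivity), show ((5 : ℝ)) = ((5 : ℕ) : ℝ) by norm_num,
    Real.rpow_natCast, ← div_eq_mul_inv, le_div_iff₀ (by positivity)]
  calc Real.exp (-(2 * π * τ.im) * ∑ i, frame w x i ^ 2) * (1 + t) ^ 5
      ≤ Real.exp (-(a * t ^ 2)) * (32 * (1 + 6 / a ^ 3) * Real.exp (a * t ^ 2)) := by
        refine mul_le_mul (Real.exp_le_exp.mpr (by linarith)) ?_ (by positivity)
          (Real.exp_pos _).le
        nlinarith [ht6, hone, h5]
    _ = 32 * (1 + 6 / a ^ 3) := by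
        rw [← mul_assoc, mul_comm, ← mul_assoc, ← Real.exp_add]; simp

theorem cpow_half_sq (z : ℂ) : (z ^ (1 / 2 : ℂ)) ^ 2 = z := by
  rw [← Complex.cpow_nat_mul]; norm_num

theorem cpow_half_mul_conj {z : ℂ} (hz : z.arg ≠ π) :
    z ^ (1 / 2 : ℂ) * (conj z) ^ (1 / 2 : ℂ) = (‖z‖ : ℂ) := by
  rw [Complex.conj_cpow z _ hz, show conj (1 / 2 : ℂ) = 1 / 2 by simp [map_ofNat],
    Complex.mul_conj', ← ofReal_pow, ← norm_pow, cpow_half_sq]

/-- The Fourier transform of the kernel is `i/(√3 τ)` times the kernel at `-1/τ`. -/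
theorem pairFourier_gK (τ τ' : ℍ) (hτ' : (τ' : ℂ) = -(τ : ℂ)⁻¹) (w : HSpace) (y : RVec) :
    pairFourier volume bR (gK τ w) y =
      I / ((Real.sqrt 3 : ℂ) * τ) * gK τ' w y := by
  have hτ0 : (τ : ℂ) ≠ 0 := τ.ne_zero
  set s := frame w y with hs
  let b : Fin 4 → ℂ :=
    ![-(2 * π * I * τ), -(2 * π * I * τ), -(2 * π * I * τ), 2 * π * I * conj (τ : ℂ)]
  let c : Fin 4 → ℂ :=
    ![-(4 * π * I * (s 0 : ℂ)), -(4 * π * I * (s 1 : ℂ)), -(4 * π * I * (s 2 : ℂ)),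
      4 * π * I * (s 3 : ℂ)]
  have hb : ∀ i, 0 < (b i).re := by
    intro i
    have := τ.im_pos
    fin_cases i <;> simp [b] <;> positivity
  let G : RVec → ℂ := fun u => (Real.sqrt τ.im : ℂ) *
    cexp (-∑ i, b i * (u i : ℂ) ^ 2 + ∑ i, c i * (u i : ℂ))
  have hint : ∀ x, eC (-bR y x) * gK τ w x = G (frame w x) := fun x => by
    simp only [G, gK, gStd, eC, bR_frame w]
    rw [mul_left_comm, ← Complex.exp_add]
    congr 2
    simp [Fin.sum_univ_four, b, c, ← hs]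
    ring
  have hdet : LinearMap.det (frame w) ≠ 0 := fun h => by
    have h1 := abs_det_frame w
    rw [h, abs_zero] at h1
    have : (0 : ℝ) < Real.sqrt 3 := Real.sqrt_pos.mpr (by norm_num)
    linarith
  rw [pairFourier, integral_congr_ae (Filter.Eventually.of_forall hint)]
  have hmap := Real.map_linearMap_volume_pi_eq_smul_volume_pi hdet
  have hcont : Continuous (frame w) := (frame w).continuous_of_finiteDimensional
  have hG : Continuous G := by fun_prop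
  rw [← integral_map hcont.aemeasurable hG.aestronglyMeasurable, hmap,
    integral_smul_measure, ENNReal.toReal_ofReal (abs_nonneg _)]
  simp only [G]
  rw [integral_const_mul, GaussianFourier.integral_cexp_neg_sum_mul_add hb, abs_inv,
    abs_det_frame w]
  set ζ : ℂ := I / (2 * τ) with hζ
  have hb0 : (π : ℂ) / -(2 * π * I * τ) = ζ := by
    have := Real.pi_ne_zero
    rw [hζ]
    field_simp
    rw [I_sq]
  have hb3 : (π : ℂ) / (2 * π * I * conj (τ : ℂ)) = conj ζ := by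
    have := Real.pi_ne_zero
    have : conj (τ : ℂ) ≠ 0 := by simpa using hτ0
    rw [hζ]
    simp only [map_div₀, map_mul, conj_I, map_ofNat]
    field_simp
    rw [I_sq]; norm_num
  have hζre : 0 < ζ.re := by
    rw [hζ, Complex.div_re]
    simp
    have := τ.im_pos
    have := Complex.normSq_pos.mpr hτ0
    positivity
  have hζarg : ζ.arg ≠ π := fun h => by
    rw [Complex.arg_eq_pi_iff] at h
    linarith [h.1]
  have him : τ'.im = τ.im / Complex.normSq (τ : ℂ) := by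
    have := congrArg Complex.im hτ'
    simp [Complex.inv_im] at this
    rw [this]; ring
  have hnorm : ‖ζ‖ = 1 / (2 * ‖(τ : ℂ)‖) := by rw [hζ]; simp
  rw [gK, ← hs, gStd, him, Complex.normSq_eq_norm_sq, Real.sqrt_div τ.im_pos.le,
    Real.sqrt_sq (norm_nonneg _), hτ']
  rw [Fin.prod_univ_four]
  simp only [b, c, Matrix.cons_val_zero, Matrix.cons_val_one, Matrix.cons_val]
  rw [hb0, hb3]
  have hexp : ∀ (x : ℝ), cexp ((-(4 * π * I * (x : ℂ))) ^ 2 / (4 * -(2 * π * I * τ))) =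
      cexp (2 * π * I * -(τ : ℂ)⁻¹ * (x : ℂ) ^ 2) := fun x => by
    congr 1
    have := Real.pi_ne_zero
    field_simp
    ring
  have hexp3 : cexp ((4 * π * I * (s 3 : ℂ)) ^ 2 / (4 * (2 * π * I * conj (τ : ℂ)))) =
      cexp (-(2 * π * I * conj (-(τ : ℂ)⁻¹) * (s 3 : ℂ) ^ 2)) := by
    congr 1
    have := Real.pi_ne_zero
    have : conj (τ : ℂ) ≠ 0 := by simpa using hτ0
    rw [map_neg, map_inv₀]
    field_simp
    ring
  rw [hexp, hexp, hexp, hexp3, Complex.real_smul]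
  have hexpsum : cexp (2 * π * I * -(τ : ℂ)⁻¹ * ((s 0 : ℂ) ^ 2 + (s 1 : ℂ) ^ 2 + (s 2 : ℂ) ^ 2)
      - 2 * π * I * conj (-(τ : ℂ)⁻¹) * (s 3 : ℂ) ^ 2) =
      cexp (2 * π * I * -(τ : ℂ)⁻¹ * (s 0 : ℂ) ^ 2) *
      cexp (2 * π * I * -(τ : ℂ)⁻¹ * (s 1 : ℂ) ^ 2) *
      cexp (2 * π * I * -(τ : ℂ)⁻¹ * (s 2 : ℂ) ^ 2) *
      cexp (-(2 * π * I * conj (-(τ : ℂ)⁻¹) * (s 3 : ℂ) ^ 2)) := by
    rw [← Complex.exp_add, ← Complex.exp_add, ← Complex.exp_add]; ring_nf
  rw [hexpsum]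
  have hsq : ζ ^ (1 / 2 : ℂ) * ζ ^ (1 / 2 : ℂ) * ζ ^ (1 / 2 : ℂ) * (conj ζ) ^ (1 / 2 : ℂ) =
      ζ * (1 / (2 * ‖(τ : ℂ)‖) : ℝ) := by
    rw [← hnorm, ← cpow_half_mul_conj hζarg, ← mul_assoc]
    congr 2
    rw [← sq, cpow_half_sq]
  have hs3 : (Real.sqrt 3 : ℂ) ≠ 0 := ofReal_ne_zero.mpr (by simp)
  calc _ = ((Real.sqrt 3 / 4)⁻¹ : ℝ) * (Real.sqrt τ.im : ℂ) *
        (ζ ^ (1 / 2 : ℂ) * ζ ^ (1 / 2 : ℂ) * ζ ^ (1 / 2 : ℂ) * (conj ζ) ^ (1 / 2 : ℂ)) *
        (cexp (2 * π * I * -(τ : ℂ)⁻¹ * (s 0 : ℂ) ^ 2) *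
          cexp (2 * π * I * -(τ : ℂ)⁻¹ * (s 1 : ℂ) ^ 2) *
          cexp (2 * π * I * -(τ : ℂ)⁻¹ * (s 2 : ℂ) ^ 2) *
          cexp (-(2 * π * I * conj (-(τ : ℂ)⁻¹) * (s 3 : ℂ) ^ 2))) := by ring
    _ = _ := by
      rw [hsq, hζ]
      have : (‖(τ : ℂ)‖ : ℂ) ≠ 0 := ofReal_ne_zero.mpr (norm_ne_zero_iff.mpr hτ0)
      push_cast
      field_simp
      ring

end Fermat.Agent.LT.Theta
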