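import Fermat.Agent.LT.Poisson.Lattice
import Mathlib.Data.ZMod.Basic
import Mathlib.GroupTheory.QuotientGroup.Finite
import Mathlib.Data.Fintype.EquivFin

/-!
The lattice of binary Hermitian forms over `ℤ[ω]`, its dual and the finite discriminant groups.
Coordinates `(a, d, m, n)` stand for `[[a, m + nω], [m + n ω̄, d]]`; the dual lattice is indexed
by `ℤ⁴` through the Gram matrix `gmap`.
-/

set_option autoImplicit false

noncomputable section

namespace Fermat.Agent.LT.Theta

open Poisson (eC eC_add eC_zero)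
open scoped BigOperators

/-- Integer coordinates. -/
abbrev IVec : Type := Fin 4 → ℤ

/-- The Gram matrix of the polar form. -/
def gmap : IVec →+ IVec where
  toFun z := ![-z 1, -z 0, 2 * z 2 - z 3, -z 2 + 2 * z 3]
  map_zero' := by ext i; fin_cases i <;> simp
  map_add' x y := by ext i; fin_cases i <;> simp <;> ring

/-- Three times the form on the dual lattice. -/
def q3 (k : IVec) : ℤ := k 2 ^ 2 + k 2 * k 3 + k 3 ^ 2 - 3 * (k 0 * k 1)

/-- Three times the polar form on the dual lattice. -/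
def w3 (k j : IVec) : ℤ :=
  2 * (k 2 * j 2) + k 2 * j 3 + k 3 * j 2 + 2 * (k 3 * j 3) - 3 * (k 0 * j 1 + k 1 * j 0)

/-- The form on the lattice. -/
def qL (z : IVec) : ℤ := z 2 ^ 2 - z 2 * z 3 + z 3 ^ 2 - z 0 * z 1

theorem q3_add (k j : IVec) : q3 (k + j) = q3 k + w3 k j + q3 j := by
  simp only [q3, w3, Pi.add_apply]; ring

theorem q3_smul (n : ℤ) (k : IVec) : q3 (n • k) = n ^ 2 * q3 k := by
  simp only [q3, Pi.smul_apply, smul_eq_mul]; ring

theorem q3_neg (k : IVec) : q3 (-k) = q3 k := by simp only [q3, Pi.neg_apply]; ring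

theorem w3_comm (k j : IVec) : w3 k j = w3 j k := by simp only [w3]; ring

theorem w3_smul_right (n : ℤ) (k j : IVec) : w3 k (n • j) = n * w3 k j := by
  simp only [w3, Pi.smul_apply, smul_eq_mul]; ring

theorem w3_add_right (k j l : IVec) : w3 k (j + l) = w3 k j + w3 k l := by
  simp only [w3, Pi.add_apply]; ring

theorem w3_gmap (k z : IVec) : w3 k (gmap z) = 3 * ∑ i, k i * z i := by
  simp [w3, gmap, Fin.sum_univ_four]; ring

theorem q3_gmap (z : IVec) : q3 (gmap z) = 3 * qL z := by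
  simp [q3, qL, gmap]; ring

theorem gmap_injective : Function.Injective gmap := by
  intro x y h
  have h0 := congrFun h 0
  have h1 := congrFun h 1
  have h2 := congrFun h 2
  have h3 := congrFun h 3
  simp [gmap] at h0 h1 h2 h3
  funext i
  fin_cases i <;> simp <;> omega

/-- The periods of level `N` inside the dual lattice. -/
def perLat (N : ℕ) : AddSubgroup IVec := ((N : ℤ) • gmap).range

theorem mem_perLat {N : ℕ} {k : IVec} : k ∈ perLat N ↔ ∃ z, (N : ℤ) • gmap z = k := Iff.rfl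

theorem three_mul_smul_mem_perLat (N : ℕ) (k : IVec) : (3 * (N : ℤ)) • k ∈ perLat N := by
  refine ⟨![-3 * k 1, -3 * k 0, 2 * k 2 + k 3, k 2 + 2 * k 3], ?_⟩
  ext i
  fin_cases i <;> simp [gmap] <;> ring

theorem perLat_mul_le (c N : ℕ) : perLat (c * N) ≤ perLat N := by
  rintro _ ⟨z, rfl⟩
  refine ⟨(c : ℤ) • z, ?_⟩
  simp only [AddMonoidHom.smul_apply, map_zsmul, smul_smul, Nat.cast_mul]

/-- The discriminant group of level `N`. -/
abbrev Disc (N : ℕ) : Type := IVec ⧸ perLat N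

/-- The class of a dual vector. -/
def dcls (N : ℕ) : IVec →+ Disc N := QuotientAddGroup.mk' (perLat N)

theorem dcls_surjective (N : ℕ) : Function.Surjective (dcls N) :=
  QuotientAddGroup.mk'_surjective _

theorem dcls_eq_iff {N : ℕ} {k j : IVec} : dcls N k = dcls N j ↔ ∃ z, k + (N : ℤ) • gmap z = j := by
  rw [dcls, QuotientAddGroup.mk'_eq_mk']
  constructor
  · rintro ⟨x, ⟨z, rfl⟩, h⟩
    exact ⟨z, h⟩
  · rintro ⟨z, h⟩
    exact ⟨_, ⟨z, rfl⟩, h⟩

instance finite_disc (N : ℕ) [NeZero N] : Finite (Disc N) := by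
  refine Finite.of_surjective
    (fun v : Fin 4 → Fin (3 * N) => dcls N fun i => ((v i : ℕ) : ℤ)) fun x => ?_
  obtain ⟨k, rfl⟩ := dcls_surjective N x
  have h3 : (0 : ℤ) < 3 * (N : ℤ) := by have := NeZero.pos N; positivity
  refine ⟨fun i => ⟨(k i % (3 * (N : ℤ))).toNat, ?_⟩, ?_⟩
  · have := Int.emod_lt_of_pos (k i) h3
    have := Int.emod_nonneg (k i) h3.ne'
    omega
  · rw [dcls_eq_iff]
    obtain ⟨z, hz⟩ := three_mul_smul_mem_perLat N fun i => k i / (3 * (N : ℤ))
    refine ⟨z, ?_⟩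
    rw [show (N : ℤ) • gmap z = _ from hz]
    funext i
    simp only [Pi.add_apply, Pi.smul_apply, smul_eq_mul]
    rw [Int.toNat_of_nonneg (Int.emod_nonneg _ h3.ne'), Int.emod_add_mul_ediv]

instance fintype_disc (N : ℕ) [NeZero N] : Fintype (Disc N) := Fintype.ofFinite _

/-- The reduction from level `c N` to level `N`. -/
def discRed (c N : ℕ) : Disc (c * N) →+ Disc N :=
  QuotientAddGroup.map _ _ (AddMonoidHom.id _) fun _ h => perLat_mul_le c N h

@[simp] theorem discRed_dcls (c N : ℕ) (k : IVec) : discRed c N (dcls (c * N) k) = dcls N k := rfl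

/-- The splitting of the dual lattice into classes and periods. -/
def splitEquiv (N : ℕ) [NeZero N] : Disc N × IVec ≃ IVec :=
  Equiv.ofBijective (fun p => p.1.out + (N : ℤ) • gmap p.2) <| by
    have hout : ∀ r : Disc N, dcls N r.out = r := fun r => QuotientAddGroup.out_eq' r
    constructor
    · rintro ⟨r, z⟩ ⟨r', z'⟩ h
      simp only at h
      have h1 : r = r' := by
        have e : ∀ (x : IVec) w, dcls N (x + (N : ℤ) • gmap w) = dcls N x := fun x w =>
          (dcls_eq_iff.mpr ⟨w, rfl⟩).symm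
        rw [← hout r, ← hout r', ← e r.out z, ← e r'.out z', h]
      subst h1
      have h2 := gmap_injective
        (smul_right_injective IVec (Nat.cast_ne_zero.mpr (NeZero.ne N)) (add_left_cancel h))
      rw [h2]
    · intro k
      obtain ⟨z, hz⟩ := dcls_eq_iff.mp (hout (dcls N k))
      exact ⟨(dcls N k, z), hz⟩

theorem dcls_splitEquiv (N : ℕ) [NeZero N] (p : Disc N × IVec) :
    dcls N (splitEquiv N p) = p.1 := by
  rw [show p.1 = dcls N p.1.out from (QuotientAddGroup.out_eq' p.1).symm]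
  exact (dcls_eq_iff.mpr ⟨p.2, rfl⟩).symm

/-- `exp (2 π i n / D)`. -/
def ez (D : ℕ) (n : ℤ) : ℂ := eC ((n : ℝ) / D)

theorem eC_int (n : ℤ) : eC (n : ℝ) = 1 := by
  rw [eC, Complex.exp_eq_one_iff]
  exact ⟨n, by push_cast; ring⟩

theorem ez_add (D : ℕ) (m n : ℤ) : ez D (m + n) = ez D m * ez D n := by
  rw [ez, ez, ez, ← eC_add]; push_cast; ring_nf

@[simp] theorem ez_zero (D : ℕ) : ez D 0 = 1 := by simp [ez]

theorem ez_eq_of_dvd {D : ℕ} [NeZero D] {m n : ℤ} (h : (D : ℤ) ∣ m - n) : ez D m = ez D n := by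
  obtain ⟨t, ht⟩ := h
  rw [show m = n + D * t by linarith, ez_add]
  unfold ez
  rw [show (((D : ℤ) * t : ℤ) : ℝ) / D = (t : ℝ) by
    have : (D : ℝ) ≠ 0 := Nat.cast_ne_zero.mpr (NeZero.ne D)
    push_cast; field_simp, eC_int, mul_one]

theorem ez_eq_one_iff {D : ℕ} [NeZero D] {n : ℤ} : ez D n = 1 ↔ (D : ℤ) ∣ n := by
  constructor
  · intro h
    rw [ez, eC, Complex.exp_eq_one_iff] at h
    obtain ⟨t, ht⟩ := h
    refine ⟨t, ?_⟩
    have h1 : ((n : ℝ) / D : ℝ) = t := by
      have h2 : ((((n : ℝ) / D : ℝ)) : ℂ) = ((t : ℝ) : ℂ) :=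
        mul_left_cancel₀ Complex.two_pi_I_ne_zero (by linear_combination ht)
      exact_mod_cast h2
    rw [div_eq_iff (Nat.cast_ne_zero.mpr (NeZero.ne D)), mul_comm] at h1
    exact_mod_cast h1
  · intro h
    rw [ez_eq_of_dvd (n := 0) (by simpa using h), ez_zero]

theorem ez_mul_left (D D' : ℕ) [NeZero D'] (n : ℤ) : ez (D' * D) (D' * n) = ez D n := by
  have : (D' : ℝ) ≠ 0 := Nat.cast_ne_zero.mpr (NeZero.ne D')
  rw [ez, ez]
  push_cast
  rw [mul_div_mul_left _ _ this]

end Fermat.Agent.LT.Theta
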