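import Fermat.Agent.LT.Theta.Congruence

/-!
Weights that are trivial at `3` (supported on `(1/M) L`): invariance under `Γ(M²) ∩ Γ₁(3)` and the
diamond formula after rescaling.
-/

set_option autoImplicit false

noncomputable section

namespace Fermat.Agent.LT.Theta

open Adelic (HSpace)
open UpperHalfPlane hiding I
open scoped MatrixGroups ModularForm

variable (M : ℕ) [NeZero M]

/-- `φ` is supported on the image of the lattice. -/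
def IsTrivialAtThree (φ : Disc (M ^ 2) → ℂ) : Prop :=
  ∀ k : IVec, φ (dcls (M ^ 2) k) ≠ 0 → 3 ∣ q3 k

theorem translWeight_eq_self {φ : Disc (M ^ 2) → ℂ} (hφ : IsTrivialAtThree M φ) {n : ℤ}
    (hn : ((M ^ 2 : ℕ) : ℤ) ∣ n) : translWeight M n φ = φ := by
  funext r
  by_cases h : φ r = 0
  · rw [translWeight, h, mul_zero]
  · have h3 : 3 ∣ q3 r.out := hφ r.out (by rwa [dcls_out])
    have : NeZero (3 * M ^ 2) := ⟨by simp [NeZero.ne M]⟩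
    rw [translWeight, ez_eq_one_iff.mpr, one_mul]
    obtain ⟨t, rfl⟩ := hn
    obtain ⟨u, hu⟩ := h3
    exact ⟨t * u, by rw [hu]; push_cast; ring⟩

theorem thetaFun_slash_T_zpow_of_trivialAtThree {φ : Disc (M ^ 2) → ℂ}
    (hφ : IsTrivialAtThree M φ) {n : ℤ} (hn : ((M ^ 2 : ℕ) : ℤ) ∣ n) (w : HSpace) :
    thetaFun M φ w ∣[(1 : ℤ)] (ModularGroup.T ^ n) = thetaFun M φ w := by
  rw [thetaFun_slash_T_zpow, translWeight_eq_self M hφ hn]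

/-- The action of the elements with `c ≡ 0 (mod 3 M²)`, `b ≡ 0 (mod M²)`, for weights trivial
at `3`. -/
theorem thetaFun_slash_of_trivialAtThree {φ : Disc (M ^ 2) → ℂ} (hφ : IsTrivialAtThree M φ)
    (γ : SL(2, ℤ)) (hbN : ((M ^ 2 : ℕ) : ℤ) ∣ γ 0 1)
    (hcN : (3 * (M ^ 2 : ℕ) : ℤ) ∣ γ 1 0) (s : ℤ) (hs : s = 1 ∨ s = -1)
    (hd3 : (3 : ℤ) ∣ γ 1 1 - s) (w : HSpace) :
    thetaFun M φ w ∣[(1 : ℤ)] γ = (s : ℂ) • thetaFun M (fun r => φ (γ 1 1 • r)) w := by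
  obtain ⟨b', hb'⟩ := hbN
  set n : ℤ := -((M ^ 2 : ℕ) : ℤ) * b' * s with hn
  set γ' : SL(2, ℤ) := ModularGroup.T ^ n * γ with hγ'
  have hγe : γ = ModularGroup.T ^ (-n) * γ' := by
    rw [hγ', zpow_neg, inv_mul_cancel_left]
  have h01 : γ' 0 1 = γ 0 1 + n * γ 1 1 := by
    rw [hγ', Matrix.SpecialLinearGroup.coe_mul, ModularGroup.coe_T_zpow]
    simp [Matrix.mul_apply, Fin.sum_univ_two]
  have h10 : γ' 1 0 = γ 1 0 := by
    rw [hγ', Matrix.SpecialLinearGroup.coe_mul, ModularGroup.coe_T_zpow]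
    simp [Matrix.mul_apply, Fin.sum_univ_two]
  have h11 : γ' 1 1 = γ 1 1 := by
    rw [hγ', Matrix.SpecialLinearGroup.coe_mul, ModularGroup.coe_T_zpow]
    simp [Matrix.mul_apply, Fin.sum_univ_two]
  have hbN' : (3 * (M ^ 2 : ℕ) : ℤ) ∣ γ' 0 1 := by
    obtain ⟨u, hu⟩ := hd3
    refine ⟨-(b' * s * u), ?_⟩
    rw [h01, hb', hn, show γ 1 1 = s + 3 * u by linarith]
    rcases hs with rfl | rfl <;> ring
  have hT : thetaFun M φ w ∣[(1 : ℤ)] (ModularGroup.T ^ (-n)) = thetaFun M φ w :=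
    thetaFun_slash_T_zpow_of_trivialAtThree M hφ
      ((dvd_neg).mpr ⟨-b' * s, by rw [hn]; ring⟩) w
  rw [hγe, SlashAction.slash_mul, hT,
    thetaFun_slash_of_dvd M φ γ' hbN' (by rwa [h10]) s hs (by rwa [h11]) w, h11, ← hγe]

/-- Invariance under `Γ(M²) ∩ Γ₁(3)`. -/
theorem thetaFun_slash_eq_self {φ : Disc (M ^ 2) → ℂ} (hφ : IsTrivialAtThree M φ) (γ : SL(2, ℤ))
    (hbN : ((M ^ 2 : ℕ) : ℤ) ∣ γ 0 1) (hcN : (3 * (M ^ 2 : ℕ) : ℤ) ∣ γ 1 0)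
    (hdN : (3 * (M ^ 2 : ℕ) : ℤ) ∣ γ 1 1 - 1) (w : HSpace) :
    thetaFun M φ w ∣[(1 : ℤ)] γ = thetaFun M φ w := by
  rw [thetaFun_slash_of_trivialAtThree M hφ γ hbN hcN 1 (Or.inl rfl)
    ((dvd_mul_right (3 : ℤ) _).trans hdN) w, Int.cast_one, one_smul]
  simp only [zsmul_disc_eq_self M hdN]

end Fermat.Agent.LT.Theta
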