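import Fermat.Agent.LT.Theta.Unfold
import Fermat.Agent.LT.Adelic.HypMeasure
import Fermat.Agent.LT.Aleph.Horospherical
import Mathlib.Analysis.SpecialFunctions.JapaneseBracket
import Mathlib.Analysis.SpecialFunctions.Gamma.Basic
import Mathlib.MeasureTheory.Integral.Prod

/-!
`r K₀(4π |α| r) e(2 Re (α z))` is an eigenfunction of all point-pair operators with parameter `0`:
it is the limit `s → 0` of the Fourier transforms in `ξ` of the Poisson kernels
`(r / (|z - ξ|² + r²)) ^ (1 + s)`, which are translates of `r ^ (1 + s)`.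
-/

set_option autoImplicit false

noncomputable section

namespace Fermat.Agent.LT.Theta

open MeasureTheory Complex Adelic Filter
open Poisson (eC)
open scoped Real Topology

/-! ### Integrals against a compactly supported kernel -/

/-- The box carrying a kernel. -/
def kernelBox (z₀ : ℂ) (R a b : ℝ) : Set HSpace :=
  {τ | τ.z ∈ Metric.closedBall z₀ R ∧ τ.r ∈ Set.Icc a b}

theorem isCompact_kernelBox (z₀ : ℂ) (R b : ℝ) {a : ℝ} (ha : 0 < a) :
    IsCompact (kernelBox z₀ R a b) := by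
  rw [HSpace.isOpenEmbedding_coords.isEmbedding.isCompact_iff]
  have : HSpace.coords '' kernelBox z₀ R a b = Metric.closedBall z₀ R ×ˢ Set.Icc a b := by
    ext x
    constructor
    · rintro ⟨τ, hτ, rfl⟩
      exact ⟨hτ.1, hτ.2⟩
    · intro hx
      exact ⟨⟨x.1, x.2, lt_of_lt_of_le ha hx.2.1⟩, hx, rfl⟩
  rw [this]
  exact (isCompact_closedBall _ _).prod isCompact_Icc

theorem measurableSet_kernelBox (z₀ : ℂ) (R b : ℝ) {a : ℝ} :
    MeasurableSet (kernelBox z₀ R a b) :=
  (HSpace.continuous_z.measurable measurableSet_closedBall).inter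
    (HSpace.continuous_r.measurable measurableSet_Icc)

theorem measure_kernelBox_lt_top (z₀ : ℂ) (R b : ℝ) {a : ℝ} (ha : 0 < a) :
    HSpace.measure (kernelBox z₀ R a b) < ⊤ := by
  rw [HSpace.measure_apply_set (measurableSet_kernelBox z₀ R b)]
  have hsub : HSpace.coords '' kernelBox z₀ R a b ⊆ Metric.closedBall z₀ R ×ˢ Set.Icc a b :=
    Set.image_subset_iff.mpr fun τ hτ => ⟨hτ.1, hτ.2⟩
  refine (lintegral_mono_set hsub).trans_lt ?_
  refine (setLIntegral_lt_top_of_le_nnreal
    ((isCompact_closedBall _ _).prod isCompact_Icc).measure_lt_top.ne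
    ⟨((a ^ 3)⁻¹).toNNReal, fun x hx => ?_⟩)
  rw [HSpace.dens]
  exact ENNReal.coe_le_coe.mpr (Real.toNNReal_le_toNNReal
    (inv_anti₀ (pow_pos ha 3) (pow_le_pow_left₀ ha.le hx.2.1 3)))

theorem continuous_coshDist (p : HSpace) : Continuous fun τ => HSpace.coshDist p τ := by
  unfold HSpace.coshDist
  refine Continuous.div ?_ ?_ fun τ => by have := p.r_pos; have := τ.r_pos; positivity
  · have := HSpace.continuous_z; have := HSpace.continuous_r
    fun_prop
  · have := HSpace.continuous_r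
    fun_prop

theorem exists_kernelBox {k : ℝ → ℂ} (hc : HasCompactSupport k) (p : HSpace) :
    ∃ a b R : ℝ, 0 < a ∧ ∀ τ, k (HSpace.coshDist p τ) ≠ 0 → τ ∈ kernelBox p.z R a b := by
  obtain ⟨a, b, R, ha, h⟩ := Aleph.exists_support_box k hc p.r_pos p.z
  exact ⟨a, b, R, ha, fun τ hτ => h τ.z τ.r τ.r_pos hτ⟩

theorem integrable_kernel_mul {k : ℝ → ℂ} (hk : Continuous k) (hc : HasCompactSupport k)
    (p : HSpace) {f : HSpace → ℂ} (hf : Continuous f) :
    Integrable (fun τ => k (HSpace.coshDist p τ) * f τ) HSpace.measure := by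
  obtain ⟨a, b, R, ha, h⟩ := exists_kernelBox hc p
  obtain ⟨C, hC⟩ := (isCompact_kernelBox p.z R b ha).exists_bound_of_continuousOn
    ((hk.comp (continuous_coshDist p)).mul hf).continuousOn
  refine IntegrableOn.integrable_of_forall_notMem_eq_zero (s := kernelBox p.z R a b) ?_
    fun τ hτ => ?_
  · exact IntegrableOn.of_bound (measure_kernelBox_lt_top _ _ _ ha)
      ((hk.comp (continuous_coshDist p)).mul hf).aestronglyMeasurable C
      ((ae_restrict_iff' (measurableSet_kernelBox _ _ _)).mpr (Eventually.of_forall hC))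
  · by_contra hne
    exact hτ (h τ fun h0 => hne (by rw [h0, zero_mul]))

theorem integral_comp_smul (g : GL (Fin 2) ℂ) (F : HSpace → ℂ) :
    ∫ τ, F (g • τ) ∂HSpace.measure = ∫ τ, F τ ∂HSpace.measure :=
  (HSpace.measurePreserving_const_smul g).integral_comp
    (MeasurableEquiv.smul g).measurableEmbedding F

/-! ### Translates of `r ^ (1 + s)` -/

/-- The Poisson kernel. -/
def poissonKer (s : ℝ) (ξ : ℂ) (τ : HSpace) : ℝ :=
  (τ.r / (Complex.normSq (τ.z - ξ) + τ.r ^ 2)) ^ (1 + s)

theorem poissonKer_eq (s : ℝ) (ξ : ℂ) (τ : HSpace) :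
    poissonKer s ξ τ = ((weyl * unipotent (-ξ) : GL (Fin 2) ℂ) • τ).r ^ (1 + s) := by
  rw [mul_smul, weyl_smul_r, Poisson.invR, poissonKer]
  simp [HSpace.smul_r, HSpace.smul_z, HSpace.absDet, HSpace.denSq, sub_eq_add_neg]

theorem continuous_poissonKer (s : ℝ) (ξ : ℂ) : Continuous fun τ => poissonKer s ξ τ := by
  simp only [poissonKer_eq]
  exact (HSpace.continuous_r.comp (HSpace.continuous_smul_const _)).rpow_const
    fun τ => Or.inl (HSpace.r_pos _).ne'

theorem sphTransform_ofReal (k : ℝ → ℂ) (s : ℝ) :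
    sphTransform k (s : ℂ) =
      ∫ τ, k (HSpace.coshDist HSpace.base τ) * ((τ.r ^ (1 + s) : ℝ) : ℂ) ∂HSpace.measure := by
  rw [sphTransform]
  refine integral_congr_ae (Eventually.of_forall fun τ => ?_)
  simp [Complex.ofReal_cpow τ.r_pos.le]

theorem integral_pointPair_rpow (k : ℝ → ℂ) (s : ℝ) (p : HSpace) :
    ∫ τ, k (HSpace.coshDist p τ) * ((τ.r ^ (1 + s) : ℝ) : ℂ) ∂HSpace.measure =
      sphTransform k (s : ℂ) * ((p.r ^ (1 + s) : ℝ) : ℂ) := by
  set g : GL (Fin 2) ℂ :=
    unipotent p.z * diag2 (Units.mk0 (p.r : ℂ) (ofReal_ne_zero.mpr p.r_pos.ne')) 1 with hg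
  have hr : ∀ τ : HSpace, (g • τ).r = p.r * τ.r := fun τ => by
    simp [hg, mul_smul, HSpace.smul_r, HSpace.absDet, HSpace.denSq, Matrix.det_fin_two,
      abs_of_pos p.r_pos]
  have hgb : g • HSpace.base = p := by
    refine HSpace.ext ?_ ?_
    · simp [hg, mul_smul, HSpace.smul_z, HSpace.smul_r, HSpace.denSq, HSpace.base]
    · simp [hr, HSpace.base]
  rw [← integral_comp_smul g, sphTransform_ofReal, ← integral_mul_const]
  refine integral_congr_ae (Eventually.of_forall fun τ => ?_)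
  show k (HSpace.coshDist p (g • τ)) * _ = _
  conv_lhs => rw [← hgb, HSpace.coshDist_smul, hr, Real.mul_rpow p.r_pos.le τ.r_pos.le]
  push_cast
  ring

theorem integral_pointPair_poissonKer (k : ℝ → ℂ) (s : ℝ) (ξ : ℂ) (p : HSpace) :
    ∫ τ, k (HSpace.coshDist p τ) * (poissonKer s ξ τ : ℂ) ∂HSpace.measure =
      sphTransform k (s : ℂ) * (poissonKer s ξ p : ℂ) := by
  set g : GL (Fin 2) ℂ := weyl * unipotent (-ξ) with hg
  have h : ∀ τ, k (HSpace.coshDist p τ) * (poissonKer s ξ τ : ℂ) =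
      (fun σ => k (HSpace.coshDist (g • p) σ) * ((σ.r ^ (1 + s) : ℝ) : ℂ)) (g • τ) := fun τ => by
    simp only [HSpace.coshDist_smul, poissonKer_eq, ← hg]
  rw [integral_congr_ae (Eventually.of_forall h),
    integral_comp_smul g (fun σ => k (HSpace.coshDist (g • p) σ) * ((σ.r ^ (1 + s) : ℝ) : ℂ)),
    integral_pointPair_rpow, poissonKer_eq]

/-! ### The Fourier transform of the Poisson kernel -/

/-- `∫ exp (-x cosh v + s v) dv = 2 K_s(x)`. -/
def whitS (s x : ℝ) : ℝ := ∫ v : ℝ, Real.exp (-(x * Real.cosh v) + s * v)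

theorem whitS_zero (x : ℝ) : whitS 0 x = 2 * besselK0 x := by
  rw [← integral_exp_neg_mul_cosh, whitS]
  simp

theorem exp_whitS_le {s x x₀ : ℝ} (hs : |s| ≤ 1) (hx₀ : 0 < x₀) (hx : x₀ ≤ x) (v : ℝ) :
    Real.exp (-(x * Real.cosh v) + s * v) ≤
      Real.exp (x₀⁻¹) * Real.exp (-(x₀ / 4) * v ^ 2) := by
  rw [← Real.exp_add, Real.exp_le_exp]
  have h1 : x₀ * (1 + v ^ 2 / 2) ≤ x * Real.cosh v :=
    mul_le_mul hx (one_add_sq_div_two_le_cosh v) (by positivity) (hx₀.le.trans hx)
  have h2 : s * v ≤ |v| := by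
    calc s * v ≤ |s * v| := le_abs_self _
      _ = |s| * |v| := abs_mul _ _
      _ ≤ 1 * |v| := mul_le_mul_of_nonneg_right hs (abs_nonneg _)
      _ = |v| := one_mul _
  have h3 : |v| ≤ x₀ / 4 * v ^ 2 + x₀⁻¹ := by
    have h4 : (x₀ / 4 * v ^ 2 + x₀⁻¹) - |v| = (x₀ * |v| / 2 - 1) ^ 2 / x₀ := by
      rw [← sq_abs v]
      field_simp
      ring
    have h5 : (0 : ℝ) ≤ (x₀ * |v| / 2 - 1) ^ 2 / x₀ := by positivity
    linarith
  nlinarith

theorem integrable_whitS_bound {x₀ : ℝ} (hx₀ : 0 < x₀) :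
    Integrable fun v : ℝ => Real.exp (x₀⁻¹) * Real.exp (-(x₀ / 4) * v ^ 2) :=
  (integrable_exp_neg_mul_sq (by positivity)).const_mul _

theorem norm_whitS_le {s x x₀ : ℝ} (hs : |s| ≤ 1) (hx₀ : 0 < x₀) (hx : x₀ ≤ x) :
    ‖whitS s x‖ ≤ ∫ v : ℝ, Real.exp (x₀⁻¹) * Real.exp (-(x₀ / 4) * v ^ 2) :=
  norm_integral_le_of_norm_le (integrable_whitS_bound hx₀) (Eventually.of_forall fun v => by
    rw [Real.norm_eq_abs, Real.abs_exp]; exact exp_whitS_le hs hx₀ hx v)

theorem tendsto_whitS {x : ℝ} (hx : 0 < x) :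
    Tendsto (fun s => whitS s x) (𝓝[>] 0) (𝓝 (2 * besselK0 x)) := by
  rw [← whitS_zero]
  have hev : ∀ᶠ s in 𝓝[>] (0 : ℝ), |s| ≤ 1 := by
    filter_upwards [Ioo_mem_nhdsGT (show (0 : ℝ) < 1 from one_pos)] with s hs
    rw [abs_of_pos hs.1]; exact hs.2.le
  refine tendsto_integral_filter_of_dominated_convergence _
    (Eventually.of_forall fun s => (by fun_prop : Continuous fun v : ℝ =>
      Real.exp (-(x * Real.cosh v) + s * v)).aestronglyMeasurable)
    (hev.mono fun s hs => Eventually.of_forall fun v => by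
      rw [Real.norm_eq_abs, Real.abs_exp]; exact exp_whitS_le hs hx le_rfl v)
    (integrable_whitS_bound hx) (Eventually.of_forall fun v => ?_)
  exact ((by fun_prop : Continuous fun s : ℝ =>
    Real.exp (-(x * Real.cosh v) + s * v)).tendsto 0).mono_left nhdsWithin_le_nhds

theorem integral_eC_gauss (a : ℂ) {t : ℝ} (ht : 0 < t) :
    ∫ u : ℂ, eC (-(2 * (a * u).re)) * ((Real.exp (-(t * ‖u‖ ^ 2)) : ℝ) : ℂ) =
      ((π / t * Real.exp (-(4 * π ^ 2 * ‖a‖ ^ 2 / t)) : ℝ) : ℂ) := by
  have hb : 0 < t / (2 * π) := by positivity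
  have h := Poisson.integral_gaussC 0 hb a
  simp only [Poisson.gaussC, map_zero, neg_zero, zero_div, zero_mul, zero_re, Poisson.eC_zero,
    mul_one, zero_add, Real.sqrt_sq hb.le, ← ofReal_mul] at h
  convert h using 1
  · refine integral_congr_ae (Eventually.of_forall fun u => ?_)
    simp only
    congr 3
    field_simp
  · congr 1
    rw [show (2 * (t / (2 * π)))⁻¹ = π / t by field_simp]
    congr 2
    field_simp
    ring

theorem integral_rpow_mul_exp_neg {s A : ℝ} (hs : 0 < s) (hA : 0 < A) :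
    ∫ t in Set.Ioi (0 : ℝ), t ^ s * Real.exp (-(A * t)) =
      Real.Gamma (1 + s) * A ^ (-(1 + s)) := by
  have h := Real.integral_rpow_mul_exp_neg_mul_Ioi (a := 1 + s) (by linarith) hA
  rw [add_sub_cancel_left] at h
  rw [h, one_div, Real.inv_rpow hA.le, ← Real.rpow_neg hA.le, mul_comm]

theorem integrable_norm_sq_add_rpow {s r : ℝ} (hs : 0 < s) (hr : 0 < r) :
    Integrable fun u : ℂ => (‖u‖ ^ 2 + r ^ 2) ^ (-(1 + s)) := by
  have h0 := integrable_rpow_neg_one_add_norm_sq (E := ℂ) (μ := volume) (r := 2 * (1 + s))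
    (by rw [Complex.finrank_real_complex]; push_cast; linarith)
  set c := min 1 (r ^ 2) with hc
  have hc0 : 0 < c := lt_min one_pos (pow_pos hr 2)
  refine (h0.const_mul (c ^ (-(1 + s)))).mono' ?_ (Eventually.of_forall fun u => ?_)
  · exact ((continuous_norm.pow 2).add continuous_const).rpow_const (fun u => Or.inl
      (add_pos_of_nonneg_of_pos (sq_nonneg _) (pow_pos hr 2)).ne') |>.aestronglyMeasurable
  · rw [Real.norm_eq_abs, abs_of_nonneg (by positivity),
      show -(2 * (1 + s)) / 2 = -(1 + s) by ring, ← Real.mul_rpow hc0.le (by positivity)]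
    refine Real.rpow_le_rpow_of_nonpos (by positivity) ?_ (by linarith)
    nlinarith [min_le_left 1 (r ^ 2), min_le_right 1 (r ^ 2), sq_nonneg ‖u‖]

/-- The Fourier transform of `(|u|² + r²) ^ (-(1 + s))`. -/
theorem fourier_norm_sq_add_rpow {s r : ℝ} (hs : 0 < s) (hr : 0 < r) {α : ℂ} (hα : α ≠ 0) :
    ∫ u : ℂ, eC (2 * (α * u).re) * (((‖u‖ ^ 2 + r ^ 2) ^ (-(1 + s)) : ℝ) : ℂ) =
      ((π / Real.Gamma (1 + s) * ((2 * π * ‖α‖ / r) ^ s * whitS s (4 * π * ‖α‖ * r)) : ℝ) : ℂ) := by
  have hΓ : 0 < Real.Gamma (1 + s) := Real.Gamma_pos_of_pos (by linarith)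
  set F : ℂ → ℝ → ℂ := fun u t => eC (2 * (α * u).re) *
    ((t ^ s * Real.exp (-((‖u‖ ^ 2 + r ^ 2) * t)) : ℝ) : ℂ) with hF
  have hmeas : AEStronglyMeasurable (Function.uncurry F)
      ((volume : Measure ℂ).prod (volume.restrict (Set.Ioi (0 : ℝ)))) := by
    refine Continuous.aestronglyMeasurable ?_
    simp only [hF, Function.uncurry_def, eC]
    exact (by fun_prop : Continuous fun q : ℂ × ℝ =>
      Complex.exp (2 * π * Complex.I * ((2 * (α * q.1).re : ℝ) : ℂ))).mul
      (continuous_ofReal.comp ((continuous_snd.rpow_const fun q => Or.inr hs.le).mul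
        (by fun_prop)))
  have hnorm : ∀ u, ∫ t in Set.Ioi (0 : ℝ), ‖F u t‖ =
      Real.Gamma (1 + s) * (‖u‖ ^ 2 + r ^ 2) ^ (-(1 + s)) := fun u => by
    rw [← integral_rpow_mul_exp_neg hs (by positivity)]
    refine setIntegral_congr_fun measurableSet_Ioi fun t ht => ?_
    simp only [hF, norm_mul, Poisson.norm_eC, one_mul, norm_real, Real.norm_eq_abs]
    have ht : 0 < t := ht
    rw [abs_of_nonneg (Real.rpow_nonneg ht.le _), Real.abs_exp]
  have hFint : ∀ u, IntegrableOn (F u) (Set.Ioi 0) := fun u => by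
    have h : IntegrableOn (fun t : ℝ => t ^ s * Real.exp (-((‖u‖ ^ 2 + r ^ 2) * t))) (Set.Ioi 0) :=
      Integrable.of_integral_ne_zero (by
        rw [integral_rpow_mul_exp_neg hs (by positivity)]
        positivity)
    exact (h.ofReal (𝕜 := ℂ)).const_mul _
  have hint : Integrable (Function.uncurry F)
      ((volume : Measure ℂ).prod (volume.restrict (Set.Ioi (0 : ℝ)))) := by
    refine (integrable_prod_iff hmeas).mpr ⟨Eventually.of_forall hFint, ?_⟩
    simp only [Function.uncurry_apply_pair, hnorm]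
    exact (integrable_norm_sq_add_rpow hs hr).const_mul _
  have hinner : ∀ u, ∫ t in Set.Ioi (0 : ℝ), F u t = (Real.Gamma (1 + s) : ℂ) *
      (eC (2 * (α * u).re) * (((‖u‖ ^ 2 + r ^ 2) ^ (-(1 + s)) : ℝ) : ℂ)) := fun u => by
    simp only [hF]
    rw [integral_const_mul, integral_complex_ofReal,
      integral_rpow_mul_exp_neg hs (by positivity)]
    push_cast
    ring
  have houter : ∀ t ∈ Set.Ioi (0 : ℝ), ∫ u, F u t =
      ((π * (t ^ (s - 1) * Real.exp (-(r ^ 2 * t + 4 * π ^ 2 * ‖α‖ ^ 2 / t))) : ℝ) : ℂ) := by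
    intro t ht
    have ht : 0 < t := ht
    have e : ∀ u, F u t = ((t ^ s * Real.exp (-(r ^ 2 * t)) : ℝ) : ℂ) *
        (eC (-(2 * (-α * u).re)) * ((Real.exp (-(t * ‖u‖ ^ 2)) : ℝ) : ℂ)) := fun u => by
      simp only [hF, neg_mul, neg_re, mul_neg, neg_neg]
      rw [show -((‖u‖ ^ 2 + r ^ 2) * t) = -(r ^ 2 * t) + -(t * ‖u‖ ^ 2) by ring, Real.exp_add]
      push_cast
      ring
    simp only [e]
    rw [integral_const_mul, integral_eC_gauss _ ht, ← ofReal_mul, norm_neg]
    congr 1
    rw [neg_add, Real.exp_add, Real.rpow_sub ht, Real.rpow_one]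
    ring
  have key := integral_integral_swap hint
  simp only [hinner] at key
  rw [integral_const_mul, setIntegral_congr_fun measurableSet_Ioi houter, integral_complex_ofReal,
    integral_const_mul] at key
  have hsub : ∫ t in Set.Ioi (0 : ℝ), t ^ (s - 1) *
      Real.exp (-(r ^ 2 * t + 4 * π ^ 2 * ‖α‖ ^ 2 / t)) =
      (2 * π * ‖α‖ / r) ^ s * whitS s (4 * π * ‖α‖ * r) := by
    set c := 2 * π * ‖α‖ / r with hc
    have hc0 : 0 < c := by have := norm_pos_iff.mpr hα; positivity
    have himg : (fun v => c * Real.exp v) '' Set.univ = Set.Ioi 0 := by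
      ext t
      simp only [Set.image_univ, Set.mem_range, Set.mem_Ioi]
      constructor
      · rintro ⟨v, rfl⟩; positivity
      · intro ht; exact ⟨Real.log (t / c), by rw [Real.exp_log (by positivity)]; field_simp⟩
    rw [← himg, integral_image_eq_integral_abs_deriv_smul MeasurableSet.univ
      (fun v _ => ((Real.hasDerivAt_exp v).const_mul c).hasDerivWithinAt)
      (fun v _ v' _ h => Real.exp_injective (mul_left_cancel₀ hc0.ne' h)), setIntegral_univ,
      whitS, ← integral_const_mul]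
    refine integral_congr_ae (Eventually.of_forall fun v => ?_)
    simp only [smul_eq_mul]
    rw [abs_of_pos (by positivity), Real.rpow_sub (by positivity), Real.rpow_one,
      Real.mul_rpow hc0.le (Real.exp_pos v).le, ← Real.exp_mul, Real.cosh_eq, Real.exp_add,
      show -(r ^ 2 * (c * Real.exp v) + 4 * π ^ 2 * ‖α‖ ^ 2 / (c * Real.exp v)) =
        -(4 * π * ‖α‖ * r * ((Real.exp v + Real.exp (-v)) / 2)) by
        rw [hc, Real.exp_neg]
        field_simp
        ring]
    have : Real.exp v ≠ 0 := Real.exp_ne_zero v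
    field_simp
  rw [hsub] at key
  refine mul_left_cancel₀ (ofReal_ne_zero.mpr hΓ.ne') (key.trans ?_)
  rw [← ofReal_mul]
  congr 1
  field_simp

/-! ### The eigenfunction -/

/-- `r K₀(4π |α| r) e(2 Re (α z))`. -/
def whitOne (α : ℂ) (τ : HSpace) : ℂ :=
  ((τ.r * besselK0 (4 * π * ‖α‖ * τ.r) : ℝ) : ℂ) * eC (2 * (α * τ.z).re)

/-- The approximation with parameter `s`. -/
def whitOneS (s : ℝ) (α : ℂ) (τ : HSpace) : ℂ :=
  ((τ.r * whitS s (4 * π * ‖α‖ * τ.r) : ℝ) : ℂ) * eC (2 * (α * τ.z).re)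

/-- The constant relating the Fourier transform and `whitOneS`. -/
def whitNorm (s : ℝ) (α : ℂ) : ℝ := π / Real.Gamma (1 + s) * (2 * π * ‖α‖) ^ s

theorem fourier_poissonKer {s : ℝ} (hs : 0 < s) {α : ℂ} (hα : α ≠ 0) (τ : HSpace) :
    ∫ ξ : ℂ, eC (2 * (α * ξ).re) * (poissonKer s ξ τ : ℂ) =
      (whitNorm s α : ℂ) * whitOneS s α τ := by
  rw [← integral_add_left_eq_self (fun ξ : ℂ => eC (2 * (α * ξ).re) * (poissonKer s ξ τ : ℂ))
    τ.z]
  have h : ∀ u : ℂ, eC (2 * (α * (τ.z + u)).re) * (poissonKer s (τ.z + u) τ : ℂ) =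
      (eC (2 * (α * τ.z).re) * ((τ.r ^ (1 + s) : ℝ) : ℂ)) *
        (eC (2 * (α * u).re) * (((‖u‖ ^ 2 + τ.r ^ 2) ^ (-(1 + s)) : ℝ) : ℂ)) := fun u => by
    rw [mul_add α, add_re, mul_add 2, Poisson.eC_add, poissonKer, sub_add_cancel_left,
      Complex.normSq_neg, Complex.normSq_eq_norm_sq, Real.div_rpow τ.r_pos.le (by positivity),
      Real.rpow_neg (by positivity), div_eq_mul_inv, ofReal_mul]
    ring
  simp only [h]
  rw [integral_const_mul, fourier_norm_sq_add_rpow hs τ.r_pos hα, whitNorm, whitOneS]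
  have e : τ.r ^ (1 + s) * (π / Real.Gamma (1 + s) *
      ((2 * π * ‖α‖ / τ.r) ^ s * whitS s (4 * π * ‖α‖ * τ.r))) =
      π / Real.Gamma (1 + s) * (2 * π * ‖α‖) ^ s * (τ.r * whitS s (4 * π * ‖α‖ * τ.r)) := by
    rw [Real.div_rpow (by positivity) τ.r_pos.le, Real.rpow_add τ.r_pos, Real.rpow_one]
    have := Real.rpow_pos_of_pos τ.r_pos s
    field_simp
  rw [mul_assoc, ← ofReal_mul, e]
  push_cast
  ring

theorem integrable_prod_kernel {k : ℝ → ℂ} (hk : Continuous k) (hc : HasCompactSupport k)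
    {s : ℝ} (hs : 0 < s) (α : ℂ) (p : HSpace) :
    Integrable (Function.uncurry fun τ ξ =>
      k (HSpace.coshDist p τ) * (eC (2 * (α * ξ).re) * (poissonKer s ξ τ : ℂ)))
      (HSpace.measure.prod volume) := by
  obtain ⟨a, b, R, ha, hbox⟩ := exists_kernelBox hc p
  obtain ⟨M, hM⟩ := hc.exists_bound_of_continuous hk
  set R₁ := |R| + ‖p.z‖ with hR₁
  set C := max 2 ((1 + 2 * R₁ ^ 2) / a ^ 2) with hC
  have hC0 : 0 < C := lt_of_lt_of_le two_pos (le_max_left _ _)
  set g : ℂ → ℝ := fun ξ => (|b| * C) ^ (1 + s) * ((1 : ℝ) + ‖ξ‖ ^ 2) ^ (-(1 + s)) with hg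
  have hgi : Integrable g := by
    have h0 := integrable_rpow_neg_one_add_norm_sq (E := ℂ) (μ := volume) (r := 2 * (1 + s))
      (by rw [Complex.finrank_real_complex]; push_cast; linarith)
    simpa [hg, show -(2 * (1 + s)) / 2 = -(1 + s) by ring] using h0.const_mul _
  have hind : Integrable ((kernelBox p.z R a b).indicator fun _ => |M|) HSpace.measure :=
    (integrable_indicator_iff (measurableSet_kernelBox _ _ _)).mpr
      (integrableOn_const (measure_kernelBox_lt_top _ _ _ ha).ne)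
  refine (hind.mul_prod hgi).mono' ?_ (Eventually.of_forall fun q => ?_)
  · refine Continuous.aestronglyMeasurable ?_
    simp only [Function.uncurry_def, eC]
    refine ((hk.comp ((continuous_coshDist p).comp continuous_fst)).mul
      ((by fun_prop : Continuous fun q : HSpace × ℂ =>
        Complex.exp (2 * π * Complex.I * ((2 * (α * q.2).re : ℝ) : ℂ))).mul
      (continuous_ofReal.comp ?_)))
    unfold poissonKer
    have h1 := HSpace.continuous_z
    have h2 := HSpace.continuous_r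
    refine Continuous.rpow_const (Continuous.div (by fun_prop) (by fun_prop) fun q => ?_)
      fun q => Or.inl ?_
    · have := q.1.r_pos
      exact (add_pos_of_nonneg_of_pos (Complex.normSq_nonneg _) (by positivity)).ne'
    · have := q.1.r_pos
      exact (div_pos this (add_pos_of_nonneg_of_pos (Complex.normSq_nonneg _) (by positivity))).ne'
  · obtain ⟨τ, ξ⟩ := q
    by_cases h0 : k (HSpace.coshDist p τ) = 0
    · simp only [Function.uncurry_apply_pair, h0, zero_mul, norm_zero]
      exact mul_nonneg (Set.indicator_nonneg (fun _ _ => abs_nonneg M) _) (by positivity)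
    have hτ := hbox τ h0
    simp only [Function.uncurry_apply_pair]
    rw [Set.indicator_of_mem hτ, norm_mul, norm_mul, Poisson.norm_eC, one_mul, norm_real,
      Real.norm_eq_abs]
    have hr := τ.r_pos
    have hden : 0 < Complex.normSq (τ.z - ξ) + τ.r ^ 2 :=
      add_pos_of_nonneg_of_pos (Complex.normSq_nonneg _) (by positivity)
    refine mul_le_mul ((hM _).trans (le_abs_self M)) ?_ (abs_nonneg _) (abs_nonneg M)
    simp only [hg]
    rw [poissonKer, abs_of_nonneg (by positivity), Real.rpow_neg (by positivity),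
      ← div_eq_mul_inv, ← Real.div_rpow (by positivity) (by positivity)]
    refine Real.rpow_le_rpow (by positivity) ?_ (by linarith)
    have hz : ‖τ.z‖ ≤ R₁ := by
      have := hτ.1
      rw [Metric.mem_closedBall, dist_eq_norm] at this
      have := norm_sub_norm_le τ.z p.z
      linarith [le_abs_self R]
    have key : 1 + ‖ξ‖ ^ 2 ≤ C * (Complex.normSq (τ.z - ξ) + τ.r ^ 2) := by
      have h1 : ‖ξ‖ ≤ ‖τ.z‖ + ‖τ.z - ξ‖ := by
        calc ‖ξ‖ = ‖τ.z - (τ.z - ξ)‖ := by rw [sub_sub_cancel]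
          _ ≤ _ := norm_sub_le _ _
      have h2 : 1 + ‖ξ‖ ^ 2 ≤ (1 + 2 * R₁ ^ 2) + 2 * ‖τ.z - ξ‖ ^ 2 := by
        nlinarith [norm_nonneg τ.z, norm_nonneg (τ.z - ξ), norm_nonneg ξ,
          sq_nonneg (‖τ.z‖ - ‖τ.z - ξ‖), mul_self_le_mul_self (norm_nonneg τ.z) hz]
      have h3 : 1 + 2 * R₁ ^ 2 ≤ C * τ.r ^ 2 := by
        calc 1 + 2 * R₁ ^ 2 = (1 + 2 * R₁ ^ 2) / a ^ 2 * a ^ 2 := by field_simp
          _ ≤ C * τ.r ^ 2 := mul_le_mul (le_max_right _ _) (pow_le_pow_left₀ ha.le hτ.2.1 2)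
            (by positivity) hC0.le
      rw [mul_add, Complex.normSq_eq_norm_sq]
      nlinarith [mul_le_mul_of_nonneg_right (le_max_left 2 ((1 + 2 * R₁ ^ 2) / a ^ 2))
        (sq_nonneg ‖τ.z - ξ‖)]
    rw [div_le_div_iff₀ hden (by positivity)]
    calc τ.r * (1 + ‖ξ‖ ^ 2) ≤ |b| * (C * (Complex.normSq (τ.z - ξ) + τ.r ^ 2)) :=
          mul_le_mul (hτ.2.2.trans (le_abs_self b)) key (by positivity) (abs_nonneg b)
      _ = _ := by ring

theorem integral_pointPair_whitOneS {k : ℝ → ℂ} (hk : Continuous k) (hc : HasCompactSupport k)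
    {s : ℝ} (hs : 0 < s) {α : ℂ} (hα : α ≠ 0) (p : HSpace) :
    ∫ τ, k (HSpace.coshDist p τ) * whitOneS s α τ ∂HSpace.measure =
      sphTransform k (s : ℂ) * whitOneS s α p := by
  have hn : (whitNorm s α : ℂ) ≠ 0 := by
    have := norm_pos_iff.mpr hα
    have := Real.Gamma_pos_of_pos (show (0 : ℝ) < 1 + s by linarith)
    unfold whitNorm
    exact ofReal_ne_zero.mpr (by positivity)
  refine mul_left_cancel₀ hn ?_
  rw [← integral_const_mul, mul_left_comm, ← fourier_poissonKer hs hα, ← integral_const_mul]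
  have e : ∀ τ, (whitNorm s α : ℂ) * (k (HSpace.coshDist p τ) * whitOneS s α τ) =
      ∫ ξ : ℂ, k (HSpace.coshDist p τ) * (eC (2 * (α * ξ).re) * (poissonKer s ξ τ : ℂ)) :=
    fun τ => by rw [integral_const_mul, fourier_poissonKer hs hα]; ring
  simp only [e]
  rw [integral_integral_swap (integrable_prod_kernel hk hc hs α p)]
  refine integral_congr_ae (Eventually.of_forall fun ξ => ?_)
  have e2 : ∀ τ, k (HSpace.coshDist p τ) * (eC (2 * (α * ξ).re) * (poissonKer s ξ τ : ℂ)) =
      eC (2 * (α * ξ).re) * (k (HSpace.coshDist p τ) * (poissonKer s ξ τ : ℂ)) := fun τ => by ring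
  simp only [e2]
  rw [integral_const_mul, integral_pointPair_poissonKer]
  ring

theorem aestronglyMeasurable_whitOneS (s : ℝ) (α : ℂ) :
    AEStronglyMeasurable (whitOneS s α) HSpace.measure := by
  have h1 : StronglyMeasurable fun τ : HSpace => whitS s (4 * π * ‖α‖ * τ.r) := by
    have hr := HSpace.continuous_r
    have : StronglyMeasurable (Function.uncurry fun (τ : HSpace) (v : ℝ) =>
        Real.exp (-(4 * π * ‖α‖ * τ.r * Real.cosh v) + s * v)) :=
      Continuous.stronglyMeasurable (by simp only [Function.uncurry_def]; fun_prop)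
    exact this.integral_prod_right'
  have hz := HSpace.continuous_z
  refine StronglyMeasurable.aestronglyMeasurable ?_
  exact ((continuous_ofReal.comp_stronglyMeasurable
    (HSpace.continuous_r.stronglyMeasurable.mul h1))).mul
    (by unfold eC; exact Continuous.stronglyMeasurable (by fun_prop))

/-- **Spherical eigenfunction.** -/
theorem integral_pointPair_whitOne {k : ℝ → ℂ} (hk : Continuous k) (hc : HasCompactSupport k)
    {α : ℂ} (hα : α ≠ 0) (p : HSpace) :
    ∫ τ, k (HSpace.coshDist p τ) * whitOne α τ ∂HSpace.measure =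
      sphTransform k 0 * whitOne α p := by
  have hα' := norm_pos_iff.mpr hα
  have hev : ∀ᶠ s in 𝓝[>] (0 : ℝ), 0 < s ∧ |s| ≤ 1 := by
    filter_upwards [Ioo_mem_nhdsGT (show (0 : ℝ) < 1 from one_pos)] with s hs
    exact ⟨hs.1, by rw [abs_of_pos hs.1]; exact hs.2.le⟩
  have hpt : ∀ τ, Tendsto (fun s => whitOneS s α τ) (𝓝[>] 0) (𝓝 (2 * whitOne α τ)) := by
    intro τ
    have := τ.r_pos
    have h := (((tendsto_whitS (show 0 < 4 * π * ‖α‖ * τ.r by positivity)).const_mul
      τ.r).ofReal).mul_const (eC (2 * (α * τ.z).re))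
    convert h using 2 <;> simp [whitOne, whitOneS]
    ring
  obtain ⟨a, b, R, ha, hbox⟩ := exists_kernelBox hc p
  obtain ⟨M, hM⟩ := hc.exists_bound_of_continuous hk
  have hM0 : 0 ≤ M := (norm_nonneg _).trans (hM 0)
  have hbd : ∀ (B : ℝ), Integrable ((kernelBox p.z R a b).indicator fun _ => B) HSpace.measure :=
    fun B => (integrable_indicator_iff (measurableSet_kernelBox _ _ _)).mpr
      (integrableOn_const (measure_kernelBox_lt_top _ _ _ ha).ne)
  have hL : Tendsto (fun s : ℝ => sphTransform k (s : ℂ)) (𝓝[>] 0) (𝓝 (sphTransform k 0)) := by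
    obtain ⟨a', b', R', ha', hbox'⟩ := exists_kernelBox hc HSpace.base
    rw [show (0 : ℂ) = ((0 : ℝ) : ℂ) from rfl, sphTransform_ofReal]
    simp only [sphTransform_ofReal]
    refine tendsto_integral_filter_of_dominated_convergence
      ((kernelBox HSpace.base.z R' a' b').indicator fun _ => M * max b' 1 ^ (2 : ℕ)) ?_ ?_ ?_ ?_
    · refine Eventually.of_forall fun s => Continuous.aestronglyMeasurable ?_
      exact (hk.comp (continuous_coshDist _)).mul (continuous_ofReal.comp
        (HSpace.continuous_r.rpow_const fun τ => Or.inl τ.r_pos.ne'))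
    · refine hev.mono fun s hs => Eventually.of_forall fun τ => ?_
      by_cases h0 : k (HSpace.coshDist HSpace.base τ) = 0
      · rw [h0, zero_mul, norm_zero]
        exact Set.indicator_nonneg (fun _ _ => by positivity) _
      rw [Set.indicator_of_mem (hbox' τ h0), norm_mul, norm_real, Real.norm_eq_abs]
      refine mul_le_mul (hM _) ?_ (abs_nonneg _) hM0
      have := τ.r_pos
      rw [abs_of_nonneg (by positivity), ← Real.rpow_natCast]
      refine (Real.rpow_le_rpow this.le ((hbox' τ h0).2.2.trans (le_max_left _ _))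
        (by linarith [hs.1])).trans (Real.rpow_le_rpow_of_exponent_le (le_max_right _ _) ?_)
      push_cast
      linarith [abs_le.mp hs.2]
    · exact (integrable_indicator_iff (measurableSet_kernelBox _ _ _)).mpr
        (integrableOn_const (measure_kernelBox_lt_top _ _ _ ha').ne)
    · refine Eventually.of_forall fun τ => Tendsto.const_mul _ (Tendsto.ofReal ?_)
      exact ((Real.continuous_const_rpow τ.r_pos.ne').comp
        (continuous_const.add continuous_id)).tendsto 0 |>.mono_left nhdsWithin_le_nhds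
  have hT : Tendsto (fun s => ∫ τ, k (HSpace.coshDist p τ) * whitOneS s α τ ∂HSpace.measure)
      (𝓝[>] 0) (𝓝 (∫ τ, k (HSpace.coshDist p τ) * (2 * whitOne α τ) ∂HSpace.measure)) := by
    refine tendsto_integral_filter_of_dominated_convergence
      ((kernelBox p.z R a b).indicator fun _ => M * (|b| *
        ∫ v : ℝ, Real.exp ((4 * π * ‖α‖ * a)⁻¹) *
          Real.exp (-((4 * π * ‖α‖ * a) / 4) * v ^ 2))) ?_ ?_ (hbd _) ?_
    · exact Eventually.of_forall fun s =>
        ((hk.comp (continuous_coshDist p)).aestronglyMeasurable).mul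
          (aestronglyMeasurable_whitOneS s α)
    · refine hev.mono fun s hs => Eventually.of_forall fun τ => ?_
      by_cases h0 : k (HSpace.coshDist p τ) = 0
      · rw [h0, zero_mul, norm_zero]
        exact Set.indicator_nonneg (fun _ _ => mul_nonneg hM0 (mul_nonneg (abs_nonneg _)
          (integral_nonneg fun _ => by positivity))) _
      rw [Set.indicator_of_mem (hbox τ h0), norm_mul, whitOneS, norm_mul, Poisson.norm_eC, mul_one,
        norm_real, norm_mul]
      refine mul_le_mul (hM _) (mul_le_mul ?_ ?_ (norm_nonneg _) (abs_nonneg b)) (by positivity) hM0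
      · rw [Real.norm_eq_abs, abs_of_pos τ.r_pos]
        exact (hbox τ h0).2.2.trans (le_abs_self b)
      · exact norm_whitS_le hs.2 (by positivity)
          (mul_le_mul_of_nonneg_left (hbox τ h0).2.1 (by positivity))
    · exact Eventually.of_forall fun τ => (hpt τ).const_mul _
  have hR : Tendsto (fun s => ∫ τ, k (HSpace.coshDist p τ) * whitOneS s α τ ∂HSpace.measure)
      (𝓝[>] 0) (𝓝 (sphTransform k 0 * (2 * whitOne α p))) :=
    (hL.mul (hpt p)).congr' (hev.mono fun s hs =>
      (integral_pointPair_whitOneS hk hc hs.1 hα p).symm)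
  have h := tendsto_nhds_unique hT hR
  rw [show (fun τ => k (HSpace.coshDist p τ) * (2 * whitOne α τ)) =
    fun τ => 2 * (k (HSpace.coshDist p τ) * whitOne α τ) by funext τ; ring,
    integral_const_mul] at h
  exact mul_left_cancel₀ (two_ne_zero (α := ℂ)) (by rw [h]; ring)

/-- At one place the product of Bessel functions is a multiple of `whitOne`. -/
theorem integral_pointPair_qWhit {ι : Type*} [Fintype ι] [DecidableEq ι] {k : ℝ → ℂ}
    (hk : Continuous k) (hc : HasCompactSupport k) (u : ι → ℂ) (τ : ι → HSpace)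
    (x : ι → ℂ × ℂ) (i : ι) (hne : u i * (x i).1 * (x i).2 ≠ 0) :
    ∫ σ, k (HSpace.coshDist (τ i) σ) * qWhit u (Function.update τ i σ) x ∂HSpace.measure =
      sphTransform k 0 * qWhit u τ x := by
  set c : ℂ := ∏ j ∈ Finset.univ.erase i,
    ((2 * (τ j).r * besselK0 (4 * π * (τ j).r * ‖u j * (x j).1 * (x j).2‖) : ℝ) : ℂ) *
      eC (2 * ((τ j).z * u j * (x j).1 * (x j).2).re) with hc'
  have hsplit : ∀ σ, qWhit u (Function.update τ i σ) x =
      2 * c * whitOne (u i * (x i).1 * (x i).2) σ := by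
    intro σ
    rw [qWhit, ← Finset.mul_prod_erase _ _ (Finset.mem_univ i), Function.update_self,
      Finset.prod_congr rfl (fun j hj => by rw [Function.update_of_ne (Finset.ne_of_mem_erase hj)]),
      ← hc', whitOne, show σ.z * u i * (x i).1 * (x i).2 = u i * (x i).1 * (x i).2 * σ.z by ring,
      show 4 * π * σ.r * ‖u i * (x i).1 * (x i).2‖ =
        4 * π * ‖u i * (x i).1 * (x i).2‖ * σ.r by ring]
    push_cast
    ring
  have h := hsplit (τ i)
  rw [Function.update_eq_self] at h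
  simp only [hsplit, h, ← mul_assoc, mul_comm _ (2 * c)]
  simp only [mul_assoc (2 * c)]
  rw [integral_const_mul, integral_pointPair_whitOne hk hc hne, mul_left_comm]

end Fermat.Agent.LT.Theta
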