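import Fermat.Agent.LT.Theta.Gauss
import Fermat.Agent.LT.Theta.Bessel
import Mathlib.Algebra.Module.ZLattice.Basic
import Mathlib.MeasureTheory.Group.FundamentalDomain
import Mathlib.GroupTheory.GroupAction.Basic

/-!
Integrating the Gaussian over the majorant parameter gives Bessel functions; unfolding a theta
sum over a unit group acting through a lattice of parameters.
-/

set_option autoImplicit false

noncomputable section

namespace Fermat.Agent.LT.Theta

open MeasureTheory Complex Adelic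
open Poisson (eC)
open scoped Real

variable {ι : Type*} [Fintype ι]

/-- The unfolded Gaussian: `∏ 2 r K₀(4π r |u x₁ x₂|) e(2 Re (z u x₁ x₂))`. -/
def qWhit (u : ι → ℂ) (τ : ι → HSpace) (x : ι → ℂ × ℂ) : ℂ :=
  ∏ i, ((2 * (τ i).r * besselK0 (4 * π * (τ i).r * ‖u i * (x i).1 * (x i).2‖) : ℝ) : ℂ) *
    eC (2 * ((τ i).z * u i * (x i).1 * (x i).2).re)

theorem norm_qWhit (u : ι → ℂ) (τ : ι → HSpace) (x : ι → ℂ × ℂ) :
    ‖qWhit u τ x‖ =
      ∏ i, 2 * (τ i).r * besselK0 (4 * π * (τ i).r * ‖u i * (x i).1 * (x i).2‖) := by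
  rw [qWhit, norm_prod]
  refine Finset.prod_congr rfl fun i _ => ?_
  rw [norm_mul, Poisson.norm_eC, mul_one, norm_real, Real.norm_eq_abs, abs_of_nonneg]
  exact mul_nonneg (mul_nonneg zero_le_two (τ i).r_pos.le) (besselK0_nonneg _)

section Line

variable (u : ι → ℂ) (τ : ι → HSpace) (x : ι → ℂ × ℂ)

/-- The integrand of one place. -/
def lineTerm (i : ι) (t : ℝ) : ℂ :=
  ((τ i).r : ℂ) * Real.exp (-2 * π * (τ i).r * ‖u i‖ *
      (Real.exp t * ‖(x i).1‖ ^ 2 + Real.exp (-t) * ‖(x i).2‖ ^ 2)) *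
    eC (2 * ((τ i).z * u i * (x i).1 * (x i).2).re)

theorem qGauss_eq_prod_lineTerm (s : ι → ℝ) :
    qGauss u s τ x = ∏ i, lineTerm u τ x i (s i) := rfl

variable (hu : ∀ i, u i ≠ 0) (h₁ : ∀ i, (x i).1 ≠ 0) (h₂ : ∀ i, (x i).2 ≠ 0)
include hu h₁ h₂

omit [Fintype ι] hu h₁ h₂ in
theorem exp_lineTerm (i : ι) (t : ℝ) :
    Real.exp (-2 * π * (τ i).r * ‖u i‖ *
      (Real.exp t * ‖(x i).1‖ ^ 2 + Real.exp (-t) * ‖(x i).2‖ ^ 2)) =
    Real.exp (-((2 * π * (τ i).r * ‖u i‖ * ‖(x i).1‖ ^ 2) * Real.exp t +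
      (2 * π * (τ i).r * ‖u i‖ * ‖(x i).2‖ ^ 2) * Real.exp (-t))) := by
  congr 1
  ring

omit [Fintype ι] in
theorem integrable_lineTerm (i : ι) : Integrable (lineTerm u τ x i) := by
  have := (τ i).r_pos
  have := norm_pos_iff.mpr (hu i)
  have := norm_pos_iff.mpr (h₁ i)
  have := norm_pos_iff.mpr (h₂ i)
  have h := integrable_exp_neg_add_exp
    (A := 2 * π * (τ i).r * ‖u i‖ * ‖(x i).1‖ ^ 2)
    (B := 2 * π * (τ i).r * ‖u i‖ * ‖(x i).2‖ ^ 2) (by positivity) (by positivity)
  refine ((h.ofReal (𝕜 := ℂ)).const_mul ((τ i).r : ℂ)).mul_const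
    (eC (2 * ((τ i).z * u i * (x i).1 * (x i).2).re)) |>.congr
    (Filter.Eventually.of_forall fun t => ?_)
  rw [lineTerm, exp_lineTerm u τ x]
  rfl

omit [Fintype ι] in
theorem integral_exp_lineTerm (i : ι) :
    ∫ t : ℝ, Real.exp (-2 * π * (τ i).r * ‖u i‖ *
      (Real.exp t * ‖(x i).1‖ ^ 2 + Real.exp (-t) * ‖(x i).2‖ ^ 2)) =
      2 * besselK0 (4 * π * (τ i).r * ‖u i * (x i).1 * (x i).2‖) := by
  have := (τ i).r_pos
  have := norm_pos_iff.mpr (hu i)
  have := norm_pos_iff.mpr (h₁ i)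
  have := norm_pos_iff.mpr (h₂ i)
  simp only [exp_lineTerm u τ x]
  rw [integral_exp_neg_add_exp (by positivity) (by positivity)]
  congr 2
  rw [show 2 * π * (τ i).r * ‖u i‖ * ‖(x i).1‖ ^ 2 * (2 * π * (τ i).r * ‖u i‖ * ‖(x i).2‖ ^ 2) =
    (2 * π * (τ i).r * ‖u i * (x i).1 * (x i).2‖) ^ 2 by rw [norm_mul, norm_mul]; ring,
    Real.sqrt_sq (by positivity)]
  ring

theorem integrable_qGauss_param : Integrable fun s : ι → ℝ => qGauss u s τ x := by
  simp only [qGauss_eq_prod_lineTerm]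
  exact Integrable.fintype_prod (integrable_lineTerm u τ x hu h₁ h₂)

/-- The integral over all majorants. -/
theorem integral_qGauss_param : ∫ s : ι → ℝ, qGauss u s τ x = qWhit u τ x := by
  simp only [qGauss_eq_prod_lineTerm]
  rw [integral_fintype_prod_volume_eq_prod (fun i t => lineTerm u τ x i t), qWhit]
  refine Finset.prod_congr rfl fun i _ => ?_
  simp only [lineTerm]
  rw [integral_mul_const, integral_const_mul, integral_complex_ofReal,
    integral_exp_lineTerm u τ x hu h₁ h₂]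
  push_cast
  ring

theorem integral_norm_qGauss_param : ∫ s : ι → ℝ, ‖qGauss u s τ x‖ = ‖qWhit u τ x‖ := by
  simp only [norm_qGauss, norm_qWhit]
  rw [integral_fintype_prod_volume_eq_prod (fun i t => (τ i).r * Real.exp (-2 * π * (τ i).r *
    ‖u i‖ * (Real.exp t * ‖(x i).1‖ ^ 2 + Real.exp (-t) * ‖(x i).2‖ ^ 2)))]
  refine Finset.prod_congr rfl fun i _ => ?_
  rw [integral_const_mul, integral_exp_lineTerm u τ x hu h₁ h₂]
  ring

end Line

theorem continuous_qGauss_param (u : ι → ℂ) (τ : ι → HSpace) (x : ι → ℂ × ℂ) :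
    Continuous fun s : ι → ℝ => qGauss u s τ x := by
  unfold qGauss eC
  fun_prop

/-- On a bounded set of parameters the Gaussian is dominated by `exp (-c ‖x‖²)`. -/
theorem exists_norm_qGauss_le (u : ι → ℂ) (hu : ∀ i, u i ≠ 0) (τ : ι → HSpace) (R : ℝ) :
    ∃ c, 0 < c ∧ ∀ (s : ι → ℝ), ‖s‖ ≤ R → ∀ x : ι → ℂ × ℂ,
      ‖qGauss u s τ x‖ ≤ (∏ i, (τ i).r) * Real.exp (-c * ‖x‖ ^ 2) := by
  classical
  rcases isEmpty_or_nonempty ι with hι | hι
  · refine ⟨1, one_pos, fun s _ x => ?_⟩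
    rw [norm_qGauss, Subsingleton.elim x 0]
    simp
  have hf : ∀ i, 0 < 2 * π * (τ i).r * ‖u i‖ * Real.exp (-R) := fun i => by
    have := (τ i).r_pos
    have := norm_pos_iff.mpr (hu i)
    positivity
  refine ⟨Finset.univ.inf' Finset.univ_nonempty
    (fun i => 2 * π * (τ i).r * ‖u i‖ * Real.exp (-R)), by simpa using hf, fun s hs x => ?_⟩
  set c := Finset.univ.inf' Finset.univ_nonempty
    (fun i => 2 * π * (τ i).r * ‖u i‖ * Real.exp (-R))
  have hc : 0 ≤ c := (by simpa [c] using fun i => hf i : 0 < c).le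
  obtain ⟨i₀, -, hi₀⟩ := Finset.exists_max_image Finset.univ (fun i => ‖x i‖) Finset.univ_nonempty
  have hx : ‖x‖ = ‖x i₀‖ := le_antisymm
    ((pi_norm_le_iff_of_nonneg (norm_nonneg _)).mpr fun i => hi₀ i (Finset.mem_univ i))
    (norm_le_pi_norm x i₀)
  have hterm : ∀ i, c * ‖x i‖ ^ 2 ≤ 2 * π * (τ i).r * ‖u i‖ *
      (Real.exp (s i) * ‖(x i).1‖ ^ 2 + Real.exp (-s i) * ‖(x i).2‖ ^ 2) := by
    intro i
    have hi : |s i| ≤ R := ((Real.norm_eq_abs _).symm.le.trans (norm_le_pi_norm s i)).trans hs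
    have hle : c ≤ 2 * π * (τ i).r * ‖u i‖ * Real.exp (-R) :=
      Finset.inf'_le _ (Finset.mem_univ i)
    have e1 : Real.exp (-R) ≤ Real.exp (s i) := Real.exp_le_exp.mpr (by linarith [abs_le.mp hi])
    have e2 : Real.exp (-R) ≤ Real.exp (-s i) := Real.exp_le_exp.mpr (by linarith [abs_le.mp hi])
    have h2 : ‖x i‖ ^ 2 ≤ ‖(x i).1‖ ^ 2 + ‖(x i).2‖ ^ 2 := by
      rw [Prod.norm_def]
      rcases max_choice ‖(x i).1‖ ‖(x i).2‖ with h | h <;> rw [h] <;> simp
    calc c * ‖x i‖ ^ 2 ≤ (2 * π * (τ i).r * ‖u i‖ * Real.exp (-R)) * ‖x i‖ ^ 2 :=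
          mul_le_mul_of_nonneg_right hle (sq_nonneg _)
      _ ≤ (2 * π * (τ i).r * ‖u i‖) * (Real.exp (-R) *
            (‖(x i).1‖ ^ 2 + ‖(x i).2‖ ^ 2)) := by
          rw [mul_assoc]
          have := (τ i).r_pos
          gcongr
      _ ≤ _ := by
          have := (τ i).r_pos
          rw [mul_add (Real.exp (-R))]
          gcongr
  rw [norm_qGauss, Finset.prod_mul_distrib, ← Real.exp_sum]
  refine mul_le_mul_of_nonneg_left (Real.exp_le_exp.mpr ?_)
    (Finset.prod_nonneg fun i _ => (τ i).r_pos.le)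
  have h0 : ∀ i, 0 ≤ 2 * π * (τ i).r * ‖u i‖ *
      (Real.exp (s i) * ‖(x i).1‖ ^ 2 + Real.exp (-s i) * ‖(x i).2‖ ^ 2) :=
    fun i => (mul_nonneg hc (sq_nonneg _)).trans (hterm i)
  have h1 := Finset.single_le_sum (fun i _ => h0 i) (Finset.mem_univ i₀)
  simp only [neg_mul, Finset.sum_neg_distrib]
  rw [neg_le_neg_iff, hx]
  exact (hterm i₀).trans h1

variable {S E : Type*} [CommGroup E] [MulAction E S]

/-- `E` is parametrised by a full lattice of parameters and acts freely, shifting the parameter. -/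
structure IsUnfoldData (b : Module.Basis ι ℝ (ι → ℝ)) (ℓ : E → ι → ℝ) (u : ι → ℂ)
    (j : S → ι → ℂ × ℂ) (w : S → ℂ) : Prop where
  form_ne_zero : ∀ i, u i ≠ 0
  injective : Function.Injective ℓ
  range_eq : Set.range ℓ = (Submodule.span ℤ (Set.range b) : Set (ι → ℝ))
  free : ∀ (e : E) (x : S), e • x = x → e = 1
  fst_ne_zero : ∀ x i, (j x i).1 ≠ 0
  snd_ne_zero : ∀ x i, (j x i).2 ≠ 0
  weight_smul : ∀ (e : E) (x : S), w (e • x) = w x
  gauss_smul : ∀ (e : E) (x : S) (s : ι → ℝ) (τ : ι → HSpace),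
    qGauss u s τ (j (e • x)) = qGauss u (s + ℓ e) τ (j x)
  summable : ∀ c : ℝ, 0 < c → Summable fun x => ‖w x‖ * Real.exp (-c * ‖j x‖ ^ 2)

namespace IsUnfoldData

variable {b : Module.Basis ι ℝ (ι → ℝ)} {ℓ : E → ι → ℝ} {u : ι → ℂ} {j : S → ι → ℂ × ℂ}
  {w : S → ℂ}

theorem countable_group (h : IsUnfoldData b ℓ u j w) : Countable E := by
  have : Countable (Submodule.span ℤ (Set.range b)) :=
    (b.restrictScalars ℤ).repr.toEquiv.injective.countable
  exact Function.Injective.countable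
    (f := fun e => (⟨ℓ e, by rw [← SetLike.mem_coe, ← h.range_eq]; exact ⟨e, rfl⟩⟩ :
      Submodule.span ℤ (Set.range b))) fun e e' he => h.injective (congrArg Subtype.val he)

/-- The parametrisation of the points by orbits and group elements. -/
def orbitEquiv (h : IsUnfoldData b ℓ u j w) : MulAction.orbitRel.Quotient E S × E ≃ S :=
  Equiv.ofBijective (fun p => p.2 • p.1.out) <| by
    constructor
    · rintro ⟨q, e⟩ ⟨q', e'⟩ hq
      simp only at hq
      have hqq : q = q' := by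
        rw [← q.out_eq, ← q'.out_eq]
        refine Quotient.sound ⟨e⁻¹ * e', ?_⟩
        show (e⁻¹ * e') • q'.out = q.out
        rw [mul_smul, ← hq, inv_smul_smul]
      subst hqq
      have := h.free (e'⁻¹ * e) _ (by rw [mul_smul, hq, inv_smul_smul])
      rw [inv_mul_eq_one] at this
      rw [this]
    · intro x
      obtain ⟨e, he⟩ := Quotient.mk_out (s := MulAction.orbitRel E S) x
      exact ⟨(Quotient.mk'' x, e⁻¹), by
        show e⁻¹ • (Quotient.mk (MulAction.orbitRel E S) x).out = x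
        rw [← he, inv_smul_smul]⟩

theorem orbitEquiv_apply (h : IsUnfoldData b ℓ u j w) (q : MulAction.orbitRel.Quotient E S)
    (e : E) : h.orbitEquiv (q, e) = e • q.out := rfl

theorem integrable_term (h : IsUnfoldData b ℓ u j w) (τ : ι → HSpace) (x : S) :
    Integrable (fun s => w x * qGauss u s τ (j x))
      (volume.restrict (ZSpan.fundamentalDomain b)) :=
  ((integrable_qGauss_param u τ (j x) h.form_ne_zero (h.fst_ne_zero x)
    (h.snd_ne_zero x)).const_mul (w x)).restrict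

theorem summable_integral_norm (h : IsUnfoldData b ℓ u j w) (τ : ι → HSpace) :
    Summable fun x : S => ∫ s in ZSpan.fundamentalDomain b, ‖w x * qGauss u s τ (j x)‖ := by
  obtain ⟨R, hR⟩ := (ZSpan.fundamentalDomain_isBounded b).exists_norm_le
  obtain ⟨c, hc, hb⟩ := exists_norm_qGauss_le u h.form_ne_zero τ R
  refine Summable.of_nonneg_of_le (fun x => integral_nonneg fun s => norm_nonneg _) (fun x => ?_)
    ((h.summable c hc).mul_left ((∏ i, (τ i).r) * volume.real (ZSpan.fundamentalDomain b)))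
  have hfin : volume (ZSpan.fundamentalDomain b) < ⊤ :=
    (ZSpan.fundamentalDomain_isBounded b).measure_lt_top
  refine le_trans (le_abs_self _) ?_
  rw [← Real.norm_eq_abs]
  refine (norm_setIntegral_le_of_norm_le_const hfin (fun s hs => ?_)
    (C := (∏ i, (τ i).r) * (‖w x‖ * Real.exp (-c * ‖j x‖ ^ 2)))).trans (le_of_eq (by ring))
  rw [norm_norm, norm_mul, mul_left_comm]
  exact mul_le_mul_of_nonneg_left (hb s (hR s hs) (j x)) (norm_nonneg _)

theorem integral_eq_tsum_group {F : Type*} [NormedAddCommGroup F] [NormedSpace ℝ F]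
    (h : IsUnfoldData b ℓ u j w) {g : (ι → ℝ) → F} (hg : Integrable g) :
    ∫ s, g s = ∑' e : E, ∫ s in ZSpan.fundamentalDomain b, g (s + ℓ e) := by
  have hc := h.countable_group
  let eqv : E ≃ (Submodule.span ℤ (Set.range b)).toAddSubgroup := Equiv.ofBijective
    (fun e => ⟨ℓ e, show ℓ e ∈ Submodule.span ℤ (Set.range b) by
      rw [← SetLike.mem_coe, ← h.range_eq]; exact ⟨e, rfl⟩⟩)
    ⟨fun e e' he => h.injective (congrArg Subtype.val he), fun ⟨v, hv⟩ => by
      replace hv : v ∈ Set.range ℓ := by rw [h.range_eq]; exact hv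
      obtain ⟨e, rfl⟩ := hv
      exact ⟨e, rfl⟩⟩
  have : Countable (Submodule.span ℤ (Set.range b)).toAddSubgroup := eqv.symm.injective.countable
  rw [(ZSpan.isAddFundamentalDomain' b volume).integral_eq_tsum' g hg,
    ← (eqv.trans (Equiv.neg _)).tsum_eq]
  refine tsum_congr fun e => ?_
  refine integral_congr_ae (Filter.Eventually.of_forall fun s => ?_)
  show g (-(-(eqv e)) +ᵥ s) = g (s + ℓ e)
  rw [neg_neg, add_comm]
  rfl

theorem setIntegral_smul_term (h : IsUnfoldData b ℓ u j w) (τ : ι → HSpace)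
    (q : MulAction.orbitRel.Quotient E S) (e : E) :
    (fun s => w (e • q.out) * qGauss u s τ (j (e • q.out))) =
      fun s => w q.out * qGauss u (s + ℓ e) τ (j q.out) := by
  funext s
  rw [h.weight_smul, h.gauss_smul]

/-- The weights times the Bessel products are summable over orbits. -/
theorem summable_whit (h : IsUnfoldData b ℓ u j w) (τ : ι → HSpace) :
    Summable fun q : MulAction.orbitRel.Quotient E S => ‖w q.out‖ * ‖qWhit u τ (j q.out)‖ := by
  refine ((h.orbitEquiv.summable_iff.mpr (h.summable_integral_norm τ)).prod).congr fun q => ?_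
  rw [← integral_norm_qGauss_param u τ _ h.form_ne_zero (h.fst_ne_zero _) (h.snd_ne_zero _),
    ← integral_const_mul, h.integral_eq_tsum_group
      (((integrable_qGauss_param u τ _ h.form_ne_zero (h.fst_ne_zero _)
        (h.snd_ne_zero _)).norm).const_mul _)]
  refine tsum_congr fun e => integral_congr_ae (Filter.Eventually.of_forall fun s => ?_)
  show ‖(fun s => w (e • q.out) * qGauss u s τ (j (e • q.out))) s‖ = _
  rw [h.setIntegral_smul_term, norm_mul]

/-- **Unfolding.** -/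
theorem integral_tsum (h : IsUnfoldData b ℓ u j w) [Countable S] (τ : ι → HSpace) :
    ∫ s in ZSpan.fundamentalDomain b, ∑' x : S, w x * qGauss u s τ (j x) =
      ∑' q : MulAction.orbitRel.Quotient E S, w q.out * qWhit u τ (j q.out) := by
  rw [← integral_tsum_of_summable_integral_norm (h.integrable_term τ)
    (h.summable_integral_norm τ), ← h.orbitEquiv.tsum_eq]
  have hs : Summable fun p : MulAction.orbitRel.Quotient E S × E =>
      ∫ s in ZSpan.fundamentalDomain b,
        w (h.orbitEquiv p) * qGauss u s τ (j (h.orbitEquiv p)) :=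
    Summable.of_norm_bounded (h.orbitEquiv.summable_iff.mpr (h.summable_integral_norm τ))
      fun p => norm_integral_le_integral_norm _
  rw [hs.tsum_prod]
  refine tsum_congr fun q => ?_
  rw [← integral_qGauss_param u τ _ h.form_ne_zero (h.fst_ne_zero _) (h.snd_ne_zero _),
    ← integral_const_mul, h.integral_eq_tsum_group
      ((integrable_qGauss_param u τ _ h.form_ne_zero (h.fst_ne_zero _)
        (h.snd_ne_zero _)).const_mul _)]
  refine tsum_congr fun e => ?_
  rw [orbitEquiv_apply, h.setIntegral_smul_term]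

end IsUnfoldData

end Fermat.Agent.LT.Theta
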